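import Mathlib

/-!
# Functional equations of Dirichlet series (plan Z, block Z4)

`FE a a' D r₁ r₂`: the Dirichlet series of `a`, completed with conductor `D` and gamma factor
`Γ_ℝ^r₁ Γ_ℂ^r₂`, continues to an entire function (after a power of `s (1 - s)`), and its value at
`1 - s` is a non-zero constant times the completed Dirichlet series of `a'`.
-/

set_option autoImplicit false

noncomputable section

open Complex

namespace Fermat.Agent.Classic.Zeta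

/-- Functional equation `a ↔ a'` of conductor `D` and gamma factor `Γ_ℝ^r₁ Γ_ℂ^r₂`. -/
def FE (a a' : ℕ → ℂ) (D r₁ r₂ : ℕ) : Prop :=
  ∃ (k : ℕ) (κ : ℂ) (Ξ : ℂ → ℂ) (σ : ℝ), κ ≠ 0 ∧ Differentiable ℂ Ξ ∧ 1 ≤ σ ∧
    ∀ s : ℂ, σ < s.re → LSeriesSummable a s ∧ LSeriesSummable a' s ∧
      Ξ s = (s * (1 - s)) ^ k *
        ((D : ℂ) ^ (s / 2) * Gammaℝ s ^ r₁ * Gammaℂ s ^ r₂ * LSeries a s) ∧
      Ξ (1 - s) = κ * ((s * (1 - s)) ^ k *
        ((D : ℂ) ^ (s / 2) * Gammaℝ s ^ r₁ * Gammaℂ s ^ r₂ * LSeries a' s))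

/-- the factor `1 - ν^{-s}` -/
def ef (ν : ℕ) : ℕ → ℂ := fun n => if n = 1 then 1 else if n = ν then -1 else 0

/-- the factor `1 - ν^{1-s}` -/
def ef' (ν : ℕ) : ℕ → ℂ := fun n => if n = 1 then 1 else if n = ν then -(ν : ℂ) else 0

/-- the exact power of `q` dividing all `n` in the support of `a` is `q ^ j` -/
def QMin (q : ℕ) (a : ℕ → ℂ) (j : ℕ) : Prop :=
  (∀ n, n ≠ 0 → a n ≠ 0 → q ^ j ∣ n) ∧ ∃ n, n ≠ 0 ∧ a n ≠ 0 ∧ ¬ q ^ (j + 1) ∣ n

end Fermat.Agent.Classic.Zeta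

end
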