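import Fermat.Agent.Classic.Zeta.FE

/-!
# Functional equations: products, conjugation, the factors `1 - ν^{-s}`
-/

set_option autoImplicit false

noncomputable section

open Complex
open scoped LSeries.notation ComplexConjugate

namespace Fermat.Agent.Classic.Zeta

theorem FE.congr {a a' b b' : ℕ → ℂ} {D r₁ r₂ : ℕ} (h : FE a a' D r₁ r₂)
    (hb : ∀ n, n ≠ 0 → a n = b n) (hb' : ∀ n, n ≠ 0 → a' n = b' n) : FE b b' D r₁ r₂ := by
  obtain ⟨k, κ, Ξ, σ, hκ, hΞ, hσ, h⟩ := h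
  refine ⟨k, κ, Ξ, σ, hκ, hΞ, hσ, fun s hs => ?_⟩
  obtain ⟨h1, h2, h3, h4⟩ := h s hs
  refine ⟨(LSeriesSummable_congr s (fun {n} hn => hb n hn)).mp h1,
    (LSeriesSummable_congr s (fun {n} hn => hb' n hn)).mp h2, ?_, ?_⟩
  · rw [h3, LSeries_congr (fun {n} hn => hb n hn) s]
  · rw [h4, LSeries_congr (fun {n} hn => hb' n hn) s]

theorem FE.mul {a a' b b' : ℕ → ℂ} {D D' r₁ r₂ t₁ t₂ : ℕ} (h : FE a a' D r₁ r₂)
    (h' : FE b b' D' t₁ t₂) : FE (a ⍟ b) (a' ⍟ b') (D * D') (r₁ + t₁) (r₂ + t₂) := by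
  obtain ⟨k, κ, Ξ, σ, hκ, hΞ, hσ, h⟩ := h
  obtain ⟨k', κ', Ξ', σ', hκ', hΞ', hσ', h'⟩ := h'
  refine ⟨k + k', κ * κ', fun s => Ξ s * Ξ' s, max σ σ', mul_ne_zero hκ hκ', hΞ.mul hΞ',
    le_max_of_le_left hσ, fun s hs => ?_⟩
  obtain ⟨h1, h2, h3, h4⟩ := h s (lt_of_le_of_lt (le_max_left _ _) hs)
  obtain ⟨h1', h2', h3', h4'⟩ := h' s (lt_of_le_of_lt (le_max_right _ _) hs)
  refine ⟨h1.convolution h1', h2.convolution h2', ?_, ?_⟩
  · change Ξ s * Ξ' s = _
    rw [h3, h3', LSeries_convolution' h1 h1', Nat.cast_mul, natCast_mul_natCast_cpow]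
    ring
  · change Ξ (1 - s) * Ξ' (1 - s) = _
    rw [h4, h4', LSeries_convolution' h2 h2', Nat.cast_mul, natCast_mul_natCast_cpow]
    ring

theorem FE.one : FE δ δ 1 0 0 := by
  refine ⟨0, 1, fun _ => 1, 1, one_ne_zero, differentiable_const _, le_rfl, fun s hs => ?_⟩
  have h1 : LSeriesSummable δ s := by
    refine (summable_of_ne_finset_zero (s := {1}) fun n hn => ?_)
    rw [LSeries.term_delta, if_neg (by simpa using hn)]
  have h2 : LSeries δ s = 1 := by rw [LSeries_delta]; rfl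
  refine ⟨h1, h1, ?_, ?_⟩ <;> simp [h2]

theorem natCast_cpow_conj (n : ℕ) (s : ℂ) : (n : ℂ) ^ (conj s) = conj ((n : ℂ) ^ s) := by
  rw [cpow_conj _ _ (by rw [natCast_arg]; exact Real.pi_pos.ne), conj_natCast]

theorem term_conj (a : ℕ → ℂ) (s : ℂ) (n : ℕ) :
    LSeries.term (fun n => conj (a n)) (conj s) n = conj (LSeries.term a s n) := by
  rcases eq_or_ne n 0 with rfl | hn
  · simp
  · rw [LSeries.term_of_ne_zero hn, LSeries.term_of_ne_zero hn, map_div₀, natCast_cpow_conj]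

theorem summable_conj {a : ℕ → ℂ} {s : ℂ} (h : LSeriesSummable a s) :
    LSeriesSummable (fun n => conj (a n)) (conj s) := by
  have h1 : LSeries.term (fun n => conj (a n)) (conj s) =
      fun n => conj (LSeries.term a s n) := funext fun n => term_conj a s n
  unfold LSeriesSummable
  rw [h1]
  exact (Complex.hasSum_conj'.mpr h.hasSum).summable

theorem LSeries_conj (a : ℕ → ℂ) (s : ℂ) :
    LSeries (fun n => conj (a n)) (conj s) = conj (LSeries a s) := by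
  rw [LSeries, LSeries, Complex.conj_tsum]
  exact tsum_congr fun n => term_conj a s n

theorem Gammaℂ_conj (s : ℂ) : Gammaℂ (conj s) = conj (Gammaℂ s) := by
  rw [Gammaℂ_def, Gammaℂ_def, Gamma_conj, map_mul, map_mul, map_ofNat, ← map_neg,
    cpow_conj (2 * (Real.pi : ℂ)) _ ?_]
  · rw [map_mul, map_ofNat, conj_ofReal]
  · have h : (2 * (Real.pi : ℂ)) = ((2 * Real.pi : ℝ) : ℂ) := by push_cast; ring
    rw [h, arg_ofReal_of_nonneg (by positivity)]
    exact Real.pi_pos.ne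

theorem Gammaℝ_conj (s : ℂ) : Gammaℝ (conj s) = conj (Gammaℝ s) := by
  have h2 : conj s / 2 = conj (s / 2) := by rw [map_div₀, map_ofNat]
  have h3 : -conj s / 2 = conj (-s / 2) := by rw [map_div₀, map_ofNat, map_neg]
  rw [Gammaℝ_def, Gammaℝ_def, h2, h3, Gamma_conj, map_mul, cpow_conj _ _ ?_, conj_ofReal]
  rw [arg_ofReal_of_nonneg Real.pi_pos.le]
  exact Real.pi_pos.ne

theorem FE.conj {a a' : ℕ → ℂ} {D r₁ r₂ : ℕ} (h : FE a a' D r₁ r₂) :
    FE (fun n => conj (a n)) (fun n => conj (a' n)) D r₁ r₂ := by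
  obtain ⟨k, κ, Ξ, σ, hκ, hΞ, hσ, h⟩ := h
  refine ⟨k, conj κ, fun s => conj (Ξ (conj s)), σ, (map_ne_zero _).mpr hκ, fun s => ?_, hσ,
    fun s hs => ?_⟩
  · exact differentiableAt_conj_conj_iff.mpr (hΞ (conj s))
  · obtain ⟨h1, h2, h3, h4⟩ := h (conj s) (by rwa [conj_re])
    have h5 := summable_conj h1
    have h6 := summable_conj h2
    rw [conj_conj] at h5 h6
    have hD : (D : ℂ) ^ (conj s / 2) = conj ((D : ℂ) ^ (s / 2)) := by
      rw [← natCast_cpow_conj, map_div₀, map_ofNat]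
    refine ⟨h5, h6, ?_, ?_⟩
    · change conj (Ξ (conj s)) = _
      rw [h3]
      simp only [map_mul, map_pow, map_sub, map_one, conj_conj, hD, Gammaℝ_conj, Gammaℂ_conj]
      rw [← LSeries_conj, conj_conj]
    · change conj (Ξ (conj (1 - s))) = _
      rw [map_sub, map_one, h4]
      simp only [map_mul, map_pow, map_sub, map_one, conj_conj, hD, Gammaℝ_conj, Gammaℂ_conj]
      rw [← LSeries_conj, conj_conj]

theorem hasSum_ef {ν : ℕ} (hν : 2 ≤ ν) (c : ℂ) (s : ℂ) :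
    LSeriesHasSum (fun n => if n = 1 then 1 else if n = ν then c else 0) s
      (1 + c / (ν : ℂ) ^ s) := by
  unfold LSeriesHasSum
  have h1 : ∀ n ∉ ({1, ν} : Finset ℕ),
      LSeries.term (fun n => if n = 1 then 1 else if n = ν then c else 0) s n = 0 := by
    intro n hn
    rw [Finset.mem_insert, Finset.mem_singleton, not_or] at hn
    rcases eq_or_ne n 0 with rfl | h0
    · simp
    · rw [LSeries.term_of_ne_zero h0, if_neg hn.1, if_neg hn.2, zero_div]
  have h2 : HasSum (LSeries.term (fun n => if n = 1 then 1 else if n = ν then c else 0) s) _ :=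
    hasSum_sum_of_ne_finset_zero h1
  convert h2 using 1
  rw [Finset.sum_pair (by omega), LSeries.term_of_ne_zero one_ne_zero, if_pos rfl,
    LSeries.term_of_ne_zero (by omega), if_neg (by omega), if_pos rfl]
  simp

theorem FE.ef {ν : ℕ} (hν : 2 ≤ ν) : FE (ef ν) (ef' ν) ν 0 0 := by
  have hν0 : (ν : ℂ) ≠ 0 := by
    rw [Nat.cast_ne_zero]; omega
  refine ⟨0, -(ν : ℂ) ^ (-(1 / 2) : ℂ), fun s => (ν : ℂ) ^ (s / 2) * (1 + (-1) / (ν : ℂ) ^ s), 1,
    ?_, ?_, le_rfl, fun s _ => ?_⟩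
  · rw [neg_ne_zero]
    simp [cpow_eq_zero_iff, hν0]
  · have h1 : Differentiable ℂ fun s : ℂ => (ν : ℂ) ^ (s / 2) := by
      intro s
      exact (differentiableAt_id.div_const 2).const_cpow (Or.inl hν0)
    have h2 : Differentiable ℂ fun s : ℂ => (ν : ℂ) ^ s := by
      intro s
      exact differentiableAt_id.const_cpow (Or.inl hν0)
    refine h1.mul ((differentiable_const _).add ((differentiable_const _).div h2 fun s => ?_))
    simp [cpow_eq_zero_iff, hν0]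
  · have h1 := hasSum_ef hν (-1) s
    have h2 := hasSum_ef hν (-(ν : ℂ)) s
    have e1 : LSeries (Zeta.ef ν) s = 1 + (-1) / (ν : ℂ) ^ s := h1.LSeries_eq
    have e2 : LSeries (Zeta.ef' ν) s = 1 + (-(ν : ℂ)) / (ν : ℂ) ^ s := h2.LSeries_eq
    refine ⟨h1.LSeriesSummable, h2.LSeriesSummable, ?_, ?_⟩
    · rw [e1]; simp
    · rw [e2]
      change (ν : ℂ) ^ ((1 - s) / 2) * (1 + (-1) / (ν : ℂ) ^ (1 - s)) = _
      have hs0 : (ν : ℂ) ^ s ≠ 0 := by simp [cpow_eq_zero_iff, hν0]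
      have hs2 : (ν : ℂ) ^ (s / 2) ≠ 0 := by simp [cpow_eq_zero_iff, hν0]
      have h3 : (ν : ℂ) ^ ((1 - s) / 2) = (ν : ℂ) ^ ((1 / 2 : ℂ)) * ((ν : ℂ) ^ (s / 2))⁻¹ := by
        rw [← cpow_neg, ← cpow_add _ _ hν0]
        congr 1; ring
      have h4 : (ν : ℂ) ^ (1 - s) = ν * ((ν : ℂ) ^ s)⁻¹ := by
        rw [sub_eq_add_neg, cpow_add _ _ hν0, cpow_one, cpow_neg]
      have h5 : (ν : ℂ) ^ s = (ν : ℂ) ^ (s / 2) * (ν : ℂ) ^ (s / 2) := by
        rw [← cpow_add _ _ hν0]; congr 1; ring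
      have h6 : (ν : ℂ) ^ ((1 / 2 : ℂ)) ≠ 0 := by simp [cpow_eq_zero_iff, hν0]
      have h7 : (ν : ℂ) = (ν : ℂ) ^ ((1 / 2 : ℂ)) * (ν : ℂ) ^ ((1 / 2 : ℂ)) := by
        rw [← cpow_add _ _ hν0]; norm_num
      rw [h3, h4, h5, cpow_neg]
      simp only [pow_zero, one_mul, mul_one]
      generalize (ν : ℂ) ^ (s / 2) = x at *
      generalize (ν : ℂ) ^ ((1 / 2 : ℂ)) = y at *
      rw [h7]
      field_simp
      ring

/-- the product of the factors `1 - ν^{-s}`, `ν ∈ l` -/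
def efl (l : List ℕ) : ℕ → ℂ :=
  (l.map Zeta.ef).foldr LSeries.convolution (fun n => if n = 1 then 1 else 0)

/-- the product of the factors `1 - ν^{1-s}`, `ν ∈ l` -/
def efl' (l : List ℕ) : ℕ → ℂ :=
  (l.map Zeta.ef').foldr LSeries.convolution (fun n => if n = 1 then 1 else 0)

theorem efl_nil : efl [] = fun n => if n = 1 then 1 else 0 := rfl

theorem efl_cons (ν : ℕ) (l : List ℕ) : efl (ν :: l) = Zeta.ef ν ⍟ efl l := rfl

theorem efl'_cons (ν : ℕ) (l : List ℕ) : efl' (ν :: l) = Zeta.ef' ν ⍟ efl' l := rfl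

theorem fe_efl_nil : FE (efl []) (efl' []) 1 0 0 := by
  have h := FE.one
  have h1 : ∀ n : ℕ, n ≠ 0 → LSeries.delta n = efl [] n := by
    intro n _
    rw [efl_nil, LSeries.delta]
  have h2 : ∀ n : ℕ, n ≠ 0 → LSeries.delta n = efl' [] n := by
    intro n _
    rw [LSeries.delta]
    rfl
  exact FE.congr h h1 h2

theorem fe_efl {l : List ℕ} (hl : ∀ ν ∈ l, 2 ≤ ν) : FE (efl l) (efl' l) l.prod 0 0 := by
  induction l with
  | nil =>
    rw [List.prod_nil]
    exact fe_efl_nil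
  | cons ν l ih =>
    have h1 := FE.ef (hl ν List.mem_cons_self)
    have h2 := ih fun μ hμ => hl μ (List.mem_cons_of_mem ν hμ)
    have h3 := FE.mul h1 h2
    rw [← efl_cons, ← efl'_cons, ← List.prod_cons, add_zero] at h3
    exact h3

theorem convolution_one (a b : ℕ → ℂ) : (a ⍟ b) 1 = a 1 * b 1 := by
  rw [LSeries.convolution_def]
  simp

theorem efl'_one (l : List ℕ) : efl' l 1 = 1 := by
  induction l with
  | nil => simp [efl']
  | cons ν l ih =>
    rw [efl'_cons, convolution_one, ih, mul_one]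
    simp [Zeta.ef']

theorem efl_one (l : List ℕ) : efl l 1 = 1 := by
  induction l with
  | nil => simp [efl]
  | cons ν l ih =>
    rw [efl_cons, convolution_one, ih, mul_one]
    simp [Zeta.ef]

end Fermat.Agent.Classic.Zeta

end
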