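import Mathlib

/-!
# The functional equation of the Dedekind zeta function: definitions and statements of the pieces

`K` a number field, `n = [K : ℚ]`, `logSpace K = ({w // w ≠ w₀} → ℝ)`, `mult w = 1, 2`.
-/

set_option autoImplicit false

noncomputable section

namespace Fermat.Agent.Classic.Zeta

open NumberField NumberField.InfinitePlace NumberField.Units MeasureTheory Set Real
open NumberField.Units.dirichletUnitTheorem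
open scoped nonZeroDivisors Classical

universe u

variable {K : Type u} [Field K] [NumberField K]

/-! ### Theta functions -/

/-- the summand `exp (-π ∑ m_w t_w |x|_w²)` -/
def E (t : InfinitePlace K → ℝ) (x : K) : ℝ :=
  Real.exp (-π * ∑ w : InfinitePlace K, (w.mult : ℝ) * (t w * w x ^ 2))

/-- the theta function of a fractional ideal (`x = 0` included) -/
def Θ (𝔟 : FractionalIdeal (𝓞 K)⁰ K) (t : InfinitePlace K → ℝ) : ℝ := ∑' x : 𝔟, E t (x : K)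

/-- the dual fractional ideal for the trace form -/
def dualF (𝔟 : FractionalIdeal (𝓞 K)⁰ K) : FractionalIdeal (𝓞 K)⁰ K :=
  FractionalIdeal.dual ℤ ℚ 𝔟

/-- the norm of a fractional ideal as a real number -/
def nF (𝔟 : FractionalIdeal (𝓞 K)⁰ K) : ℝ := ((FractionalIdeal.absNorm 𝔟 : ℚ) : ℝ)

/-! ### The norm one torus -/

/-- the coordinates `t_w = (x e^{y_w / m_w})²`, with `∏ t_w^{m_w / 2} = x ^ n` -/
def tt (x : ℝ) (y : logSpace K) (w : InfinitePlace K) : ℝ :=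
  if h : w = w₀ then (x * Real.exp (-(∑ w', y w') / (mult w : ℝ))) ^ 2
  else (x * Real.exp (y ⟨w, h⟩ / (mult w : ℝ))) ^ 2

/-- weights for the action of the units -/
structure IsBeta (β : logSpace K → ℝ) : Prop where
  meas : Measurable β
  nonneg : ∀ y, 0 ≤ β y
  le_one : ∀ y, β y ≤ 1
  bdd : ∃ R : ℝ, ∀ y, β y ≠ 0 → ‖y‖ ≤ R
  hasSum : ∀ y, HasSum (fun u : (𝓞 K)ˣ => β (y + logEmbedding K (Additive.ofMul u))) 1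

/-- the theta function integrated over the torus -/
def F (β : logSpace K → ℝ) (𝔟 : FractionalIdeal (𝓞 K)⁰ K) (x : ℝ) : ℝ :=
  ∫ y, Θ 𝔟 (tt x y) * β y

/-- its value at infinity -/
def B (β : logSpace K → ℝ) : ℝ := ∫ y, β y

variable (K) in
/-- the Gamma factor -/
def gam (s : ℂ) : ℂ :=
  Complex.Gammaℝ s ^ nrRealPlaces K * Complex.Gammaℂ s ^ nrComplexPlaces K

/-- `g` represents the non-zero elements of `𝔟` modulo units. -/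
structure IsGen (𝔟 : FractionalIdeal (𝓞 K)⁰ K) {ι : Type u} (g : ι → K) : Prop where
  ne_zero : ∀ i, g i ≠ 0
  mem : ∀ i, g i ∈ 𝔟
  inj : ∀ (i j : ι) (u v : (𝓞 K)ˣ), ((u : 𝓞 K) : K) * g i = ((v : 𝓞 K) : K) * g j → i = j ∧ u = v
  surj : ∀ x ∈ 𝔟, x ≠ 0 → ∃ (i : ι) (u : (𝓞 K)ˣ), x = ((u : 𝓞 K) : K) * g i

/-- the integral ideals in the inverse class of `𝔟` -/
def Cls (𝔟 : (FractionalIdeal (𝓞 K)⁰ K)ˣ) : Type u :=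
  {𝔞 : (Ideal (𝓞 K))⁰ // ClassGroup.mk0 𝔞 * ClassGroup.mk K 𝔟 = 1}

/-- the partial zeta function of an ideal class -/
def zcK (C : ClassGroup (𝓞 K)) (s : ℂ) : ℂ :=
  ∑' 𝔞 : {𝔞 : (Ideal (𝓞 K))⁰ // ClassGroup.mk0 𝔞 = C},
    ((Ideal.absNorm ((𝔞 : (Ideal (𝓞 K))⁰) : Ideal (𝓞 K)) : ℕ) : ℂ) ^ (-s)

/-- the dual ideal as a unit -/
def dualU (𝔟 : (FractionalIdeal (𝓞 K)⁰ K)ˣ) : (FractionalIdeal (𝓞 K)⁰ K)ˣ :=
  Units.mk0 (dualF (𝔟 : FractionalIdeal (𝓞 K)⁰ K)) (FractionalIdeal.dual_ne_zero ℤ ℚ 𝔟.ne_zero)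

@[simp] theorem coe_dualU (𝔟 : (FractionalIdeal (𝓞 K)⁰ K)ˣ) :
    ((dualU 𝔟 : (FractionalIdeal (𝓞 K)⁰ K)ˣ) : FractionalIdeal (𝓞 K)⁰ K) = dualF 𝔟 := rfl

/-! ### The pieces -/

/-- (a) **helper54**, Theta.lean: theta inversion -/
def ThetaStmt (K : Type u) [Field K] [NumberField K] : Prop :=
  (∀ (𝔟 : FractionalIdeal (𝓞 K)⁰ K) (t : InfinitePlace K → ℝ), (∀ w, 0 < t w) →
    Summable fun x : 𝔟 => E t (x : K)) ∧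
  ∀ (𝔟 : FractionalIdeal (𝓞 K)⁰ K), 𝔟 ≠ 0 → ∀ (t : InfinitePlace K → ℝ), (∀ w, 0 < t w) →
    Θ 𝔟 t = (√|(discr K : ℝ)| * nF 𝔟 * ∏ w : InfinitePlace K, t w ^ ((w.mult : ℝ) / 2))⁻¹ *
      Θ (dualF 𝔟) (fun w => (t w)⁻¹)

/-- (b) **helper28**, Torus.lean -/
def TorusStmt (K : Type u) [Field K] [NumberField K] : Prop :=
  (∃ β : logSpace K → ℝ, IsBeta β) ∧ ∀ β : logSpace K → ℝ, IsBeta β →
    0 < B β ∧ ∀ (𝔟 : FractionalIdeal (𝓞 K)⁰ K), 𝔟 ≠ 0 → ∀ x : ℝ, 0 < x →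
      F β 𝔟 x⁻¹ = (√|(discr K : ℝ)| * nF 𝔟)⁻¹ * x ^ (Module.finrank ℚ K) * F β (dualF 𝔟) x

/-- (c) **helper72**, Decay.lean -/
def DecayStmt (K : Type u) [Field K] [NumberField K] : Prop :=
  ∀ β : logSpace K → ℝ, IsBeta β → ∀ (𝔟 : FractionalIdeal (𝓞 K)⁰ K), 𝔟 ≠ 0 →
    ContinuousOn (F β 𝔟) (Ioi 0) ∧
    ∀ r : ℝ, (fun x : ℝ => F β 𝔟 x - B β) =O[Filter.atTop] (fun x : ℝ => x ^ r)

/-- (e) **helper4**, Gamma.lean -/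
def GammaStmt (K : Type u) [Field K] [NumberField K] : Prop :=
  ∃ c : ℝ, 0 < c ∧ ∀ a : K, a ≠ 0 → ∀ s : ℂ, 0 < s.re →
    IntegrableOn (fun p : ℝ × logSpace K =>
      (p.1 : ℂ) ^ ((Module.finrank ℚ K : ℂ) * s - 1) * (E (tt p.1 p.2) a : ℂ)) (Ioi 0 ×ˢ univ) ∧
    ∫ x in Ioi (0 : ℝ), ∫ y : logSpace K,
      (x : ℂ) ^ ((Module.finrank ℚ K : ℂ) * s - 1) * (E (tt x y) a : ℂ) =
      c * gam K s * (((|Algebra.norm ℚ a| : ℚ) : ℂ)) ^ (-s)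

/-- (d), (d') **helper28, helper69**, Unfold.lean, Mellin.lean: for Re s > 1 -/
def MellinStmt (K : Type u) [Field K] [NumberField K] : Prop :=
  ∃ c : ℝ, 0 < c ∧ ∀ β : logSpace K → ℝ, IsBeta β →
    ∀ (𝔟 : FractionalIdeal (𝓞 K)⁰ K), 𝔟 ≠ 0 → ∀ (ι : Type u) (g : ι → K), IsGen 𝔟 g →
      ∀ s : ℂ, 1 < s.re →
        Summable (fun i => (((|Algebra.norm ℚ (g i)| : ℚ) : ℂ)) ^ (-s)) ∧
        mellin (fun x : ℝ => ((F β 𝔟 x - B β : ℝ) : ℂ)) ((Module.finrank ℚ K : ℂ) * s) =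
          c * gam K s * ∑' i, (((|Algebra.norm ℚ (g i)| : ℚ) : ℂ)) ^ (-s)

/-- (f1) **helper51**, Classes.lean -/
def ClassStmt (K : Type u) [Field K] [NumberField K] : Prop :=
  ∀ 𝔟 : (FractionalIdeal (𝓞 K)⁰ K)ˣ, ∃ g : Cls 𝔟 → K, IsGen (𝔟 : FractionalIdeal (𝓞 K)⁰ K) g ∧
    ∀ 𝔞 : Cls 𝔟, ((|Algebra.norm ℚ (g 𝔞)| : ℚ) : ℝ) =
      (Ideal.absNorm ((𝔞.1 : (Ideal (𝓞 K))⁰) : Ideal (𝓞 K)) : ℝ) * nF (𝔟 : FractionalIdeal (𝓞 K)⁰ K)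

/-- (f2) **helper90 / helper51**, ZetaSum.lean -/
def ZetaSumStmt (K : Type u) [Field K] [NumberField K] : Prop :=
  (∀ s : ℂ, 1 < s.re → dedekindZeta K s = ∑ C : ClassGroup (𝓞 K), zcK C s) ∧
  (∀ 𝔟 : FractionalIdeal (𝓞 K)⁰ K, dualF (dualF 𝔟) = 𝔟) ∧
  (∀ 𝔟 : FractionalIdeal (𝓞 K)⁰ K, 𝔟 ≠ 0 → nF (dualF 𝔟) = (nF 𝔟 * |(discr K : ℝ)|)⁻¹) ∧
  ∃ C₀ : ClassGroup (𝓞 K), ∀ 𝔟 : (FractionalIdeal (𝓞 K)⁰ K)ˣ,
    ClassGroup.mk K (dualU 𝔟) = C₀ * (ClassGroup.mk K 𝔟)⁻¹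

/-- (g) **helper36**, Main.lean: the functional equation. -/
def XiStmt (K : Type u) [Field K] [NumberField K] : Prop :=
  ∃ Λ : ℂ → ℂ, (∀ s, s ≠ 0 → s ≠ 1 → DifferentiableAt ℂ Λ s) ∧ (∀ s, Λ (1 - s) = Λ s) ∧
    ∀ s, 1 < s.re → Λ s = ((|(discr K : ℝ)| : ℝ) : ℂ) ^ (s / 2) * gam K s * dedekindZeta K s

end Fermat.Agent.Classic.Zeta
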