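import Mathlib
import Fermat.Agent.ClassL.IdealSum
import Fermat.Agent.Classic.Zeta.Defs

/-!
# Fractional ideals, units, classes

For a fractional ideal `𝔟` the non-zero elements of `𝔟` are the products `u * gen 𝔞`, where `𝔞` runs
over the integral ideals of the class inverse to the class of `𝔟` and `u` over the units; partial
zeta functions; the dual of a fractional ideal for the trace form.
-/

set_option autoImplicit false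

noncomputable section

namespace Fermat.Agent.Classic.Zeta

open NumberField
open scoped nonZeroDivisors Classical

universe u

variable {K : Type u} [Field K] [NumberField K]

namespace Classes

/-! ### The non-zero elements of a fractional ideal -/

section Elements

variable (𝔟 : (FractionalIdeal (𝓞 K)⁰ K)ˣ)

variable {𝔟}

theorem exists_gen (𝔞 : Cls 𝔟) : ∃ x : Kˣ, FractionalIdeal.spanSingleton (𝓞 K)⁰ (x : K) =
    ((𝔞.1 : Ideal (𝓞 K)) : FractionalIdeal (𝓞 K)⁰ K) * (𝔟 : FractionalIdeal (𝓞 K)⁰ K) := by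
  have h := 𝔞.2
  rw [← ClassGroup.mk_mk0 K, ← map_mul, ClassGroup.mk_eq_one_iff, FractionalIdeal.isPrincipal_iff]
    at h
  obtain ⟨x, hx⟩ := h
  have hx0 : x ≠ 0 := by
    rintro rfl
    rw [FractionalIdeal.spanSingleton_zero] at hx
    exact (FractionalIdeal.mk0 K 𝔞.1 * 𝔟).ne_zero hx
  refine ⟨Units.mk0 x hx0, ?_⟩
  rw [Units.val_mk0, ← hx, Units.val_mul, FractionalIdeal.coe_mk0]

/-- a generator of `𝔞 𝔟` -/
def gen (𝔞 : Cls 𝔟) : Kˣ := (exists_gen 𝔞).choose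

theorem span_gen (𝔞 : Cls 𝔟) : FractionalIdeal.spanSingleton (𝓞 K)⁰ (gen 𝔞 : K) =
    ((𝔞.1 : Ideal (𝓞 K)) : FractionalIdeal (𝓞 K)⁰ K) * (𝔟 : FractionalIdeal (𝓞 K)⁰ K) :=
  (exists_gen 𝔞).choose_spec

/-- `|N(gen 𝔞)| = N𝔞 · N𝔟` -/
theorem abs_norm_gen (𝔞 : Cls 𝔟) : |Algebra.norm ℚ (gen 𝔞 : K)| =
    (Ideal.absNorm (𝔞.1 : Ideal (𝓞 K)) : ℚ) *
      FractionalIdeal.absNorm (𝔟 : FractionalIdeal (𝓞 K)⁰ K) := by
  rw [← FractionalIdeal.absNorm_span_singleton (R := 𝓞 K), span_gen, map_mul,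
    FractionalIdeal.coeIdeal_absNorm]

theorem abs_norm_unit_mul_gen (𝔞 : Cls 𝔟) (u : (𝓞 K)ˣ) :
    |Algebra.norm ℚ ((u : K) * gen 𝔞)| = (Ideal.absNorm (𝔞.1 : Ideal (𝓞 K)) : ℚ) *
      FractionalIdeal.absNorm (𝔟 : FractionalIdeal (𝓞 K)⁰ K) := by
  rw [map_mul, abs_mul, abs_norm_gen]
  have h : |Algebra.norm ℚ (u : K)| = 1 := NumberField.isUnit_iff_norm.mp u.isUnit
  rw [h, one_mul]

theorem smul_mem_fractional (u : (𝓞 K)ˣ) {x : K} (hx : x ∈ (𝔟 : FractionalIdeal (𝓞 K)⁰ K)) :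
    (u : K) * x ∈ (𝔟 : FractionalIdeal (𝓞 K)⁰ K) := by
  have := (𝔟 : FractionalIdeal (𝓞 K)⁰ K).coeToSubmodule.smul_mem (u : 𝓞 K) hx
  rwa [Algebra.smul_def] at this

theorem gen_mem (𝔞 : Cls 𝔟) : (gen 𝔞 : K) ∈ (𝔟 : FractionalIdeal (𝓞 K)⁰ K) := by
  rw [← FractionalIdeal.spanSingleton_le_iff_mem, span_gen]
  calc _ ≤ (1 : FractionalIdeal (𝓞 K)⁰ K) * (𝔟 : FractionalIdeal (𝓞 K)⁰ K) :=
        mul_le_mul_left FractionalIdeal.coeIdeal_le_one _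
    _ = _ := one_mul _

variable (𝔟)

/-- `(𝔞, u) ↦ u * gen 𝔞` -/
def toEl (p : Cls 𝔟 × (𝓞 K)ˣ) :
    {x : K // x ∈ (𝔟 : FractionalIdeal (𝓞 K)⁰ K) ∧ x ≠ 0} :=
  ⟨(p.2 : K) * gen p.1, smul_mem_fractional p.2 (gen_mem p.1),
    mul_ne_zero (by simp) (gen p.1).ne_zero⟩

theorem coe_toEl (p : Cls 𝔟 × (𝓞 K)ˣ) : (toEl 𝔟 p : K) = (p.2 : K) * gen p.1 := rfl

theorem toEl_bijective : Function.Bijective (toEl 𝔟) := by
  constructor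
  · rintro ⟨𝔞, u⟩ ⟨𝔞', u'⟩ h
    have h1 : (u : K) * gen 𝔞 = (u' : K) * gen 𝔞' := congrArg Subtype.val h
    have h2 : 𝔞 = 𝔞' := by
      have h3 : FractionalIdeal.spanSingleton (𝓞 K)⁰ (gen 𝔞 : K) =
          FractionalIdeal.spanSingleton (𝓞 K)⁰ (gen 𝔞' : K) := by
        rw [FractionalIdeal.spanSingleton_eq_spanSingleton]
        refine ⟨u'⁻¹ * u, ?_⟩
        rw [mul_smul, Units.smul_def u, Algebra.smul_def]
        change u'⁻¹ • ((u : K) * gen 𝔞) = _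
        rw [h1, inv_smul_eq_iff, Units.smul_def, Algebra.smul_def]
      rw [span_gen, span_gen] at h3
      have h4 := mul_right_cancel₀ 𝔟.ne_zero h3
      rw [FractionalIdeal.coeIdeal_inj] at h4
      exact Subtype.ext (Subtype.ext h4)
    subst h2
    have h5 := mul_right_cancel₀ (gen 𝔞).ne_zero h1
    rw [Prod.mk.injEq]
    exact ⟨rfl, Units.ext (RingOfIntegers.ext h5)⟩
  · rintro ⟨x, hx, hx0⟩
    have h1 : FractionalIdeal.spanSingleton (𝓞 K)⁰ x * (𝔟⁻¹ : (FractionalIdeal (𝓞 K)⁰ K)ˣ) ≤ 1 := by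
      calc _ ≤ (𝔟 : FractionalIdeal (𝓞 K)⁰ K) * (𝔟⁻¹ : (FractionalIdeal (𝓞 K)⁰ K)ˣ) :=
            mul_le_mul_left (FractionalIdeal.spanSingleton_le_iff_mem.mpr hx) _
        _ = 1 := 𝔟.mul_inv
    rw [FractionalIdeal.le_one_iff_exists_coeIdeal] at h1
    obtain ⟨J, hJ⟩ := h1
    have hJb : (J : FractionalIdeal (𝓞 K)⁰ K) * 𝔟 = FractionalIdeal.spanSingleton (𝓞 K)⁰ x := by
      rw [hJ, mul_assoc, 𝔟.inv_mul, mul_one]
    have hJ0 : J ≠ ⊥ := by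
      rintro rfl
      rw [FractionalIdeal.coeIdeal_bot, zero_mul] at hJb
      exact hx0 (FractionalIdeal.spanSingleton_eq_zero_iff.mp hJb.symm)
    let J' : (Ideal (𝓞 K))⁰ := ⟨J, mem_nonZeroDivisors_of_ne_zero hJ0⟩
    have hcl : ClassGroup.mk0 J' * ClassGroup.mk K 𝔟 = 1 := by
      rw [← ClassGroup.mk_mk0 K, ← map_mul, ClassGroup.mk_eq_one_iff,
        FractionalIdeal.isPrincipal_iff]
      refine ⟨x, ?_⟩
      rw [Units.val_mul, FractionalIdeal.coe_mk0, hJb]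
    let 𝔞 : Cls 𝔟 := ⟨J', hcl⟩
    have h2 : FractionalIdeal.spanSingleton (𝓞 K)⁰ (gen 𝔞 : K) =
        FractionalIdeal.spanSingleton (𝓞 K)⁰ x := by
      rw [span_gen, ← hJb]
    rw [FractionalIdeal.spanSingleton_eq_spanSingleton] at h2
    obtain ⟨u, hu⟩ := h2
    refine ⟨(𝔞, u), Subtype.ext ?_⟩
    change (u : K) * gen 𝔞 = x
    rw [← hu, Units.smul_def, Algebra.smul_def]

/-- `(𝔞, u) ↦ u * gen 𝔞` as an equivalence -/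
def eqv : Cls 𝔟 × (𝓞 K)ˣ ≃ {x : K // x ∈ (𝔟 : FractionalIdeal (𝓞 K)⁰ K) ∧ x ≠ 0} :=
  Equiv.ofBijective _ (toEl_bijective 𝔟)

@[simp] theorem coe_eqv (p : Cls 𝔟 × (𝓞 K)ˣ) : (eqv 𝔟 p : K) = (p.2 : K) * gen p.1 := rfl

end Elements

/-! ### Partial zeta functions -/

theorem summable_nrm_ideals {s : ℂ} (hs : 1 < s.re) :
    Summable fun 𝔞 : (Ideal (𝓞 K))⁰ => (Ideal.absNorm (𝔞 : Ideal (𝓞 K)) : ℂ) ^ (-s) := by
  refine Summable.of_norm ?_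
  convert Fermat.Agent.ClassL.summable_nrm (K := K) hs using 1
  funext 𝔞
  rw [Complex.norm_natCast_cpow_of_pos (Ideal.absNorm_pos_of_nonZeroDivisors 𝔞), Complex.neg_re]
  rfl

theorem summable_zc {s : ℂ} (hs : 1 < s.re) (C : ClassGroup (𝓞 K)) :
    Summable fun 𝔞 : {𝔞 : (Ideal (𝓞 K))⁰ // ClassGroup.mk0 𝔞 = C} =>
      (Ideal.absNorm (𝔞.1 : Ideal (𝓞 K)) : ℂ) ^ (-s) :=
  (summable_nrm_ideals hs).comp_injective Subtype.val_injective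

theorem sum_zc_eq_tsum {s : ℂ} (hs : 1 < s.re) :
    ∑ C : ClassGroup (𝓞 K), zcK C s =
      ∑' 𝔞 : (Ideal (𝓞 K))⁰, (Ideal.absNorm (𝔞 : Ideal (𝓞 K)) : ℂ) ^ (-s) := by
  let e : (Σ C : ClassGroup (𝓞 K), {𝔞 : (Ideal (𝓞 K))⁰ // ClassGroup.mk0 𝔞 = C}) ≃
      (Ideal (𝓞 K))⁰ := Equiv.sigmaFiberEquiv (fun I : (Ideal (𝓞 K))⁰ => ClassGroup.mk0 I)
  have hsum : Summable fun c => (Ideal.absNorm (e c : Ideal (𝓞 K)) : ℂ) ^ (-s) :=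
    (e.summable_iff).mpr (summable_nrm_ideals (K := K) hs)
  rw [← e.tsum_eq, Summable.tsum_sigma hsum, tsum_fintype]
  rfl

theorem tsum_ideals_eq_dedekindZeta {s : ℂ} (hs : 1 < s.re) :
    ∑' 𝔞 : (Ideal (𝓞 K))⁰, (Ideal.absNorm (𝔞 : Ideal (𝓞 K)) : ℂ) ^ (-s) =
      NumberField.dedekindZeta K s := by
  let e : (Σ n : ℕ, {𝔞 : (Ideal (𝓞 K))⁰ // Ideal.absNorm (𝔞 : Ideal (𝓞 K)) = n}) ≃
      (Ideal (𝓞 K))⁰ :=
    Equiv.sigmaFiberEquiv (fun I : (Ideal (𝓞 K))⁰ => Ideal.absNorm (I : Ideal (𝓞 K)))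
  have hsum : Summable fun c => (Ideal.absNorm (e c : Ideal (𝓞 K)) : ℂ) ^ (-s) :=
    (e.summable_iff).mpr (summable_nrm_ideals (K := K) hs)
  rw [← e.tsum_eq, Summable.tsum_sigma hsum, NumberField.dedekindZeta, LSeries]
  refine tsum_congr fun n => ?_
  rcases eq_or_ne n 0 with rfl | hn
  · rw [LSeries.term_zero]
    have : IsEmpty {𝔞 : (Ideal (𝓞 K))⁰ // Ideal.absNorm (𝔞 : Ideal (𝓞 K)) = 0} :=
      ⟨fun 𝔞 => (Ideal.absNorm_pos_of_nonZeroDivisors 𝔞.1).ne' 𝔞.2⟩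
    exact tsum_empty
  · rw [LSeries.term_of_ne_zero hn]
    have h1 : ∀ 𝔞 : {𝔞 : (Ideal (𝓞 K))⁰ // Ideal.absNorm (𝔞 : Ideal (𝓞 K)) = n},
        (Ideal.absNorm ((e ⟨n, 𝔞⟩ : (Ideal (𝓞 K))⁰) : Ideal (𝓞 K)) : ℂ) ^ (-s) = (n : ℂ) ^ (-s) := by
      intro 𝔞
      change (Ideal.absNorm ((𝔞.1 : (Ideal (𝓞 K))⁰) : Ideal (𝓞 K)) : ℂ) ^ (-s) = _
      rw [𝔞.2]
    have h2 : ∑' 𝔞 : {𝔞 : (Ideal (𝓞 K))⁰ // Ideal.absNorm (𝔞 : Ideal (𝓞 K)) = n},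
        (Ideal.absNorm ((e ⟨n, 𝔞⟩ : (Ideal (𝓞 K))⁰) : Ideal (𝓞 K)) : ℂ) ^ (-s) =
        Nat.card {𝔞 : (Ideal (𝓞 K))⁰ // Ideal.absNorm (𝔞 : Ideal (𝓞 K)) = n} *
          (n : ℂ) ^ (-s) := by
      rw [tsum_congr h1, tsum_const, nsmul_eq_mul]
    have h3 : Nat.card {𝔞 : (Ideal (𝓞 K))⁰ // Ideal.absNorm (𝔞 : Ideal (𝓞 K)) = n} =
        Nat.card {I : Ideal (𝓞 K) // Ideal.absNorm I = n} := by
      refine Nat.card_congr ⟨fun 𝔞 => ⟨𝔞.1, 𝔞.2⟩, fun I => ⟨⟨I.1, ?_⟩, I.2⟩, fun _ => rfl,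
        fun _ => rfl⟩
      refine mem_nonZeroDivisors_of_ne_zero fun h => hn ?_
      rw [← I.2, h]
      exact Ideal.absNorm_bot
    change ∑' 𝔞 : {𝔞 : (Ideal (𝓞 K))⁰ // Ideal.absNorm (𝔞 : Ideal (𝓞 K)) = n},
        (Ideal.absNorm ((e ⟨n, 𝔞⟩ : (Ideal (𝓞 K))⁰) : Ideal (𝓞 K)) : ℂ) ^ (-s) = _
    rw [h2, h3, Complex.cpow_neg, div_eq_mul_inv]

/-- `ζ_K` is the sum of the partial zeta functions -/
theorem sum_zc {s : ℂ} (hs : 1 < s.re) :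
    ∑ C : ClassGroup (𝓞 K), zcK C s = NumberField.dedekindZeta K s := by
  rw [sum_zc_eq_tsum hs, tsum_ideals_eq_dedekindZeta hs]

/-- the sum over `Cls 𝔟` is a partial zeta function -/
theorem tsum_Cls (𝔟 : (FractionalIdeal (𝓞 K)⁰ K)ˣ) (s : ℂ) :
    ∑' 𝔞 : Cls 𝔟, (Ideal.absNorm (𝔞.1 : Ideal (𝓞 K)) : ℂ) ^ (-s) = zcK (ClassGroup.mk K 𝔟)⁻¹ s := by
  let e : Cls 𝔟 ≃ {𝔞 : (Ideal (𝓞 K))⁰ // ClassGroup.mk0 𝔞 = (ClassGroup.mk K 𝔟)⁻¹} :=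
    Equiv.subtypeEquivRight fun 𝔞 => by rw [mul_eq_one_iff_eq_inv]
  rw [zcK, ← e.tsum_eq]
  rfl

theorem summable_Cls (𝔟 : (FractionalIdeal (𝓞 K)⁰ K)ˣ) {s : ℂ} (hs : 1 < s.re) :
    Summable fun 𝔞 : Cls 𝔟 => (Ideal.absNorm (𝔞.1 : Ideal (𝓞 K)) : ℂ) ^ (-s) :=
  (summable_nrm_ideals hs).comp_injective Subtype.val_injective

/-! ### The dual of a fractional ideal -/

theorem dualU_mul_self (𝔟 : (FractionalIdeal (𝓞 K)⁰ K)ˣ) : dualU 𝔟 * 𝔟 = dualU 1 := by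
  refine Units.ext ?_
  rw [Units.val_mul, coe_dualU, coe_dualU, dualF, dualF, Units.val_one, mul_comm]
  exact FractionalIdeal.self_mul_dual ℤ ℚ 𝔟.ne_zero

theorem dualU_dualU (𝔟 : (FractionalIdeal (𝓞 K)⁰ K)ˣ) : dualU (dualU 𝔟) = 𝔟 :=
  Units.ext (FractionalIdeal.dual_dual ℤ ℚ _)

theorem absNorm_dualU_one :
    FractionalIdeal.absNorm ((dualU (1 : (FractionalIdeal (𝓞 K)⁰ K)ˣ) :
      (FractionalIdeal (𝓞 K)⁰ K)ˣ) : FractionalIdeal (𝓞 K)⁰ K) * |(discr K : ℚ)| = 1 := by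
  have h1 : FractionalIdeal.absNorm ((differentIdeal ℤ (𝓞 K) : Ideal (𝓞 K)) :
      FractionalIdeal (𝓞 K)⁰ K) = |(discr K : ℚ)| := by
    rw [FractionalIdeal.coeIdeal_absNorm, NumberField.absNorm_differentIdeal (K := K),
      Nat.cast_natAbs, Int.cast_abs]
  rw [← h1, ← map_mul, coeIdeal_differentIdeal ℤ ℚ K (𝓞 K), coe_dualU, dualF, Units.val_one,
    mul_inv_cancel₀ (FractionalIdeal.dual_ne_zero ℤ ℚ (one_ne_zero (α := FractionalIdeal (𝓞 K)⁰ K))), map_one]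

/-- the norm of the dual: `N(𝔟*) N(𝔟) |d| = 1` -/
theorem absNorm_dualU (𝔟 : (FractionalIdeal (𝓞 K)⁰ K)ˣ) :
    FractionalIdeal.absNorm (dualU 𝔟 : FractionalIdeal (𝓞 K)⁰ K) *
      FractionalIdeal.absNorm (𝔟 : FractionalIdeal (𝓞 K)⁰ K) * |(discr K : ℚ)| = 1 := by
  rw [← map_mul, ← Units.val_mul, dualU_mul_self, absNorm_dualU_one]

theorem mk_dualU (𝔟 : (FractionalIdeal (𝓞 K)⁰ K)ˣ) :
    ClassGroup.mk K (dualU 𝔟) * ClassGroup.mk K 𝔟 =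
      ClassGroup.mk K (dualU (1 : (FractionalIdeal (𝓞 K)⁰ K)ˣ)) := by
  rw [← map_mul, dualU_mul_self]

theorem absNorm_pos (𝔟 : (FractionalIdeal (𝓞 K)⁰ K)ˣ) :
    0 < FractionalIdeal.absNorm (𝔟 : FractionalIdeal (𝓞 K)⁰ K) :=
  lt_of_le_of_ne (FractionalIdeal.absNorm_nonneg _)
    fun h => 𝔟.ne_zero (FractionalIdeal.absNorm_eq_zero_iff.mp h.symm)

end Classes

/-! ### The two statements -/

/-- **(f1)** the non-zero elements of a fractional ideal modulo units are the integral ideals of the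
inverse class. -/
theorem classStmt (K : Type u) [Field K] [NumberField K] : ClassStmt K := by
  intro 𝔟
  refine ⟨fun 𝔞 => (Classes.gen 𝔞 : K), ⟨fun 𝔞 => (Classes.gen 𝔞).ne_zero,
    fun 𝔞 => Classes.gen_mem 𝔞, ?_, ?_⟩, ?_⟩
  · intro 𝔞 𝔞' u v h
    have h1 := @(Classes.toEl_bijective 𝔟).1 (𝔞, u) (𝔞', v) (Subtype.ext h)
    exact ⟨congrArg Prod.fst h1, congrArg Prod.snd h1⟩
  · intro x hx hx0
    obtain ⟨⟨𝔞, u⟩, h⟩ := (Classes.toEl_bijective 𝔟).2 ⟨x, hx, hx0⟩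
    exact ⟨𝔞, u, (congrArg Subtype.val h).symm⟩
  · intro 𝔞
    rw [Classes.abs_norm_gen, nF]
    push_cast
    rfl

/-- **(f2)** the sum over the classes, and the duality on the classes. -/
theorem zetaSumStmt (K : Type u) [Field K] [NumberField K] : ZetaSumStmt K := by
  refine ⟨fun s hs => (Classes.sum_zc hs).symm, fun 𝔟 => FractionalIdeal.dual_dual ℤ ℚ 𝔟, ?_,
    ClassGroup.mk K (dualU (1 : (FractionalIdeal (𝓞 K)⁰ K)ˣ)), fun 𝔟 => ?_⟩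
  · intro 𝔟 h𝔟
    have h := Classes.absNorm_dualU (Units.mk0 𝔟 h𝔟)
    rw [coe_dualU, Units.val_mk0] at h
    have h' : nF (dualF 𝔟) * nF 𝔟 * |(discr K : ℝ)| = 1 := by
      rw [nF, nF]
      exact_mod_cast h
    rw [mul_assoc] at h'
    exact eq_inv_of_mul_eq_one_left h'
  · exact eq_mul_inv_of_mul_eq (Classes.mk_dualU 𝔟)

end Fermat.Agent.Classic.Zeta
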