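import Fermat.Agent.Classic.Zeta.Theta

/-!
# Continuity and decay of `F β 𝔟`

`F β 𝔟` is continuous on `(0, ∞)`, `F β 𝔟 x - B β = O(x ^ r)` for every `r`; the pair
`(F β 𝔟, F β (dual 𝔟))` is a `WeakFEPair`.
-/

set_option autoImplicit false

noncomputable section

namespace Fermat.Agent.Classic.Zeta

open NumberField NumberField.InfinitePlace NumberField.Units MeasureTheory Filter Set
open NumberField.Units.dirichletUnitTheorem
open scoped nonZeroDivisors Real Topology Classical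

universe u

variable {K : Type u} [Field K] [NumberField K]

namespace Decay

/-! ### The exponent -/

/-- `π Σ m_w |x|_w²` -/
def Qf (x : K) : ℝ := π * ∑ w : InfinitePlace K, (w.mult : ℝ) * w x ^ 2

theorem Qf_nonneg (x : K) : 0 ≤ Qf x := by
  unfold Qf; positivity

theorem Qf_pos {x : K} (hx : x ≠ 0) : 0 < Qf x := by
  unfold Qf
  refine mul_pos Real.pi_pos (Finset.sum_pos (fun w _ => ?_) Finset.univ_nonempty)
  have h1 : 0 < w x := w.pos_iff.mpr hx
  have h2 : (0 : ℝ) < w.mult := by exact_mod_cast w.mult_pos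
  positivity

theorem E_const (c : ℝ) (x : K) : E (fun _ => c) x = Real.exp (-(c * Qf x)) := by
  unfold E Qf
  congr 1
  rw [Finset.mul_sum, Finset.mul_sum, Finset.mul_sum, ← Finset.sum_neg_distrib]
  exact Finset.sum_congr rfl fun w _ => by ring

theorem E_anti {s t : InfinitePlace K → ℝ} (h : ∀ w, s w ≤ t w) (x : K) : E t x ≤ E s x := by
  unfold E
  refine Real.exp_le_exp.mpr ?_
  rw [neg_mul, neg_mul, neg_le_neg_iff]
  gcongr with w _
  exact h w

/-- The exponent is bounded below on the non-zero elements. -/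
theorem exists_Qf_ge (𝔟 : FractionalIdeal (𝓞 K)⁰ K) :
    ∃ q : ℝ, 0 < q ∧ ∀ x : 𝔟, (x : K) ≠ 0 → q ≤ Qf (x : K) := by
  have hs : Summable fun x : 𝔟 => E (fun _ => 1) (x : K) := summable_E' 𝔟 fun _ => one_pos
  have h1 := hs.tendsto_cofinite_zero
  have h2 : ∀ᶠ x : 𝔟 in cofinite, E (fun _ => 1) (x : K) < Real.exp (-1) :=
    h1.eventually (gt_mem_nhds (Real.exp_pos _))
  have hfin : {x : 𝔟 | ¬ E (fun _ => 1) (x : K) < Real.exp (-1)}.Finite := h2
  let T : Finset 𝔟 := hfin.toFinset.filter fun x => (x : K) ≠ 0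
  rcases T.eq_empty_or_nonempty with hT | hT
  · refine ⟨1, one_pos, fun x hx => ?_⟩
    by_contra hlt
    have h3 : x ∈ T := by
      rw [Finset.mem_filter, Set.Finite.mem_toFinset]
      refine ⟨?_, hx⟩
      rw [Set.mem_ofPred_eq, not_lt, E_const]
      exact Real.exp_le_exp.mpr (by linarith)
    rw [hT] at h3
    simp at h3
  · obtain ⟨x0, hx0, hmin⟩ := T.exists_min_image (fun x => Qf (x : K)) hT
    have hx0' : (x0 : K) ≠ 0 := (Finset.mem_filter.1 hx0).2
    refine ⟨min 1 (Qf (x0 : K)), lt_min one_pos (Qf_pos hx0'), fun x hx => ?_⟩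
    by_cases h3 : E (fun _ => 1) (x : K) < Real.exp (-1)
    · rw [E_const, one_mul, Real.exp_lt_exp] at h3
      exact (min_le_left _ _).trans (by linarith)
    · refine (min_le_right _ _).trans (hmin x ?_)
      rw [Finset.mem_filter, Set.Finite.mem_toFinset]
      exact ⟨h3, hx⟩

/-! ### Bounds for `Θ` -/

/-- `0` as an element of a fractional ideal. -/
def zr (𝔟 : FractionalIdeal (𝓞 K)⁰ K) : 𝔟 := ⟨0, FractionalIdeal.zero_mem 𝔟⟩

omit [NumberField K] in
theorem coe_zr (𝔟 : FractionalIdeal (𝓞 K)⁰ K) : (zr 𝔟 : K) = 0 := rfl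

theorem one_le_Θ (𝔟 : FractionalIdeal (𝓞 K)⁰ K) {t : InfinitePlace K → ℝ} (ht : ∀ w, 0 < t w) :
    1 ≤ Θ 𝔟 t := by
  have h := (summable_E' 𝔟 ht).le_tsum (zr 𝔟) fun x _ => (E_pos' t _).le
  rw [coe_zr, E_zero_right] at h
  exact h

theorem Θ_anti (𝔟 : FractionalIdeal (𝓞 K)⁰ K) {s t : InfinitePlace K → ℝ} (hs : ∀ w, 0 < s w)
    (h : ∀ w, s w ≤ t w) : Θ 𝔟 t ≤ Θ 𝔟 s :=
  (summable_E' 𝔟 fun w => (hs w).trans_le (h w)).tsum_le_tsum (fun _ => E_anti h _) (summable_E' 𝔟 hs)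

/-- **Exponential decay.** -/
theorem exists_Θ_sub_one_le (𝔟 : FractionalIdeal (𝓞 K)⁰ K) : ∃ A q : ℝ, 0 ≤ A ∧ 0 < q ∧
    ∀ c : ℝ, 1 ≤ c → ∀ t : InfinitePlace K → ℝ, (∀ w, c ≤ t w) →
      Θ 𝔟 t - 1 ≤ A * Real.exp (-(c * q)) := by
  obtain ⟨q, hq, hQ⟩ := exists_Qf_ge 𝔟
  have hs : Summable fun x : 𝔟 => E (fun _ => 1 / 2) (x : K) := summable_E' 𝔟 fun _ => by norm_num
  refine ⟨Θ 𝔟 fun _ => 1 / 2, q / 2, ?_, by positivity, fun c hc t ht => ?_⟩
  · exact zero_le_one.trans (one_le_Θ 𝔟 fun _ => by norm_num)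
  have hc0 : 0 < c := one_pos.trans_le hc
  classical
  have h1 : ∀ x : 𝔟, E t (x : K) ≤ (Pi.single (zr 𝔟) (1 : ℝ) : 𝔟 → ℝ) x +
      E (fun _ => 1 / 2) (x : K) * Real.exp (-(c * (q / 2))) := by
    intro x
    by_cases hx : x = zr 𝔟
    · subst hx
      rw [Pi.single_eq_same, coe_zr, E_zero_right, E_zero_right]
      have := Real.exp_pos (-(c * (q / 2)))
      linarith
    · rw [Pi.single_eq_of_ne hx, zero_add]
      have hx' : (x : K) ≠ 0 := fun h => hx (Subtype.ext h)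
      refine (E_anti ht (x : K)).trans ?_
      rw [E_const, E_const, ← Real.exp_add]
      refine Real.exp_le_exp.mpr ?_
      have h2 := hQ x hx'
      have h3 : 0 ≤ Qf (x : K) := Qf_nonneg _
      nlinarith
  have hs2 : Summable fun x : 𝔟 => E (fun _ => 1 / 2) (x : K) * Real.exp (-(c * (q / 2))) :=
    hs.mul_right _
  have hs1 : Summable (Pi.single (zr 𝔟) (1 : ℝ) : 𝔟 → ℝ) :=
    (hasSum_pi_single (zr 𝔟) (1 : ℝ)).summable
  have h4 : Θ 𝔟 t ≤ ∑' x : 𝔟, ((Pi.single (zr 𝔟) (1 : ℝ) : 𝔟 → ℝ) x +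
      E (fun _ => 1 / 2) (x : K) * Real.exp (-(c * (q / 2)))) :=
    (summable_E' 𝔟 fun w => hc0.trans_le (ht w)).tsum_le_tsum h1 (hs1.add hs2)
  rw [hs1.tsum_add hs2, (hasSum_pi_single (zr 𝔟) (1 : ℝ)).tsum_eq, tsum_mul_right] at h4
  unfold Θ at h4 ⊢
  linarith

/-! ### Continuity of `Θ` -/

theorem continuous_E (x : K) : Continuous fun t : InfinitePlace K → ℝ => E t x := by
  unfold E; fun_prop

theorem continuousAt_Θ (𝔟 : FractionalIdeal (𝓞 K)⁰ K) {t : InfinitePlace K → ℝ}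
    (ht : ∀ w, 0 < t w) : ContinuousAt (Θ 𝔟) t := by
  -- a positive lower bound near `t`
  let c : InfinitePlace K → ℝ := fun w => t w / 2
  have hc : ∀ w, 0 < c w := fun w => half_pos (ht w)
  have hU : {s : InfinitePlace K → ℝ | ∀ w, c w ≤ s w} ∈ 𝓝 t := by
    have h1 : {s : InfinitePlace K → ℝ | ∀ w, c w ≤ s w} = Set.univ.pi fun w => Ici (c w) := by
      ext s; simp only [Set.mem_ofPred_eq, Set.mem_univ_pi, Set.mem_Ici]
    rw [h1]
    exact set_pi_mem_nhds finite_univ fun w _ => Ici_mem_nhds (half_lt_self (ht w))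
  have hcont : ContinuousOn (Θ 𝔟) {s : InfinitePlace K → ℝ | ∀ w, c w ≤ s w} := by
    refine continuousOn_tsum (u := fun x : 𝔟 => E c (x : K))
      (fun x => (continuous_E (x : K)).continuousOn) (summable_E' 𝔟 hc) fun x s hs => ?_
    rw [Real.norm_eq_abs, abs_of_pos (E_pos' _ _)]
    exact E_anti hs _
  exact hcont.continuousAt hU

/-! ### `tt` -/

theorem tt_pos {x : ℝ} (hx : 0 < x) (y : logSpace K) (w : InfinitePlace K) : 0 < tt x y w := by
  unfold tt
  split_ifs <;> positivity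

theorem continuous_tt : Continuous fun p : ℝ × logSpace K => tt (K := K) p.1 p.2 := by
  refine continuous_pi fun w => ?_
  unfold tt
  by_cases h : w = w₀
  · simp only [dif_pos h]
    fun_prop
  · simp only [dif_neg h]
    fun_prop

/-- A lower bound for `tt` on bounded sets. -/
theorem exists_le_tt (R : ℝ) : ∃ a : ℝ, 0 < a ∧ ∀ x : ℝ, ∀ y : logSpace K, ‖y‖ ≤ R →
    ∀ w, a * x ^ 2 ≤ tt x y w := by
  set M : ℝ := (Fintype.card {w : InfinitePlace K // w ≠ w₀} : ℝ) * |R| + |R| with hM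
  have hM0 : 0 ≤ M := by positivity
  refine ⟨Real.exp (-M) ^ 2, by positivity, fun x y hy w => ?_⟩
  have hyR : ∀ v, |y v| ≤ |R| := fun v =>
    ((Real.norm_eq_abs _).symm.le.trans (norm_le_pi_norm y v)).trans (hy.trans (le_abs_self R))
  have hmult : ∀ w : InfinitePlace K, (1 : ℝ) ≤ w.mult := fun w => by
    exact_mod_cast w.mult_pos
  unfold tt
  split_ifs with h
  · have h1 : |∑ v, y v| ≤ M := by
      calc |∑ v, y v| ≤ ∑ v, |y v| := Finset.abs_sum_le_sum_abs _ _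
        _ ≤ ∑ _v : {w : InfinitePlace K // w ≠ w₀}, |R| := Finset.sum_le_sum fun v _ => hyR v
        _ = (Fintype.card {w : InfinitePlace K // w ≠ w₀} : ℝ) * |R| := by
            rw [Finset.sum_const, Finset.card_univ, nsmul_eq_mul]
        _ ≤ M := by rw [hM]; linarith [abs_nonneg R]
    have h2 : -M ≤ -(∑ v, y v) / (w.mult : ℝ) := by
      rw [le_div_iff₀ (one_pos.trans_le (hmult _))]
      have := hmult w
      nlinarith [le_abs_self (∑ v, y v)]
    rw [mul_pow, mul_comm]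
    gcongr
  · have h2 : -M ≤ y ⟨w, h⟩ / w.mult := by
      rw [le_div_iff₀ (one_pos.trans_le (hmult _))]
      have h3 := neg_abs_le (y ⟨w, h⟩)
      have h4 := hyR ⟨w, h⟩
      have h5 : |R| ≤ M := by
        rw [hM]
        have : 0 ≤ (Fintype.card {w : InfinitePlace K // w ≠ w₀} : ℝ) * |R| := by positivity
        linarith
      have := hmult w
      nlinarith
    rw [mul_pow, mul_comm]
    gcongr

/-! ### The function `F` -/

variable {β : logSpace K → ℝ}

theorem integrable (hβ : IsBeta β) : Integrable β := by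
  obtain ⟨R, hR⟩ := hβ.bdd
  have h1 : β = (Metric.closedBall (0 : logSpace K) R).indicator β := by
    funext y
    by_cases hy : y ∈ Metric.closedBall (0 : logSpace K) R
    · rw [indicator_of_mem hy]
    · rw [indicator_of_notMem hy]
      by_contra h0
      exact hy (mem_closedBall_zero_iff.mpr (hR y h0))
  rw [h1, integrable_indicator_iff Metric.isClosed_closedBall.measurableSet]
  refine Measure.integrableOn_of_bounded (M := 1) (measure_closedBall_lt_top).ne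
    hβ.meas.aestronglyMeasurable (Eventually.of_forall fun y => ?_)
  rw [Real.norm_eq_abs, abs_of_nonneg (hβ.nonneg y)]
  exact hβ.le_one y

theorem B_nonneg (hβ : IsBeta β) : 0 ≤ B β := integral_nonneg hβ.nonneg

theorem continuous_Θ_tt (𝔟 : FractionalIdeal (𝓞 K)⁰ K) {x : ℝ} (hx : 0 < x) :
    Continuous fun y : logSpace K => Θ 𝔟 (tt x y) := by
  refine continuous_iff_continuousAt.2 fun y => ?_
  have h1 : ContinuousAt (Θ 𝔟) (tt x y) := continuousAt_Θ 𝔟 (tt_pos hx y)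
  have h2 : Continuous fun y : logSpace K => tt (K := K) x y :=
    continuous_tt.comp (continuous_const.prodMk continuous_id)
  exact h1.comp h2.continuousAt

theorem continuousAt_Θ_tt (𝔟 : FractionalIdeal (𝓞 K)⁰ K) {x : ℝ} (hx : 0 < x) (y : logSpace K) :
    ContinuousAt (fun x : ℝ => Θ 𝔟 (tt x y)) x := by
  have h1 : ContinuousAt (Θ 𝔟) (tt x y) := continuousAt_Θ 𝔟 (tt_pos hx y)
  have h2 : Continuous fun x : ℝ => tt (K := K) x y :=
    continuous_tt.comp (continuous_id.prodMk continuous_const)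
  exact ContinuousAt.comp (g := Θ 𝔟) (f := fun x : ℝ => tt (K := K) x y) h1 h2.continuousAt

/-- A bound for the integrand. -/
theorem norm_le (hβ : IsBeta β) (𝔟 : FractionalIdeal (𝓞 K)⁰ K) {x₀ : ℝ} (hx₀ : 0 < x₀) :
    ∃ C : ℝ, ∀ x, x₀ ≤ x → ∀ y, ‖Θ 𝔟 (tt x y) * β y‖ ≤ C * β y := by
  obtain ⟨R, hR⟩ := hβ.bdd
  obtain ⟨a, ha, hle⟩ := exists_le_tt (K := K) R
  refine ⟨Θ 𝔟 fun _ => a * x₀ ^ 2, fun x hx y => ?_⟩
  have hx0 : 0 < x := hx₀.trans_le hx
  rw [norm_mul, Real.norm_eq_abs, Real.norm_eq_abs, abs_of_nonneg (hβ.nonneg y),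
    abs_of_nonneg (zero_le_one.trans (one_le_Θ 𝔟 (tt_pos hx0 y)))]
  by_cases h0 : β y = 0
  · rw [h0, mul_zero, mul_zero]
  · refine mul_le_mul_of_nonneg_right (Θ_anti 𝔟 (fun _ => by positivity) fun w => ?_) (hβ.nonneg y)
    refine le_trans ?_ (hle x y (hR y h0) w)
    gcongr

theorem integrable_F (hβ : IsBeta β) (𝔟 : FractionalIdeal (𝓞 K)⁰ K) {x : ℝ} (hx : 0 < x) :
    Integrable fun y : logSpace K => Θ 𝔟 (tt x y) * β y := by
  obtain ⟨C, hC⟩ := norm_le hβ 𝔟 hx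
  exact ((integrable hβ).const_mul C).mono' ((continuous_Θ_tt 𝔟 hx).aestronglyMeasurable.mul
    hβ.meas.aestronglyMeasurable) (Eventually.of_forall fun y => hC x le_rfl y)

theorem continuousAt_F (hβ : IsBeta β) (𝔟 : FractionalIdeal (𝓞 K)⁰ K) {x : ℝ}
    (hx : 0 < x) : ContinuousAt (F β 𝔟) x := by
  obtain ⟨C, hC⟩ := norm_le hβ 𝔟 (half_pos hx)
  refine continuousAt_of_dominated (bound := fun y => C * β y) ?_ ?_ ((integrable hβ).const_mul C) ?_
  · filter_upwards [Ioi_mem_nhds hx] with x' hx'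
    exact (continuous_Θ_tt 𝔟 hx').aestronglyMeasurable.mul hβ.meas.aestronglyMeasurable
  · filter_upwards [Ici_mem_nhds (half_lt_self hx)] with x' hx'
    exact Eventually.of_forall fun y => hC x' hx' y
  · exact Eventually.of_forall fun y => (continuousAt_Θ_tt 𝔟 hx y).mul continuousAt_const

/-- **`F β 𝔟` is continuous on `(0, ∞)`.** -/
theorem continuousOn_F (hβ : IsBeta β) (𝔟 : FractionalIdeal (𝓞 K)⁰ K) :
    ContinuousOn (F β 𝔟) (Ioi 0) := fun _ hx => (continuousAt_F hβ 𝔟 hx).continuousWithinAt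

theorem F_sub (hβ : IsBeta β) (𝔟 : FractionalIdeal (𝓞 K)⁰ K) {x : ℝ} (hx : 0 < x) :
    F β 𝔟 x - B β = ∫ y : logSpace K, (Θ 𝔟 (tt x y) - 1) * β y := by
  unfold F B
  rw [← integral_sub (integrable_F hβ 𝔟 hx) (integrable hβ)]
  refine integral_congr_ae (Eventually.of_forall fun y => ?_)
  simp only
  ring

theorem B_le_F (hβ : IsBeta β) (𝔟 : FractionalIdeal (𝓞 K)⁰ K) {x : ℝ} (hx : 0 < x) :
    0 ≤ F β 𝔟 x - B β := by
  rw [F_sub hβ 𝔟 hx]
  exact integral_nonneg fun y =>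
    mul_nonneg (sub_nonneg.2 (one_le_Θ 𝔟 (tt_pos hx y))) (hβ.nonneg y)

/-- **Exponential decay of `F β 𝔟 - B β`.** -/
theorem exists_F_sub_le (hβ : IsBeta β) (𝔟 : FractionalIdeal (𝓞 K)⁰ K) :
    ∃ A a x₀ : ℝ, 0 ≤ A ∧ 0 < a ∧ 1 ≤ x₀ ∧
      ∀ x, x₀ ≤ x → F β 𝔟 x - B β ≤ A * Real.exp (-(a * x)) := by
  obtain ⟨R, hR⟩ := hβ.bdd
  obtain ⟨a, ha, hle⟩ := exists_le_tt (K := K) R
  obtain ⟨A, q, hA, hq, hΘ⟩ := exists_Θ_sub_one_le 𝔟
  refine ⟨A * B β, a * q, max 1 a⁻¹, mul_nonneg hA (B_nonneg hβ), by positivity, le_max_left _ _,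
    fun x hx => ?_⟩
  have hx1 : 1 ≤ x := (le_max_left _ _).trans hx
  have hxa : a⁻¹ ≤ x := (le_max_right _ _).trans hx
  have hx0 : 0 < x := one_pos.trans_le hx1
  have hc : a * x ≤ a * x ^ 2 := mul_le_mul_of_nonneg_left (by nlinarith) ha.le
  have hc1 : 1 ≤ a * x := by
    rw [inv_le_iff_one_le_mul₀ ha] at hxa
    linarith
  have h1 : ∀ y, (Θ 𝔟 (tt x y) - 1) * β y ≤ A * Real.exp (-(a * q * x)) * β y := by
    intro y
    by_cases h0 : β y = 0
    · rw [h0, mul_zero, mul_zero]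
    · refine mul_le_mul_of_nonneg_right ?_ (hβ.nonneg y)
      refine (hΘ (a * x) hc1 (tt x y) fun w => hc.trans (hle x y (hR y h0) w)).trans (le_of_eq ?_)
      ring_nf
  rw [F_sub hβ 𝔟 hx0]
  calc ∫ y : logSpace K, (Θ 𝔟 (tt x y) - 1) * β y
      ≤ ∫ y : logSpace K, A * Real.exp (-(a * q * x)) * β y := by
        refine integral_mono_of_nonneg (Eventually.of_forall fun y => ?_)
          ((integrable hβ).const_mul _) (Eventually.of_forall h1)
        exact mul_nonneg (sub_nonneg.2 (one_le_Θ 𝔟 (tt_pos hx0 y))) (hβ.nonneg y)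
    _ = A * B β * Real.exp (-(a * q * x)) := by
        rw [integral_const_mul]
        unfold B
        ring

/-- **Decay**: `F β 𝔟 - B β = O(x ^ r)` at `∞`, for every `r`. -/
theorem isBigO_F (hβ : IsBeta β) (𝔟 : FractionalIdeal (𝓞 K)⁰ K) (r : ℝ) :
    (fun x => F β 𝔟 x - B β) =O[atTop] fun x : ℝ => x ^ r := by
  obtain ⟨A, a, x₀, hA, ha, hx₀, h⟩ := exists_F_sub_le hβ 𝔟
  have h1 : (fun x => F β 𝔟 x - B β) =O[atTop] fun x : ℝ => Real.exp (-a * x) := by
    refine Asymptotics.IsBigO.of_bound A ?_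
    filter_upwards [eventually_ge_atTop x₀] with x hx
    rw [Real.norm_eq_abs, Real.norm_eq_abs, abs_of_pos (Real.exp_pos _),
      abs_of_nonneg (B_le_F hβ 𝔟 (one_pos.trans_le (hx₀.trans hx))), neg_mul]
    exact h x hx
  exact h1.trans (isLittleO_exp_neg_mul_rpow_atTop ha r).isBigO

/-! ### The functional equation pair -/

/-- **The pair `(F β 𝔟, F β 𝔟')`** (`𝔟'` will be the dual of `𝔟`). -/
def pair (hβ : IsBeta β) (𝔟 𝔟' : FractionalIdeal (𝓞 K)⁰ K) {ε : ℝ} (hε : ε ≠ 0)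
    (hfe : ∀ x, 0 < x → F β 𝔟 x⁻¹ = ε * x ^ Module.finrank ℚ K * F β 𝔟' x) : WeakFEPair ℂ where
  f x := (F β 𝔟 x : ℂ)
  g x := (F β 𝔟' x : ℂ)
  k := Module.finrank ℚ K
  ε := (ε : ℂ)
  f₀ := (B β : ℂ)
  g₀ := (B β : ℂ)
  hf_int := (Complex.continuous_ofReal.comp_continuousOn (continuousOn_F hβ 𝔟)).locallyIntegrableOn
    measurableSet_Ioi
  hg_int := (Complex.continuous_ofReal.comp_continuousOn (continuousOn_F hβ 𝔟')).locallyIntegrableOn
    measurableSet_Ioi
  hk := by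
    have : 0 < Module.finrank ℚ K := Module.finrank_pos
    exact_mod_cast this
  hε := by exact_mod_cast hε
  h_feq x hx := by
    rw [one_div, hfe x hx, Real.rpow_natCast, smul_eq_mul]
    push_cast
    ring
  hf_top r := by
    have h := isBigO_F hβ 𝔟 r
    refine Asymptotics.IsBigO.of_norm_left ?_
    refine (h.norm_left).congr_left fun x => ?_
    rw [← Complex.ofReal_sub, Complex.norm_real]
  hg_top r := by
    have h := isBigO_F hβ 𝔟' r
    refine Asymptotics.IsBigO.of_norm_left ?_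
    refine (h.norm_left).congr_left fun x => ?_
    rw [← Complex.ofReal_sub, Complex.norm_real]

end Decay

/-- **Piece (c).** -/
theorem decayStmt (K : Type u) [Field K] [NumberField K] : DecayStmt K :=
  fun _ hβ 𝔟 _ => ⟨Decay.continuousOn_F hβ 𝔟, fun r => Decay.isBigO_F hβ 𝔟 r⟩

end Fermat.Agent.Classic.Zeta
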