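import Fermat.Agent.Classic.Zeta.Defs

/-!
# The Gamma factor: archimedean integrals in logarithmic coordinates
-/

set_option autoImplicit false

noncomputable section

open MeasureTheory Set Complex Module
open scoped Real

namespace Fermat.Agent.Classic.Zeta

/-! ## one variable -/

section OneVar

variable {a : ℝ} {s : ℂ}

lemma image_exp_two : (fun z : ℝ => Real.exp (2 * z)) '' univ = Ioi 0 := by
  ext t
  simp only [image_univ, mem_range, mem_Ioi]
  constructor
  · rintro ⟨z, rfl⟩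
    exact Real.exp_pos _
  · intro ht
    refine ⟨Real.log t / 2, ?_⟩
    rw [mul_div_cancel₀ _ two_ne_zero, Real.exp_log ht]

lemma deriv_exp_two (z : ℝ) :
    HasDerivWithinAt (fun z : ℝ => Real.exp (2 * z)) (2 * Real.exp (2 * z)) univ z := by
  have h : HasDerivAt (fun z : ℝ => Real.exp (2 * z)) (Real.exp (2 * z) * (2 * 1)) z :=
    ((hasDerivAt_id z).const_mul 2).exp
  rw [mul_one, mul_comm] at h
  exact h.hasDerivWithinAt

lemma inj_exp_two : InjOn (fun z : ℝ => Real.exp (2 * z)) univ := by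
  intro x _ y _ h
  have := Real.exp_injective h
  linarith

/-- the integrand in the coordinate `z` -/
def ker1 (a : ℝ) (s : ℂ) (z : ℝ) : ℂ := cexp (s * z) * cexp (-(a * Real.exp (2 * z) : ℝ))

lemma smul_eq_ker1 (z : ℝ) :
    |2 * Real.exp (2 * z)| • (((Real.exp (2 * z) : ℝ) : ℂ) ^ (s / 2 - 1) *
      cexp (-((a : ℂ) * ((Real.exp (2 * z) : ℝ) : ℂ)))) = 2 * ker1 a s z := by
  have h0 : (0 : ℝ) < Real.exp (2 * z) := Real.exp_pos _
  rw [abs_of_pos (by positivity), Complex.real_smul, ker1, ofReal_mul, ofReal_ofNat]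
  have h1 : ((Real.exp (2 * z) : ℝ) : ℂ) ^ (s / 2 - 1) = cexp (s * z) *
      (((Real.exp (2 * z) : ℝ) : ℂ))⁻¹ := by
    rw [cpow_sub _ _ (by exact_mod_cast h0.ne'), cpow_one, div_eq_mul_inv]
    congr 1
    rw [cpow_def_of_ne_zero (by exact_mod_cast h0.ne'), ← ofReal_log h0.le, Real.log_exp]
    congr 1
    push_cast
    ring
  rw [h1, mul_assoc 2]
  congr 1
  rw [show (-(a * Real.exp (2 * z) : ℝ) : ℂ) = -((a : ℂ) * ((Real.exp (2 * z) : ℝ) : ℂ)) by
    push_cast; ring]
  have h2 : (((Real.exp (2 * z) : ℝ) : ℂ)) ≠ 0 := by exact_mod_cast h0.ne'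
  field_simp

lemma integrableOn_aux (ha : 0 < a) (hs : 0 < s.re) :
    IntegrableOn (fun t : ℝ => (t : ℂ) ^ (s / 2 - 1) * cexp (-((a : ℂ) * (t : ℂ)))) (Ioi 0) := by
  have h1 : IntegrableOn (fun t : ℝ => t ^ (s.re / 2 - 1) * Real.exp (-a * t ^ (1 : ℝ)))
      (Ioi 0) := integrableOn_rpow_mul_exp_neg_mul_rpow (by linarith) one_pos ha
  refine Integrable.mono' h1 ?_ ?_
  · refine ContinuousOn.aestronglyMeasurable ?_ measurableSet_Ioi
    intro t ht
    refine ContinuousAt.continuousWithinAt ?_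
    refine ContinuousAt.mul ?_ (by fun_prop)
    exact (continuousAt_cpow_const (Or.inl (by simpa using ht))).comp continuous_ofReal.continuousAt
  · refine (ae_restrict_iff' measurableSet_Ioi).mpr (Filter.Eventually.of_forall fun t ht => ?_)
    rw [norm_mul, norm_cpow_eq_rpow_re_of_pos ht, Complex.norm_exp, Real.rpow_one]
    simp

theorem integrable_ker1 (ha : 0 < a) (hs : 0 < s.re) : Integrable (ker1 a s) := by
  have h := integrableOn_aux (a := a) (s := s) ha hs
  rw [← image_exp_two, integrableOn_image_iff_integrableOn_abs_deriv_smul MeasurableSet.univ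
    (fun z _ => deriv_exp_two z) inj_exp_two, integrableOn_univ] at h
  have h2 := h.const_mul (1 / 2 : ℂ)
  refine h2.congr (Filter.Eventually.of_forall fun z => ?_)
  simp only
  rw [smul_eq_ker1]
  ring

theorem integral_ker1 (ha : 0 < a) (hs : 0 < s.re) :
    ∫ z : ℝ, ker1 a s z = 1 / 2 * (a : ℂ) ^ (-(s / 2)) * Complex.Gamma (s / 2) := by
  have h := integral_image_eq_integral_abs_deriv_smul (s := univ) MeasurableSet.univ
    (fun z _ => deriv_exp_two z) inj_exp_two
    (fun t : ℝ => (t : ℂ) ^ (s / 2 - 1) * cexp (-((a : ℂ) * (t : ℂ))))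
  rw [image_exp_two, integral_cpow_mul_exp_neg_mul_Ioi (by simpa using hs) (by simpa using ha)]
    at h
  simp only [smul_eq_ker1, Measure.restrict_univ] at h
  rw [integral_const_mul] at h
  have h3 : ((1 : ℂ) / a) ^ (s / 2) = (a : ℂ) ^ (-(s / 2)) := by
    rw [one_div, cpow_neg, inv_cpow]
    rw [arg_ofReal_of_nonneg ha.le]
    exact Real.pi_pos.ne
  rw [h3] at h
  rw [mul_assoc, h]
  ring

end OneVar

/-! ## the change of coordinates -/

section Coord

variable {ι : Type*} [Fintype ι] [DecidableEq ι] (n : ι → ℝ) (w₀ : ι)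

/-- `log τ` as a function of `u = log x` and `y` -/
def lt (p : ℝ × ({i // i ≠ w₀} → ℝ)) (i : ι) : ℝ :=
  if h : i = w₀ then p.1 - (∑ j, p.2 j) / n w₀ else p.1 + p.2 ⟨i, h⟩ / n i

lemma sum_eq_add (w₀ : ι) (f : ι → ℝ) : ∑ i, f i = f w₀ + ∑ j : {i // i ≠ w₀}, f j := by
  rw [← Finset.add_sum_erase _ _ (Finset.mem_univ w₀)]
  congr 1
  refine (Finset.sum_subtype _ (fun x => ?_) f)
  simp

variable {n} (hn : ∀ i, 0 < n i)

include hn in
lemma sum_lt (p : ℝ × ({i // i ≠ w₀} → ℝ)) : ∑ i, n i * lt n w₀ p i = (∑ i, n i) * p.1 := by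
  rw [sum_eq_add w₀, sum_eq_add w₀]
  have h1 : ∀ j : {i // i ≠ w₀}, n j * lt n w₀ p j = n j * p.1 + p.2 j := by
    intro j
    rw [lt, dif_neg j.2, mul_add, mul_div_cancel₀ _ (hn _).ne']
  simp only [h1, Finset.sum_add_distrib]
  rw [lt, dif_pos rfl, mul_sub, mul_div_cancel₀ _ (hn _).ne', add_mul, Finset.sum_mul]
  ring

/-- the linear equivalence `(u, y) ↦ log τ` -/
def ltEquiv : (ℝ × ({i // i ≠ w₀} → ℝ)) ≃ₗ[ℝ] (ι → ℝ) where
  toFun p := lt n w₀ p
  map_add' p q := by
    ext i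
    simp only [lt, Pi.add_apply, Prod.fst_add, Prod.snd_add, Finset.sum_add_distrib]
    split_ifs <;> ring
  map_smul' c p := by
    ext i
    simp only [lt, Pi.smul_apply, Prod.smul_fst, Prod.smul_snd, smul_eq_mul, RingHom.id_apply,
      ← Finset.mul_sum]
    split_ifs <;> ring
  invFun z := ((∑ i, n i * z i) / ∑ i, n i, fun j => n j * (z j - (∑ i, n i * z i) / ∑ i, n i))
  left_inv p := by
    have hS : (∑ i, n i) ≠ 0 := (Finset.sum_pos (fun i _ => hn i) ⟨w₀, Finset.mem_univ _⟩).ne'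
    have h1 : (∑ i, n i * lt n w₀ p i) / ∑ i, n i = p.1 := by
      rw [sum_lt w₀ hn, mul_div_cancel_left₀ _ hS]
    refine Prod.ext h1 ?_
    ext j
    simp only [h1]
    rw [lt, dif_neg j.2, add_sub_cancel_left, mul_div_cancel₀ _ (hn _).ne']
  right_inv z := by
    have hS : (∑ i, n i) ≠ 0 := (Finset.sum_pos (fun i _ => hn i) ⟨w₀, Finset.mem_univ _⟩).ne'
    ext i
    simp only [lt]
    split_ifs with h
    · subst h
      have h2 : ∑ j : {j // j ≠ i}, n j * (z j - (∑ k, n k * z k) / ∑ k, n k)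
          = n i * ((∑ k, n k * z k) / ∑ k, n k - z i) := by
        have h3 := sum_eq_add i (fun j => n j * (z j - (∑ k, n k * z k) / ∑ k, n k))
        have h4 : ∑ j, n j * (z j - (∑ k, n k * z k) / ∑ k, n k) = 0 := by
          simp only [mul_sub, Finset.sum_sub_distrib, ← Finset.sum_mul]
          rw [mul_div_cancel₀ _ hS, sub_self]
        rw [h4] at h3
        linarith
      rw [h2, mul_div_cancel_left₀ _ (hn _).ne']
      ring
    · rw [mul_div_cancel_left₀ _ (hn _).ne']
      ring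

@[simp] lemma ltEquiv_apply (p : ℝ × ({i // i ≠ w₀} → ℝ)) (i : ι) :
    ltEquiv w₀ hn p i = lt n w₀ p i := rfl

include hn in
/-- the change of coordinates changes integrals by a constant -/
theorem exists_integral_lt : ∃ c : ℝ, 0 < c ∧
    (∀ F : (ι → ℝ) → ℂ, Integrable F → Integrable fun p : ℝ × ({i // i ≠ w₀} → ℝ) =>
      F (lt n w₀ p)) ∧
    ∀ F : (ι → ℝ) → ℂ, ∫ p : ℝ × ({i // i ≠ w₀} → ℝ), F (lt n w₀ p) = c * ∫ z, F z := by
  set e : (ℝ × ({i // i ≠ w₀} → ℝ)) ≃L[ℝ] (ι → ℝ) :=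
    (ltEquiv w₀ hn).toContinuousLinearEquiv with he
  have h0 : (volume : Measure (ℝ × ({i // i ≠ w₀} → ℝ))).IsAddHaarMeasure :=
    Measure.prod.instIsAddHaarMeasure volume volume
  have hν : (Measure.map e (volume : Measure (ℝ × ({i // i ≠ w₀} → ℝ)))).IsAddHaarMeasure :=
    e.isAddHaarMeasure_map volume
  have hme : MeasurableEmbedding e := e.toHomeomorph.measurableEmbedding
  set ν := Measure.map e (volume : Measure (ℝ × ({i // i ≠ w₀} → ℝ))) with hνd
  have h1 : ν = Measure.addHaarScalarFactor ν volume • (volume : Measure (ι → ℝ)) :=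
    Measure.isAddLeftInvariant_eq_smul ν volume
  have h2 : 0 < Measure.addHaarScalarFactor ν (volume : Measure (ι → ℝ)) :=
    Measure.addHaarScalarFactor_pos_of_isAddHaarMeasure ν volume
  refine ⟨Measure.addHaarScalarFactor ν volume, by exact_mod_cast h2, ?_, ?_⟩
  · intro F hF
    have h3 : Integrable F ν := by
      rw [h1]
      exact hF.smul_measure_nnreal
    rw [hνd] at h3
    exact (hme.integrable_map_iff).mp h3
  · intro F
    have h3 : ∫ p, F (e p) = ∫ z, F z ∂ν := by
      rw [hνd, hme.integral_map]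
    have h4 : ∫ z, F z ∂ν = (Measure.addHaarScalarFactor ν (volume : Measure (ι → ℝ)) : ℝ) *
        ∫ z, F z := by
      conv_lhs => rw [h1]
      rw [integral_smul_nnreal_measure]
      simp [NNReal.smul_def]
    rw [← h4, ← h3]
    rfl

/-! ## the integral over all coordinates -/

/-- the integrand on `ι → ℝ` -/
def kerN (n : ι → ℝ) (a : ι → ℝ) (s : ℂ) (z : ι → ℝ) : ℂ := ∏ i, ker1 (a i) (n i * s) (z i)

omit [DecidableEq ι] in
lemma kerN_eq (a : ι → ℝ) (s : ℂ) (z : ι → ℝ) :
    kerN n a s z = cexp (s * (∑ i, n i * z i : ℝ)) *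
      cexp (-(∑ i, a i * Real.exp (2 * z i) : ℝ)) := by
  unfold kerN ker1
  rw [Finset.prod_mul_distrib, ← Complex.exp_sum, ← Complex.exp_sum]
  congr 2
  · push_cast
    rw [Finset.mul_sum]
    exact Finset.sum_congr rfl fun i _ => by ring
  · push_cast
    rw [Finset.sum_neg_distrib]

omit [DecidableEq ι] in
include hn in
theorem integrable_kerN {a : ι → ℝ} (ha : ∀ i, 0 < a i) {s : ℂ} (hs : 0 < s.re) :
    Integrable (kerN n a s) := by
  refine Integrable.fintype_prod_dep (f := fun i z => ker1 (a i) (n i * s) z) fun i => ?_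
  refine integrable_ker1 (ha i) ?_
  rw [re_ofReal_mul]
  exact mul_pos (hn i) hs

omit [DecidableEq ι] in
include hn in
theorem integral_kerN {a : ι → ℝ} (ha : ∀ i, 0 < a i) {s : ℂ} (hs : 0 < s.re) :
    ∫ z, kerN n a s z = ∏ i, (1 / 2 * (a i : ℂ) ^ (-(n i * s / 2)) * Complex.Gamma (n i * s / 2)) := by
  have h := integral_fintype_prod_volume_eq_prod (fun (i : ι) (z : ℝ) => ker1 (a i) (n i * s) z)
  refine h.trans (Finset.prod_congr rfl fun i _ => ?_)
  refine integral_ker1 (ha i) ?_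
  rw [re_ofReal_mul]
  exact mul_pos (hn i) hs

end Coord

/-! ## number fields -/

section NF

open NumberField InfinitePlace

variable (K : Type*) [Field K] [NumberField K] (w₀ : InfinitePlace K)

open Classical in
/-- `log τ_w(x, y)` with `u = log x`, `y` in Mathlib's `logSpace`-type space -/
def lgt (p : ℝ × ({w : InfinitePlace K // w ≠ w₀} → ℝ)) (w : InfinitePlace K) : ℝ :=
  lt (fun w : InfinitePlace K => (w.mult : ℝ)) w₀ p w

lemma mult_pos' (w : InfinitePlace K) : (0 : ℝ) < w.mult := by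
  exact_mod_cast w.mult_pos

variable {K}

/-- the local factor -/
def locG (w : InfinitePlace K) (s : ℂ) : ℂ :=
  1 / 2 * ((π * w.mult : ℝ) : ℂ) ^ (-(w.mult * s / 2)) * Complex.Gamma (w.mult * s / 2)

lemma locG_real {w : InfinitePlace K} (hw : w.IsReal) (s : ℂ) :
    locG w s = 1 / 2 * Gammaℝ s := by
  rw [locG, mult, if_pos hw, Gammaℝ_def]
  simp only [Nat.cast_one, mul_one, one_mul]
  rw [neg_div]
  ring

lemma locG_complex {w : InfinitePlace K} (hw : w.IsComplex) (s : ℂ) :
    locG w s = 1 / 4 * Gammaℂ s := by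
  rw [locG, mult, if_neg (not_isReal_iff_isComplex.mpr hw), Gammaℂ_def]
  simp only [Nat.cast_ofNat]
  rw [mul_div_cancel_left₀ _ (two_ne_zero)]
  rw [show ((π * 2 : ℝ) : ℂ) = 2 * (π : ℂ) by push_cast; ring]
  ring

lemma prod_locG (s : ℂ) : ∏ w : InfinitePlace K, locG w s =
    (1 / 2) ^ nrRealPlaces K * (1 / 4) ^ nrComplexPlaces K *
      (Gammaℝ s ^ nrRealPlaces K * Gammaℂ s ^ nrComplexPlaces K) := by
  classical
  rw [← Fintype.prod_subtype_mul_prod_subtype (fun w : InfinitePlace K => w.IsReal)]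
  have h1 : ∏ w : {w : InfinitePlace K // w.IsReal}, locG w.1 s =
      (1 / 2 * Gammaℝ s) ^ nrRealPlaces K := by
    rw [Finset.prod_congr rfl fun w _ => locG_real w.2 s, Finset.prod_const, Finset.card_univ,
      nrRealPlaces]
  have h2 : ∏ w : {w : InfinitePlace K // ¬ w.IsReal}, locG w.1 s =
      (1 / 4 * Gammaℂ s) ^ nrComplexPlaces K := by
    rw [Finset.prod_congr rfl fun w _ => locG_complex (not_isReal_iff_isComplex.mp w.2) s,
      Finset.prod_const, Finset.card_univ, nrComplexPlaces]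
    congr 1
    exact Fintype.card_congr (Equiv.subtypeEquivRight fun w => not_isReal_iff_isComplex)
  rw [h1, h2, mul_pow, mul_pow]
  ring

/-- `|N x|` as a product over the places -/
lemma prod_pow_mult (x : K) : ∏ w : InfinitePlace K, w x ^ w.mult = |(Algebra.norm ℚ x : ℝ)| := by
  rw [prod_eq_abs_norm]
  norm_cast

lemma finset_prod_cpow {ι : Type*} (S : Finset ι) {a : ι → ℝ} (ha : ∀ i, 0 ≤ a i) (r : ℂ) :
    ((∏ i ∈ S, a i : ℝ) : ℂ) ^ r = ∏ i ∈ S, (a i : ℂ) ^ r := by
  classical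
  induction S using Finset.induction_on with
  | empty => simp
  | insert i S hi ih =>
    rw [Finset.prod_insert hi, Finset.prod_insert hi, ofReal_mul,
      mul_cpow_ofReal_nonneg (ha i) (Finset.prod_nonneg fun j _ => ha j), ih]

lemma sq_cpow {t : ℝ} (ht : 0 < t) (m : ℕ) (s : ℂ) :
    ((t ^ 2 : ℝ) : ℂ) ^ (-(m * s / 2)) = ((t ^ m : ℝ) : ℂ) ^ (-s) := by
  rw [cpow_def_of_ne_zero (by exact_mod_cast (pow_pos ht 2).ne'),
    cpow_def_of_ne_zero (by exact_mod_cast (pow_pos ht m).ne'), ← ofReal_log (by positivity),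
    ← ofReal_log (by positivity), Real.log_pow, Real.log_pow]
  congr 1
  push_cast
  ring

lemma prod_cpow {x : K} (hx : x ≠ 0) (s : ℂ) :
    ∏ w : InfinitePlace K, (1 / 2 * (((π * w.mult * w x ^ 2 : ℝ)) : ℂ) ^ (-(w.mult * s / 2)) *
      Complex.Gamma (w.mult * s / 2)) =
      (∏ w : InfinitePlace K, locG w s) * ((|(Algebra.norm ℚ x : ℝ)| : ℝ) : ℂ) ^ (-s) := by
  have hpos : ∀ w : InfinitePlace K, 0 < w x := fun w => w.pos_iff.mpr hx
  rw [← prod_pow_mult, finset_prod_cpow _ (fun w => pow_nonneg (hpos w).le _),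
    ← Finset.prod_mul_distrib]
  refine Finset.prod_congr rfl fun w _ => ?_
  rw [← sq_cpow (hpos w), ofReal_mul, mul_cpow_ofReal_nonneg (by positivity) (by positivity), locG]
  ring

/-- `Σ_w n_w τ_w² |x|_w²` -/
def qf (w₀ : InfinitePlace K) (x : K) (p : ℝ × ({w : InfinitePlace K // w ≠ w₀} → ℝ)) : ℝ :=
  ∑ w : InfinitePlace K, w.mult * Real.exp (lgt K w₀ p w) ^ 2 * w x ^ 2

/-- the integrand of the Mellin transform of one term of the theta series -/
def kerK (w₀ : InfinitePlace K) (s : ℂ) (x : K)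
    (p : ℝ × ({w : InfinitePlace K // w ≠ w₀} → ℝ)) : ℂ :=
  cexp (s * (Module.finrank ℚ K * p.1 : ℝ)) * cexp (-(π * qf w₀ x p : ℝ))

lemma kerK_eq (w₀ : InfinitePlace K) (s : ℂ) (x : K)
    (p : ℝ × ({w : InfinitePlace K // w ≠ w₀} → ℝ)) :
    kerK w₀ s x p = kerN (fun w : InfinitePlace K => (w.mult : ℝ))
      (fun w => π * w.mult * w x ^ 2) s (lgt K w₀ p) := by
  classical
  rw [kerN_eq, kerK]
  congr 2
  · congr 2
    have h := sum_lt (n := fun w : InfinitePlace K => (w.mult : ℝ)) w₀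
      (fun w => mult_pos' K w) p
    have h2 : ∑ w : InfinitePlace K, (w.mult : ℝ) = Module.finrank ℚ K := by
      have := sum_mult_eq (K := K)
      exact_mod_cast this
    rw [h2] at h
    rw [← h]
    refine Finset.sum_congr rfl fun w _ => ?_
    rw [lgt]
  · congr 2
    rw [qf, Finset.mul_sum]
    refine Finset.sum_congr rfl fun w _ => ?_
    rw [← Real.exp_nat_mul]
    push_cast
    ring

/-- **The Gamma factor.** -/
theorem exists_integral_kerK [DecidableEq (InfinitePlace K)] (w₀ : InfinitePlace K) : ∃ c : ℝ, 0 < c ∧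
    ∀ x : K, x ≠ 0 → ∀ s : ℂ, 0 < s.re → Integrable (kerK w₀ s x) volume ∧
      ∫ p : ℝ × ({w : InfinitePlace K // w ≠ w₀} → ℝ), kerK w₀ s x p = c * (Gammaℝ s ^ nrRealPlaces K * Gammaℂ s ^ nrComplexPlaces K) *
        ((|(Algebra.norm ℚ x : ℝ)| : ℝ) : ℂ) ^ (-s) := by
  classical
  obtain ⟨c, hc, h1, h2⟩ := exists_integral_lt (n := fun w : InfinitePlace K => (w.mult : ℝ)) w₀
    (fun w => mult_pos' K w)
  refine ⟨c * ((1 / 2) ^ nrRealPlaces K * (1 / 4) ^ nrComplexPlaces K), by positivity, ?_⟩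
  intro x hx s hs
  have hpos : ∀ w : InfinitePlace K, 0 < π * w.mult * w x ^ 2 := fun w =>
    mul_pos (mul_pos Real.pi_pos (mult_pos' K w)) (pow_pos (w.pos_iff.mpr hx) 2)
  have h3 := integrable_kerN (n := fun w : InfinitePlace K => (w.mult : ℝ))
    (fun w => mult_pos' K w) hpos hs
  have h4 := integral_kerN (n := fun w : InfinitePlace K => (w.mult : ℝ))
    (fun w => mult_pos' K w) hpos hs
  have h5 : kerK w₀ s x = fun p => kerN (fun w : InfinitePlace K => (w.mult : ℝ))
      (fun w => π * w.mult * w x ^ 2) s (lt (fun w : InfinitePlace K => (w.mult : ℝ)) w₀ p) := by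
    funext p
    rw [kerK_eq]
    congr 1
    funext w
    rw [lgt]
    congr!
  rw [h5]
  refine ⟨h1 _ h3, ?_⟩
  rw [h2, h4]
  have h6 := prod_cpow hx s
  simp only [ofReal_natCast] at h6 ⊢
  rw [h6, prod_locG]
  push_cast
  ring

end NF

/-! ## the form used for the zeta function -/

section Final

open NumberField NumberField.InfinitePlace NumberField.Units
open NumberField.Units.dirichletUnitTheorem
open scoped nonZeroDivisors Classical

universe u

variable {K : Type u} [Field K] [NumberField K]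

/-- the integrand on `(0, ∞) × logSpace K` -/
def kerX (s : ℂ) (a : K) (p : ℝ × logSpace K) : ℂ :=
  (p.1 : ℂ) ^ ((Module.finrank ℚ K : ℂ) * s - 1) * (E (tt p.1 p.2) a : ℂ)

lemma tt_exp (v : ℝ) (y : logSpace K) (w : InfinitePlace K) :
    tt (Real.exp v) y w = Real.exp (lgt K w₀ (v, y) w) ^ 2 := by
  unfold tt lgt lt
  split_ifs with h
  · rw [sub_eq_add_neg, Real.exp_add, neg_div, h]
  · rw [Real.exp_add]

lemma E_tt_exp (v : ℝ) (y : logSpace K) (a : K) :
    E (tt (Real.exp v) y) a = Real.exp (-(π * qf w₀ a (v, y))) := by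
  rw [E, qf, neg_mul]
  congr 3
  refine Finset.sum_congr rfl fun w _ => ?_
  rw [tt_exp, mul_assoc]

lemma exp_mul_kerX (s : ℂ) (a : K) (v : ℝ) (y : logSpace K) :
    (Real.exp v : ℂ) * kerX s a (Real.exp v, y) = kerK w₀ s a (v, y) := by
  have h0 : (Real.exp v : ℂ) ≠ 0 := by exact_mod_cast (Real.exp_pos v).ne'
  rw [kerX, kerK, E_tt_exp, ← mul_assoc]
  congr 1
  · simp only
    rw [cpow_sub _ _ h0, cpow_one, mul_div_cancel₀ _ h0, cpow_def_of_ne_zero h0,
      ← ofReal_log (Real.exp_pos v).le, Real.log_exp]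
    congr 1
    push_cast
    ring
  · push_cast
    rfl

lemma continuous_tt (w : InfinitePlace K) : Continuous fun p : ℝ × logSpace K => tt p.1 p.2 w := by
  unfold tt
  split_ifs with h
  · fun_prop
  · fun_prop

lemma continuous_E_tt (a : K) : Continuous fun p : ℝ × logSpace K => E (tt p.1 p.2) a := by
  unfold E
  refine Real.continuous_exp.comp (continuous_const.mul (continuous_finsetSum _ fun w _ => ?_))
  exact continuous_const.mul ((continuous_tt w).mul continuous_const)

lemma continuousOn_kerX (s : ℂ) (a : K) : ContinuousOn (kerX s a) (Ioi 0 ×ˢ univ) := by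
  refine ContinuousOn.mul ?_ (continuous_ofReal.comp (continuous_E_tt a)).continuousOn
  intro p hp
  refine ContinuousAt.continuousWithinAt ?_
  have h : ContinuousAt (fun z : ℂ => z ^ ((Module.finrank ℚ K : ℂ) * s - 1)) (p.1 : ℂ) :=
    continuousAt_cpow_const (Or.inl (by simpa using hp.1))
  exact ContinuousAt.comp (f := fun p : ℝ × logSpace K => (p.1 : ℂ)) h
    (continuous_ofReal.comp continuous_fst).continuousAt

lemma image_exp : Real.exp '' univ = Ioi 0 := by
  rw [image_univ, Real.range_exp]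

/-- **(e)** -/
theorem gammaStmt (K : Type u) [Field K] [NumberField K] : GammaStmt K := by
  obtain ⟨c, hc, h⟩ := exists_integral_kerK (K := K) w₀
  refine ⟨c, hc, fun a ha s hs => ?_⟩
  obtain ⟨h1, h2⟩ := h a ha s hs
  have hm : AEStronglyMeasurable (kerX s a)
      ((volume : Measure (ℝ × logSpace K)).restrict (Ioi 0 ×ˢ univ)) :=
    (continuousOn_kerX s a).aestronglyMeasurable (measurableSet_Ioi.prod MeasurableSet.univ)
  have hr : (volume : Measure (ℝ × logSpace K)).restrict (Ioi 0 ×ˢ univ) =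
      ((volume : Measure ℝ).restrict (Ioi 0)).prod (volume : Measure (logSpace K)) := by
    rw [← Measure.restrict_univ (μ := (volume : Measure (logSpace K))), Measure.prod_restrict]
    rfl
  have hI : IntegrableOn (kerX s a) (Ioi 0 ×ˢ univ) := by
    refine ⟨hm, ?_⟩
    rw [HasFiniteIntegral, hr, lintegral_prod _ (by rw [← hr]; exact hm.enorm), ← image_exp,
      lintegral_image_eq_lintegral_abs_deriv_mul MeasurableSet.univ
        (fun x _ => (Real.hasDerivAt_exp x).hasDerivWithinAt) Real.exp_injective.injOn,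
      Measure.restrict_univ]
    have h3 : ∫⁻ p, ‖kerK w₀ s a p‖ₑ ∂(volume : Measure (ℝ × logSpace K)) < ⊤ := h1.2
    have h4 : ∫⁻ p, ‖kerK w₀ s a p‖ₑ ∂(volume : Measure (ℝ × logSpace K)) =
        ∫⁻ v : ℝ, ∫⁻ y : logSpace K, ‖kerK w₀ s a (v, y)‖ₑ :=
      lintegral_prod _ h1.1.enorm
    rw [h4] at h3
    refine lt_of_eq_of_lt (lintegral_congr fun v => ?_) h3
    rw [← lintegral_const_mul']
    · refine lintegral_congr fun y => ?_
      rw [← exp_mul_kerX, enorm_mul, abs_of_pos (Real.exp_pos v)]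
      congr 1
      rw [← ofReal_norm, Complex.norm_real, Real.norm_of_nonneg (Real.exp_pos v).le]
    · exact ENNReal.ofReal_ne_top
  refine ⟨hI, ?_⟩
  have h5 : ∫ x in Ioi (0 : ℝ), ∫ y : logSpace K, kerX s a (x, y) =
      ∫ p : ℝ × logSpace K, kerK w₀ s a p := by
    have h6 : ∫ p : ℝ × logSpace K, kerK w₀ s a p =
        ∫ v : ℝ, ∫ y : logSpace K, kerK w₀ s a (v, y) := integral_prod _ h1
    rw [← image_exp, integral_image_eq_integral_abs_deriv_smul MeasurableSet.univ
      (fun x _ => (Real.hasDerivAt_exp x).hasDerivWithinAt) Real.exp_injective.injOn,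
      Measure.restrict_univ, h6]
    refine integral_congr_ae (Filter.Eventually.of_forall fun v => ?_)
    simp only
    rw [abs_of_pos (Real.exp_pos v), real_smul, ← integral_const_mul]
    refine integral_congr_ae (Filter.Eventually.of_forall fun y => ?_)
    exact exp_mul_kerX s a v y
  refine h5.trans (h2.trans ?_)
  rw [gam]
  norm_cast

end Final

end Fermat.Agent.Classic.Zeta
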