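import Fermat.Agent.LT.PoissonNF
import Fermat.Agent.Classic.Zeta.Defs

/-!
# The theta series of a fractional ideal of a number field

`K` any number field, `t : InfinitePlace K → ℝ` positive weights,
`Θ 𝔟 t = ∑_{x ∈ 𝔟} exp (-π ∑_w m_w t_w |x|_w²)`.

* `summable_E`: convergence;
* `Θ_inv`: `Θ 𝔟 t = (√|d| N𝔟 ∏ t_w ^ (m_w / 2))⁻¹ Θ 𝔟* t⁻¹`, `𝔟* = (𝔟 𝔡)⁻¹` the trace dual;
* `thetaStmt`: the statement (a) of `Defs`.
-/

set_option autoImplicit false

noncomputable section

namespace Fermat.Agent.Classic.Zeta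

open NumberField NumberField.InfinitePlace NumberField.mixedEmbedding Module MeasureTheory
open Fermat.Agent.LT.Poisson
open scoped nonZeroDivisors Real

universe u

variable {K : Type u} [Field K] [NumberField K]

theorem E_zero_right (t : InfinitePlace K → ℝ) : E t (0 : K) = 1 := by simp [E]

theorem E_pos' (t : InfinitePlace K → ℝ) (x : K) : 0 < E t x := Real.exp_pos _

section Model

open scoped Classical

variable (K)

/-- the trace form on the mixed space. -/
def trB : LinearMap.BilinForm ℝ (mixedSpace K) :=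
  LinearMap.mk₂ ℝ (fun v w => ∑ i, v.1 i * w.1 i + ∑ i, 2 * (v.2 i * w.2 i).re)
    (fun v v' w => by
      simp only [Prod.fst_add, Prod.snd_add, Pi.add_apply, add_mul, Complex.add_re, mul_add,
        Finset.sum_add_distrib]
      ring)
    (fun c v w => by
      simp only [Prod.smul_fst, Prod.smul_snd, Pi.smul_apply, smul_eq_mul, Complex.real_smul,
        mul_assoc, Complex.re_ofReal_mul]
      rw [mul_add, Finset.mul_sum, Finset.mul_sum]
      congr 1
      refine Finset.sum_congr rfl fun i _ => ?_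
      ring)
    (fun v w w' => by
      simp only [Prod.fst_add, Prod.snd_add, Pi.add_apply, mul_add, Complex.add_re,
        Finset.sum_add_distrib]
      ring)
    (fun c v w => by
      simp only [Prod.smul_fst, Prod.smul_snd, Pi.smul_apply, smul_eq_mul, Complex.real_smul,
        mul_left_comm _ (c : ℂ), mul_left_comm _ c, Complex.re_ofReal_mul]
      rw [mul_add, Finset.mul_sum, Finset.mul_sum])

theorem trB_apply (v w : mixedSpace K) :
    trB K v w = ∑ i, v.1 i * w.1 i + ∑ i, 2 * (v.2 i * w.2 i).re := rfl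

/-- the mixed embedding as an additive map. -/
def jK : K →+ mixedSpace K := (mixedEmbedding K : K →+* mixedSpace K).toAddMonoidHom

omit [NumberField K] in
@[simp] theorem jK_apply (x : K) : jK K x = mixedEmbedding K x := rfl

theorem trace_eq_sum (z : K) : ((Algebra.trace ℚ K z : ℚ) : ℝ) =
    ∑ w : {w : InfinitePlace K // IsReal w}, (mixedEmbedding K z).1 w +
      ∑ w : {w : InfinitePlace K // IsComplex w}, 2 * ((mixedEmbedding K z).2 w).re := by
  classical
  have h1 : ((Algebra.trace ℚ K z : ℚ) : ℂ) = ∑ σ : K →+* ℂ, σ z := by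
    have := trace_eq_sum_embeddings (K := ℚ) (L := K) ℂ (x := z)
    rw [eq_ratCast] at this
    rw [this]
    exact (Fintype.sum_equiv (RingHom.equivRatAlgHom (R := K) (S := ℂ)) _ _ fun σ => rfl).symm
  have h2 : ((Algebra.trace ℚ K z : ℚ) : ℂ) = ((∑ w : {w : InfinitePlace K // IsReal w},
      (mixedEmbedding K z).1 w + ∑ w : {w : InfinitePlace K // IsComplex w},
        2 * ((mixedEmbedding K z).2 w).re : ℝ) : ℂ) := by
    rw [h1, ← Equiv.sum_comp (indexEquiv K), Fintype.sum_sum_type, Fintype.sum_prod_type]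
    push_cast
    congr 1
    · refine Finset.sum_congr rfl fun w _ => ?_
      rw [indexEquiv_apply_isReal, mixedEmbedding_apply_isReal, embedding_of_isReal_apply]
    · refine Finset.sum_congr rfl fun w _ => ?_
      rw [Fin.sum_univ_two, indexEquiv_apply_isComplex_fst, indexEquiv_apply_isComplex_snd,
        mixedEmbedding_apply_isComplex]
      change w.1.embedding z + (starRingEnd ℂ) (w.1.embedding z) = _
      rw [Complex.add_conj]
      push_cast
      rfl
  exact_mod_cast h2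

theorem isRealModel : IsRealModel (Algebra.traceForm ℚ K) (jK K) (trB K) where
  nondeg := traceForm_nondegenerate ℚ K
  finrank_eq := mixedEmbedding.finrank K
  map x y := by
    rw [Algebra.traceForm_apply, trace_eq_sum, trB_apply, jK_apply, jK_apply, map_mul]
    rfl

end Model

section Gauss

open scoped Classical

variable (K)

theorem sqrt_two_ne : (√2 : ℝ) ≠ 0 := by positivity

/-- the scaling of the standard basis. -/
def scal : index K → ℝˣ := Sum.elim (fun _ => 1) (fun _ => (Units.mk0 (√2) sqrt_two_ne)⁻¹)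

/-- the orthogonal basis of the trace form -/
def eK : Basis (index K) ℝ (mixedSpace K) := (stdBasis K).unitsSMul (scal K)

variable {K}

theorem eK_repr_inl (v : mixedSpace K) (w : {w : InfinitePlace K // IsReal w}) :
    (eK K).repr v (Sum.inl w) = v.1 w := by
  rw [eK, Basis.repr_unitsSMul]
  simp [scal]

theorem eK_repr_inr0 (v : mixedSpace K) (w : {w : InfinitePlace K // IsComplex w}) :
    (eK K).repr v (Sum.inr (w, 0)) = √2 * (v.2 w).re := by
  rw [eK, Basis.repr_unitsSMul, stdBasis_apply_isComplex_fst]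
  simp [scal, Units.smul_def]

theorem eK_repr_inr1 (v : mixedSpace K) (w : {w : InfinitePlace K // IsComplex w}) :
    (eK K).repr v (Sum.inr (w, 1)) = √2 * (v.2 w).im := by
  rw [eK, Basis.repr_unitsSMul, stdBasis_apply_isComplex_snd]
  simp [scal, Units.smul_def]

variable (K)

/-- the signs -/
def sgnK : index K → ℝ := Sum.elim (fun _ => 1) (fun p => if p.2 = 0 then 1 else -1)

theorem sgnK_sq (i : index K) : sgnK K i ^ 2 = 1 := by
  rcases i with w | ⟨w, j⟩
  · simp [sgnK]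
  · simp only [sgnK, Sum.elim_inr]
    split_ifs <;> norm_num

theorem trB_eq (w v : mixedSpace K) :
    trB K w v = ∑ i, sgnK K i * (eK K).repr w i * (eK K).repr v i := by
  rw [trB_apply, Fintype.sum_sum_type, Fintype.sum_prod_type]
  congr 1
  · refine Finset.sum_congr rfl fun i _ => ?_
    rw [eK_repr_inl, eK_repr_inl]
    simp [sgnK]
  · refine Finset.sum_congr rfl fun i _ => ?_
    rw [Fin.sum_univ_two, eK_repr_inr0, eK_repr_inr0, eK_repr_inr1, eK_repr_inr1]
    have h2 : (√2 : ℝ) ^ 2 = 2 := Real.sq_sqrt (by norm_num)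
    have e0 : sgnK K (Sum.inr (i, 0)) = 1 := by simp [sgnK]
    have e1 : sgnK K (Sum.inr (i, 1)) = -1 := by simp [sgnK]
    rw [e0, e1, Complex.mul_re]
    linear_combination (-(w.2 i).re * (v.2 i).re + (w.2 i).im * (v.2 i).im) * h2

variable {K}

/-- the weights as complex numbers indexed by the basis. -/
def wtK (t : InfinitePlace K → ℝ) : index K → ℂ :=
  Sum.elim (fun w => (t w.1 : ℂ)) (fun p => (t p.1.1 : ℂ))

theorem sum_wtK (t : InfinitePlace K → ℝ) (x : K) :
    ∑ i, wtK t i * ((eK K).repr (mixedEmbedding K x) i : ℂ) ^ 2 =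
      ((∑ w : InfinitePlace K, (w.mult : ℝ) * (t w * w x ^ 2) : ℝ) : ℂ) := by
  rw [Fintype.sum_sum_type, Fintype.sum_prod_type, sum_eq_sum_add_sum]
  push_cast
  congr 1
  · refine Finset.sum_congr rfl fun w _ => ?_
    rw [eK_repr_inl, mixedEmbedding_apply_isReal, mult, if_pos w.2]
    simp only [wtK, Sum.elim_inl]
    have h : (embedding_of_isReal w.2 x : ℝ) ^ 2 = w.1 x ^ 2 := by
      rw [← norm_embedding_of_isReal w.2, Real.norm_eq_abs, sq_abs]
    push_cast
    rw [one_mul]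
    congr 1
    exact_mod_cast h
  · refine Finset.sum_congr rfl fun w _ => ?_
    rw [Fin.sum_univ_two, eK_repr_inr0, eK_repr_inr1, mixedEmbedding_apply_isComplex, mult,
      if_neg (not_isReal_iff_isComplex.mpr w.2)]
    simp only [wtK, Sum.elim_inr]
    have h2 : (√2 : ℝ) ^ 2 = 2 := Real.sq_sqrt (by norm_num)
    have h : (√2 * (w.1.embedding x).re) ^ 2 + (√2 * (w.1.embedding x).im) ^ 2 = 2 * w.1 x ^ 2 := by
      rw [← norm_embedding_eq, ← Complex.normSq_eq_norm_sq, Complex.normSq_apply]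
      linear_combination ((w.1.embedding x).re ^ 2 + (w.1.embedding x).im ^ 2) * h2
    rw [← mul_add]
    have h' : ((√2 * (w.1.embedding x).re : ℝ) : ℂ) ^ 2 + ((√2 * (w.1.embedding x).im : ℝ) : ℂ) ^ 2 =
        2 * (w.1 x : ℂ) ^ 2 := by exact_mod_cast h
    rw [h']
    push_cast
    ring

theorem gau_eq (t : InfinitePlace K → ℝ) (x : K) :
    gau (eK K) (wtK t) (mixedEmbedding K x) = (E t x : ℂ) := by
  rw [gau, sum_wtK, E, neg_mul]
  push_cast
  rfl

omit [NumberField K] in
theorem wtK_re_pos {t : InfinitePlace K → ℝ} (ht : ∀ w, 0 < t w) (i : index K) :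
    0 < (wtK t i).re := by
  rcases i with w | p
  · simpa [wtK] using ht w.1
  · simpa [wtK] using ht p.1.1

omit [NumberField K] in
theorem wtK_inv (t : InfinitePlace K → ℝ) :
    (fun i => (wtK t i)⁻¹) = wtK (fun w => (t w)⁻¹) := by
  funext i
  rcases i with w | p
  · simp [wtK]
  · simp [wtK]

theorem prod_wtK {t : InfinitePlace K → ℝ} (ht : ∀ w, 0 < t w) :
    ∏ i, ((wtK t i)⁻¹) ^ (1 / 2 : ℂ) =
      (((∏ w : InfinitePlace K, t w ^ ((w.mult : ℝ) / 2))⁻¹ : ℝ) : ℂ) := by
  have h0 : ∀ w, (((t w : ℝ) : ℂ)⁻¹) ^ (1 / 2 : ℂ) = (((t w ^ (1 / 2 : ℝ))⁻¹ : ℝ) : ℂ) := by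
    intro w
    rw [← Complex.ofReal_inv, ← Real.inv_rpow (ht w).le, Complex.ofReal_cpow
      (inv_nonneg.mpr (ht w).le)]
    push_cast
    rfl
  rw [Fintype.prod_sum_type, Fintype.prod_prod_type, prod_eq_prod_mul_prod, mul_inv,
    ← Finset.prod_inv_distrib, ← Finset.prod_inv_distrib]
  push_cast
  congr 1
  · refine Finset.prod_congr rfl fun w _ => ?_
    simp only [wtK, Sum.elim_inl]
    rw [h0, mult, if_pos w.2]
    push_cast
    rfl
  · refine Finset.prod_congr rfl fun w _ => ?_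
    simp only [wtK, Sum.elim_inr]
    rw [Fin.prod_univ_two, h0, mult, if_neg (not_isReal_iff_isComplex.mpr w.2)]
    have h1 : (t w.1 ^ (1 / 2 : ℝ))⁻¹ * (t w.1 ^ (1 / 2 : ℝ))⁻¹ =
        (t w.1 ^ (((2 : ℕ) : ℝ) / 2))⁻¹ := by
      rw [← mul_inv, ← Real.rpow_add (ht w.1)]
      norm_num
    rw [← Complex.ofReal_mul, h1]
    push_cast
    rfl

end Gauss

section Main

open scoped Classical

theorem addHaar_std : (stdBasis K).addHaar = (volume : Measure (mixedSpace K)) := by
  rw [Basis.addHaar_eq_iff, Basis.coe_parallelepiped,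
    ← measure_congr (ZSpan.fundamentalDomain_ae_parallelepiped (stdBasis K) volume),
    volume_fundamentalDomain_stdBasis K]

theorem volume_eK : (volume : Measure (mixedSpace K)).real (parallelepiped (eK K)) =
    (2⁻¹ : ℝ) ^ nrComplexPlaces K := by
  rw [measureReal_def, ← addHaar_std, Measure.addHaar_parallelepiped, eK,
    Basis.det_unitsSMul_self, Fintype.prod_sum_type, Fintype.prod_prod_type]
  have h2 : (√2 : ℝ) ^ 2 = 2 := Real.sq_sqrt (by norm_num)
  have h3 : ((√2 : ℝ)⁻¹) ^ 2 = 2⁻¹ := by rw [inv_pow, h2]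
  have h4 : (∏ x : {w : InfinitePlace K // IsReal w}, ((scal K (Sum.inl x) : ℝˣ) : ℝ)) *
      ∏ x : {w : InfinitePlace K // IsComplex w}, ∏ y : Fin 2,
        ((scal K (Sum.inr (x, y)) : ℝˣ) : ℝ) = (2⁻¹ : ℝ) ^ nrComplexPlaces K := by
    have e1 : ∀ x : {w : InfinitePlace K // IsReal w}, ((scal K (Sum.inl x) : ℝˣ) : ℝ) = 1 :=
      fun x => rfl
    have e2 : ∀ (x : {w : InfinitePlace K // IsComplex w}) (y : Fin 2),
        ((scal K (Sum.inr (x, y)) : ℝˣ) : ℝ) = (√2)⁻¹ := fun x y => by simp [scal]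
    simp only [e1, e2, Finset.prod_const, Finset.card_univ, Fintype.card_fin, one_pow, one_mul, h3]
  rw [h4, abs_of_nonneg (by positivity), ENNReal.toReal_ofReal (by positivity)]

theorem volume_basis (I : (FractionalIdeal (𝓞 K)⁰ K)ˣ) :
    (volume : Measure (mixedSpace K)).real (parallelepiped (fractionalIdealLatticeBasis K I)) =
      (FractionalIdeal.absNorm (I : FractionalIdeal (𝓞 K)⁰ K)) * (2⁻¹) ^ nrComplexPlaces K *
        √|(discr K : ℝ)| := by
  have h := covolume_idealLattice K I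
  rw [ZLattice.covolume_eq_measure_fundamentalDomain _ _ (fundamentalDomain_idealLattice K I)] at h
  rw [← h]
  exact (measureReal_congr (ZSpan.fundamentalDomain_ae_parallelepiped _ _)).symm

theorem mem_dualSubmodule_iff (I : (FractionalIdeal (𝓞 K)⁰ K)ˣ) (x : K) :
    x ∈ (Algebra.traceForm ℚ K).dualSubmodule
      (((I : FractionalIdeal (𝓞 K)⁰ K) : Submodule (𝓞 K) K).restrictScalars ℤ) ↔
      x ∈ FractionalIdeal.dual ℤ ℚ (I : FractionalIdeal (𝓞 K)⁰ K) := by
  rw [FractionalIdeal.mem_dual I.ne_zero, LinearMap.BilinForm.mem_dualSubmodule]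
  refine forall₂_congr fun y _ => ?_
  rw [Submodule.mem_one]
  rfl

/-- the constant of the theta transformation. -/
def cΘ (𝔟 : FractionalIdeal (𝓞 K)⁰ K) (t : InfinitePlace K → ℝ) : ℝ :=
  (√|(discr K : ℝ)| * nF 𝔟 * ∏ w : InfinitePlace K, t w ^ ((w.mult : ℝ) / 2))⁻¹

theorem cΘ_eq (I : (FractionalIdeal (𝓞 K)⁰ K)ˣ) (t : InfinitePlace K → ℝ) :
    cΘ (I : FractionalIdeal (𝓞 K)⁰ K) t =
      ((volume : Measure (mixedSpace K)).real
        (parallelepiped (fractionalIdealLatticeBasis K I)))⁻¹ *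
      ((volume : Measure (mixedSpace K)).real (parallelepiped (eK K)) *
        (∏ w : InfinitePlace K, t w ^ ((w.mult : ℝ) / 2))⁻¹) := by
  rw [volume_basis, volume_eK, cΘ, nF]
  have h2 : ((2⁻¹ : ℝ) ^ nrComplexPlaces K) ≠ 0 := by positivity
  have h3 : (FractionalIdeal.absNorm (I : FractionalIdeal (𝓞 K)⁰ K) : ℝ) ≠ 0 := by
    rw [Ne, Rat.cast_eq_zero, FractionalIdeal.absNorm_eq_zero_iff]
    exact I.ne_zero
  have h4 : √|(discr K : ℝ)| ≠ 0 := by
    rw [Real.sqrt_ne_zero', abs_pos]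
    exact_mod_cast discr_ne_zero K
  rw [mul_inv, mul_inv, mul_inv, mul_inv]
  field_simp

variable (I : (FractionalIdeal (𝓞 K)⁰ K)ˣ)

/-- the lattice of a fractional ideal. -/
def LK : Submodule ℤ K :=
  (((I : FractionalIdeal (𝓞 K)⁰ K) : Submodule (𝓞 K) K).restrictScalars ℤ)

theorem LK_eq : LK I = Submodule.span ℤ (Set.range (basisOfFractionalIdeal K I)) := by
  ext x
  rw [mem_span_basisOfFractionalIdeal]
  rfl

variable {I} {t : InfinitePlace K → ℝ} (ht : ∀ w, 0 < t w)

include ht in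
theorem exists_decay : ∃ C : ℝ, ∀ v : mixedSpace K, ‖gau (eK K) (wtK t) v‖ ≤
    C * (1 + ‖v‖) ^ (-((finrank ℚ K + 1 : ℕ) : ℝ)) :=
  gau_decay (eK K) (wtK_re_pos ht) (finrank ℚ K + 1)

theorem lt_beta : (finrank ℚ K : ℝ) < ((finrank ℚ K + 1 : ℕ) : ℝ) := by
  push_cast
  linarith

include ht in
/-- convergence of the theta series. -/
theorem summable_E {𝔟 : FractionalIdeal (𝓞 K)⁰ K} (h𝔟 : 𝔟 ≠ 0) :
    Summable fun x : 𝔟 => E t (x : K) := by
  obtain ⟨C, hC⟩ := exists_decay (K := K) ht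
  have h1 := (isRealModel K).summable_of_decay (LK_eq (Units.mk0 𝔟 h𝔟)) lt_beta hC 0
  have h2 : Summable fun x : LK (Units.mk0 𝔟 h𝔟) => ((E t (x : K) : ℝ) : ℂ) := by
    refine h1.congr fun x => ?_
    rw [zero_add, jK_apply, gau_eq]
  exact Complex.summable_ofReal.mp h2

include ht in
/-- **The theta transformation**, `HasSum` version. -/
theorem hasSum_Θ {𝔟 : FractionalIdeal (𝓞 K)⁰ K} (h𝔟 : 𝔟 ≠ 0) :
    HasSum (fun y : FractionalIdeal.dual ℤ ℚ 𝔟 => cΘ 𝔟 t * E (fun w => (t w)⁻¹) (y : K))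
      (Θ 𝔟 t) := by
  set I : (FractionalIdeal (𝓞 K)⁰ K)ˣ := Units.mk0 𝔟 h𝔟 with hI
  have hI' : (I : FractionalIdeal (𝓞 K)⁰ K) = 𝔟 := rfl
  obtain ⟨C, hC⟩ := exists_decay (K := K) ht
  have ht' : ∀ w, 0 < (t w)⁻¹ := fun w => inv_pos.mpr (ht w)
  obtain ⟨C', hC'⟩ := exists_decay (K := K) (t := fun w => (t w)⁻¹) ht'
  have hB : ∀ y : K, fB volume (trB K) (gau (eK K) (wtK t)) (jK K y) =
      (volume : Measure (mixedSpace K)).real (parallelepiped (eK K)) *
        (((∏ w : InfinitePlace K, t w ^ ((w.mult : ℝ) / 2))⁻¹ : ℝ) : ℂ) *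
        ((E (fun w => (t w)⁻¹) y : ℝ) : ℂ) := by
    intro y
    rw [fB_gau volume (eK K) (sgnK_sq K) (trB_eq K) (wtK_re_pos ht), prod_wtK ht, wtK_inv,
      jK_apply, gau_eq]
  have hs : Summable fun y : (Algebra.traceForm ℚ K).dualSubmodule (LK I) =>
      fB volume (trB K) (gau (eK K) (wtK t)) (jK K y) := by
    simp_rw [hB]
    have h1 := (isRealModel K).summable_dual_of_decay (LK_eq I) lt_beta hC' 0
    refine Summable.mul_left _ (h1.congr fun y => ?_)
    rw [zero_add, jK_apply, gau_eq]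
  have h := (isRealModel K).hasSum_poisson volume (LK_eq I) (continuous_gau _ _) lt_beta hC hs 0
  have hb : (isRealModel K).realBasis (basisOfFractionalIdeal K I) =
      fractionalIdealLatticeBasis K I := by
    apply Basis.eq_of_apply_eq
    intro i
    rw [IsRealModel.realBasis_apply, fractionalIdealLatticeBasis_apply, jK_apply]
  rw [hb] at h
  simp_rw [hB, map_zero, zero_add, jK_apply, gau_eq] at h
  have h5 : ∑' x : LK I, ((E t (x : K) : ℝ) : ℂ) = ((Θ 𝔟 t : ℝ) : ℂ) := by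
    rw [Θ, Complex.ofReal_tsum]
    rfl
  rw [h5] at h
  have h6 : HasSum (fun y : (Algebra.traceForm ℚ K).dualSubmodule (LK I) =>
      cΘ 𝔟 t * E (fun w => (t w)⁻¹) (y : K)) (Θ 𝔟 t) := by
    rw [← Complex.hasSum_ofReal]
    convert h using 1
    funext y
    rw [← hI', cΘ_eq]
    push_cast
    simp only [mul_zero, Complex.exp_zero, mul_one]
    ring
  exact (Equiv.subtypeEquivRight (mem_dualSubmodule_iff I)).hasSum_iff.mp h6

include ht in
/-- **The theta transformation.** -/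
theorem Θ_inv {𝔟 : FractionalIdeal (𝓞 K)⁰ K} (h𝔟 : 𝔟 ≠ 0) :
    Θ 𝔟 t = (√|(discr K : ℝ)| * nF 𝔟 * ∏ w : InfinitePlace K, t w ^ ((w.mult : ℝ) / 2))⁻¹ *
      Θ (dualF 𝔟) (fun w => (t w)⁻¹) := by
  have h := (hasSum_Θ ht h𝔟).tsum_eq
  rw [tsum_mul_left] at h
  exact h.symm

/-- convergence, all fractional ideals. -/
theorem summable_E' (𝔟 : FractionalIdeal (𝓞 K)⁰ K) {t : InfinitePlace K → ℝ}
    (ht : ∀ w, 0 < t w) : Summable fun x : 𝔟 => E t (x : K) := by
  by_cases h𝔟 : 𝔟 = 0
  · have : Finite {x : K // x ∈ 𝔟} := by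
      rw [h𝔟]
      refine Finite.of_injective (fun _ => (0 : Fin 1)) fun x y _ => ?_
      apply Subtype.ext
      rw [(FractionalIdeal.mem_zero_iff _).mp x.2, (FractionalIdeal.mem_zero_iff _).mp y.2]
    exact Summable.of_finite
  · exact summable_E ht h𝔟

/-- **Piece (a).** -/
theorem thetaStmt (K : Type u) [Field K] [NumberField K] : ThetaStmt K :=
  ⟨fun 𝔟 _ ht => summable_E' 𝔟 ht, fun _ h𝔟 _ ht => Θ_inv ht h𝔟⟩

end Main

end Fermat.Agent.Classic.Zeta
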