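import Fermat.Agent.Classic.Zeta.Coord

/-!
# Unfolding (letter (d)): sum over the units and independence of the weight
-/

set_option autoImplicit false

noncomputable section

namespace Fermat.Agent.Classic.Zeta

open NumberField NumberField.InfinitePlace NumberField.Units MeasureTheory Set Real
open NumberField.Units.dirichletUnitTheorem
open scoped nonZeroDivisors Classical ENNReal

universe u

variable {K : Type u} [Field K] [NumberField K]

theorem countableK (K : Type u) [Field K] [NumberField K] : Countable K :=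
  (Module.finBasis ℚ K).equivFun.injective.countable

instance countable_unitsO : Countable (𝓞 K)ˣ := by
  have h : Function.Injective fun v : (𝓞 K)ˣ => ((v : 𝓞 K) : K) := coe_injective K
  have := countableK K
  exact h.countable

theorem countable_fractional (𝔟 : FractionalIdeal (𝓞 K)⁰ K) : Countable 𝔟 := by
  have := countableK K
  exact (Subtype.coe_injective : Function.Injective fun x : 𝔟 => (x : K)).countable

/-- translation by the logarithm of a unit -/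
abbrev tr (v : (𝓞 K)ˣ) : logSpace K := logEmbedding K (Additive.ofMul v)

theorem tr_inv (v : (𝓞 K)ˣ) : tr v⁻¹ = -tr v := by
  unfold tr
  rw [ofMul_inv, map_neg]

variable {β β' : logSpace K → ℝ}

theorem IsBeta.tsum_eq (hβ : IsBeta β) (y : logSpace K) :
    ∑' v : (𝓞 K)ˣ, ENNReal.ofReal (β (y + tr v)) = 1 := by
  rw [← ENNReal.ofReal_tsum_of_nonneg (fun v => hβ.nonneg _) (hβ.hasSum y).summable,
    (hβ.hasSum y).tsum_eq, ENNReal.ofReal_one]

theorem IsBeta.tsum_eq' (hβ : IsBeta β) (y : logSpace K) :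
    ∑' v : (𝓞 K)ˣ, ENNReal.ofReal (β (y - tr v)) = 1 := by
  rw [← hβ.tsum_eq y, ← (Equiv.inv (𝓞 K)ˣ).tsum_eq]
  refine tsum_congr fun v => ?_
  rw [Equiv.inv_apply, tr_inv, sub_neg_eq_add]

theorem IsBeta.neg (hβ : IsBeta β) : IsBeta fun y => β (-y) where
  meas := hβ.meas.comp measurable_neg
  nonneg y := hβ.nonneg _
  le_one y := hβ.le_one _
  bdd := by
    obtain ⟨R, hR⟩ := hβ.bdd
    exact ⟨R, fun y hy => by simpa using hR _ hy⟩
  hasSum y := by
    have h := (Equiv.inv (𝓞 K)ˣ).hasSum_iff.mpr (hβ.hasSum (-y))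
    have e : (fun v : (𝓞 K)ˣ => β (-(y + logEmbedding K (Additive.ofMul v)))) =
        (fun v : (𝓞 K)ˣ => β (-y + logEmbedding K (Additive.ofMul v))) ∘ Equiv.inv (𝓞 K)ˣ := by
      funext v
      simp only [Function.comp_apply, Equiv.inv_apply]
      rw [ofMul_inv, map_neg, neg_add]
    rw [e]
    exact h

/-- unfolding over the units, non-negative functions -/
theorem lintegral_unfold (hβ : IsBeta β) {f : logSpace K → ℝ≥0∞} (hf : Measurable f) :
    ∫⁻ y, (∑' v : (𝓞 K)ˣ, f (y + tr v)) * ENNReal.ofReal (β y) = ∫⁻ y, f y := by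
  have h1 : ∀ v : (𝓞 K)ˣ, Measurable fun y : logSpace K => f (y + tr v) * ENNReal.ofReal (β y) :=
    fun v => (hf.comp (measurable_add_const _)).mul hβ.meas.ennreal_ofReal
  have h2 : ∀ v : (𝓞 K)ˣ, Measurable fun y : logSpace K => f y * ENNReal.ofReal (β (y - tr v)) :=
    fun v => hf.mul (hβ.meas.comp (measurable_sub_const _)).ennreal_ofReal
  simp only [← ENNReal.tsum_mul_right]
  rw [lintegral_tsum fun v => (h1 v).aemeasurable]
  have h3 : ∀ v : (𝓞 K)ˣ, ∫⁻ y : logSpace K, f (y + tr v) * ENNReal.ofReal (β y) =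
      ∫⁻ y : logSpace K, f y * ENNReal.ofReal (β (y - tr v)) := by
    intro v
    rw [← lintegral_add_right_eq_self (fun y => f y * ENNReal.ofReal (β (y - tr v))) (tr v)]
    refine lintegral_congr fun y => ?_
    rw [add_sub_cancel_right]
  rw [tsum_congr h3, ← lintegral_tsum fun v => (h2 v).aemeasurable]
  refine lintegral_congr fun y => ?_
  rw [ENNReal.tsum_mul_left, hβ.tsum_eq' y, mul_one]

/-- independence of the weight, non-negative invariant functions -/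
theorem lintegral_indep (hβ : IsBeta β) (hβ' : IsBeta β') {f : logSpace K → ℝ≥0∞}
    (hf : Measurable f) (hinv : ∀ (v : (𝓞 K)ˣ) y, f (y + tr v) = f y) :
    ∫⁻ y, f y * ENNReal.ofReal (β y) = ∫⁻ y, f y * ENNReal.ofReal (β' y) := by
  rw [← lintegral_unfold hβ (f := fun y => f y * ENNReal.ofReal (β' y))
    (hf.mul hβ'.meas.ennreal_ofReal)]
  refine lintegral_congr fun y => ?_
  simp only [hinv]
  rw [ENNReal.tsum_mul_left, hβ'.tsum_eq, mul_one]

/-! ### The elements of a fractional ideal modulo units -/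

section

variable {𝔟 : FractionalIdeal (𝓞 K)⁰ K} {ι : Type u} {g : ι → K}

/-- the non-zero elements of `𝔟` as pairs -/
def IsGen.equiv (hg : IsGen 𝔟 g) : ι × (𝓞 K)ˣ ≃ {x : 𝔟 // (x : K) ≠ 0} :=
  Equiv.ofBijective (fun p => ⟨⟨((p.2 : 𝓞 K) : K) * g p.1, by
      have h := 𝔟.1.smul_mem (p.2 : 𝓞 K) (hg.mem p.1)
      rwa [Algebra.smul_def] at h⟩,
      mul_ne_zero (coe_ne_zero p.2) (hg.ne_zero p.1)⟩) (by
    constructor
    · rintro ⟨i, v⟩ ⟨j, v'⟩ h
      have h1 : ((v : 𝓞 K) : K) * g i = ((v' : 𝓞 K) : K) * g j :=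
        congrArg (fun z : {x : 𝔟 // (x : K) ≠ 0} => ((z : 𝔟) : K)) h
      obtain ⟨h2, h3⟩ := hg.inj i j v v' h1
      rw [h2, h3]
    · rintro ⟨x, hx⟩
      obtain ⟨i, v, h⟩ := hg.surj x x.2 hx
      exact ⟨(i, v), Subtype.ext (Subtype.ext h.symm)⟩)

omit [NumberField K] in
theorem IsGen.coe_equiv (hg : IsGen 𝔟 g) (p : ι × (𝓞 K)ˣ) :
    (((hg.equiv p : {x : 𝔟 // (x : K) ≠ 0}) : 𝔟) : K) = ((p.2 : 𝓞 K) : K) * g p.1 := rfl

theorem IsGen.countable (hg : IsGen 𝔟 g) : Countable ι := by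
  have := countable_fractional 𝔟
  have h0 : Countable {x : 𝔟 // (x : K) ≠ 0} :=
    (Subtype.coe_injective : Function.Injective fun x : {x : 𝔟 // (x : K) ≠ 0} => (x : 𝔟)).countable
  have h1 : Countable (ι × (𝓞 K)ˣ) := hg.equiv.injective.countable
  exact (Function.Injective.countable (f := fun i : ι => (i, (1 : (𝓞 K)ˣ)))
    fun i j h => (Prod.mk.inj h).1)

/-- the sum over the non-zero elements of `𝔟` -/
theorem IsGen.tsum_eq (hg : IsGen 𝔟 g) (x : ℝ) (y : logSpace K) :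
    ∑' a : {a : 𝔟 // (a : K) ≠ 0}, ENNReal.ofReal (E (tt x y) ((a : 𝔟) : K)) =
      ∑' i, ∑' v : (𝓞 K)ˣ, ENNReal.ofReal (E (tt x (y + tr v)) (g i)) := by
  rw [← hg.equiv.tsum_eq, ENNReal.tsum_prod']
  refine tsum_congr fun i => tsum_congr fun v => ?_
  rw [hg.coe_equiv, E_mul]

theorem E_anti {t t' : InfinitePlace K → ℝ} (h : ∀ w, t w ≤ t' w) (a : K) : E t' a ≤ E t a := by
  unfold E
  rw [Real.exp_le_exp, neg_mul, neg_mul, neg_le_neg_iff]
  refine mul_le_mul_of_nonneg_left (Finset.sum_le_sum fun w _ => ?_) pi_pos.le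
  have := h w
  gcongr

/-- the summability half of `ThetaStmt` -/
def SumE (K : Type u) [Field K] [NumberField K] : Prop :=
  ∀ (𝔟 : FractionalIdeal (𝓞 K)⁰ K) (t : InfinitePlace K → ℝ),
    (∀ w, 0 < t w) → Summable fun x : 𝔟 => E t (x : K)

/-- `Θ` as a sum in `ℝ≥0∞` -/
theorem ofReal_Θ (hs : SumE K)
    (𝔟 : FractionalIdeal (𝓞 K)⁰ K) {t : InfinitePlace K → ℝ} (ht : ∀ w, 0 < t w) :
    ENNReal.ofReal (Θ 𝔟 t) = ∑' x : 𝔟, ENNReal.ofReal (E t (x : K)) :=
  ENNReal.ofReal_tsum_of_nonneg (fun _ => (E_pos _ _).le) (hs 𝔟 t ht)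

theorem tsum_split {α : Type*} (f : α → ℝ≥0∞) (z : α) (p : α → Prop) (h : ∀ x, p x ↔ x ≠ z) :
    ∑' x, f x = f z + ∑' x : {x // p x}, f x := by
  have h1 : ∑' x : ({z} : Set α), f x + ∑' x : (({z} : Set α)ᶜ : Set α), f x = ∑' x, f x :=
    Summable.tsum_add_tsum_compl ENNReal.summable ENNReal.summable
  have h2 : ∀ x : α, x ∈ (({z} : Set α)ᶜ : Set α) ↔ p x := by
    intro x
    rw [Set.mem_compl_singleton_iff, h]
  rw [← h1, tsum_singleton z f, ← (Equiv.subtypeEquivRight h2).tsum_eq]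
  rfl

/-- separating the constant term -/
theorem ofReal_Θ_eq (hs : SumE K)
    (𝔟 : FractionalIdeal (𝓞 K)⁰ K) {t : InfinitePlace K → ℝ} (ht : ∀ w, 0 < t w) :
    ENNReal.ofReal (Θ 𝔟 t) =
      1 + ∑' x : {x : 𝔟 // (x : K) ≠ 0}, ENNReal.ofReal (E t ((x : 𝔟) : K)) := by
  have hz0 : (0 : K) ∈ 𝔟 := 𝔟.1.zero_mem
  obtain ⟨z, hz⟩ : ∃ z : 𝔟, (z : K) = 0 := ⟨⟨0, hz0⟩, rfl⟩
  rw [ofReal_Θ hs 𝔟 ht, tsum_split (fun x : 𝔟 => ENNReal.ofReal (E t (x : K))) z
    (fun x : 𝔟 => (x : K) ≠ 0) (fun x => by rw [Ne, Ne, not_iff_not, Subtype.ext_iff, hz])]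
  simp only [hz, E_zero, ENNReal.ofReal_one]

theorem one_le_Θ (hs : SumE K)
    (𝔟 : FractionalIdeal (𝓞 K)⁰ K) {t : InfinitePlace K → ℝ} (ht : ∀ w, 0 < t w) : 1 ≤ Θ 𝔟 t := by
  rw [← ENNReal.one_le_ofReal, ofReal_Θ_eq hs 𝔟 ht]
  exact le_self_add

theorem ofReal_Θ_sub (hs : SumE K)
    (𝔟 : FractionalIdeal (𝓞 K)⁰ K) {t : InfinitePlace K → ℝ} (ht : ∀ w, 0 < t w) :
    ENNReal.ofReal (Θ 𝔟 t - 1) =
      ∑' x : {x : 𝔟 // (x : K) ≠ 0}, ENNReal.ofReal (E t ((x : 𝔟) : K)) := by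
  rw [ENNReal.ofReal_sub _ zero_le_one, ofReal_Θ_eq hs 𝔟 ht, ENNReal.ofReal_one,
    ENNReal.add_sub_cancel_left ENNReal.one_ne_top]

theorem Θ_anti (hs : SumE K) (𝔟 : FractionalIdeal (𝓞 K)⁰ K)
    {t t' : InfinitePlace K → ℝ} (ht : ∀ w, 0 < t w) (h : ∀ w, t w ≤ t' w) : Θ 𝔟 t' ≤ Θ 𝔟 t :=
  (hs 𝔟 t' fun w => (ht w).trans_le (h w)).tsum_le_tsum (fun _ => E_anti h _) (hs 𝔟 t ht)

theorem measurable_Θ (hs : SumE K) (𝔟 : FractionalIdeal (𝓞 K)⁰ K) {x : ℝ} (hx : 0 < x) :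
    Measurable fun y : logSpace K => Θ 𝔟 (tt x y) := by
  have := countable_fractional 𝔟
  have h1 : ∀ y : logSpace K, Θ 𝔟 (tt x y) =
      (∑' a : 𝔟, ENNReal.ofReal (E (tt x y) (a : K))).toReal := by
    intro y
    rw [← ofReal_Θ hs 𝔟 (tt_pos hx y), ENNReal.toReal_ofReal]
    exact tsum_nonneg fun _ => (E_pos _ _).le
  simp only [h1]
  exact (Measurable.tsum fun a => (continuous_E x _).measurable.ennreal_ofReal).ennreal_toReal

/-! ### Bounds on the support of the weight -/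

theorem exists_tt_ge (K : Type u) [Field K] [NumberField K] (R : ℝ) :
    ∃ c : ℝ, 0 < c ∧ ∀ (x : ℝ) (y : logSpace K), ‖y‖ ≤ R → ∀ w, x ^ 2 * c ≤ tt x y w := by
  have h1 : ∀ w : InfinitePlace K, ∃ c : ℝ, 0 < c ∧ ∀ y : logSpace K, ‖y‖ ≤ R → c ≤ tt 1 y w := by
    intro w
    rcases le_or_gt 0 R with hR | hR
    · obtain ⟨y₀, -, h0⟩ := (isCompact_closedBall (0 : logSpace K) R).exists_isMinOn
        ⟨0, Metric.mem_closedBall_self hR⟩ (continuous_tt_right 1 w).continuousOn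
      refine ⟨tt 1 y₀ w, tt_pos one_pos y₀ w, fun y hy => ?_⟩
      exact h0 (mem_closedBall_zero_iff.mpr hy)
    · exact ⟨1, one_pos, fun y hy => absurd ((norm_nonneg y).trans hy) (not_le.mpr hR)⟩
  choose c hc hcy using h1
  obtain ⟨w₁, -, hw₁⟩ := Finset.exists_min_image Finset.univ c ⟨(w₀ : InfinitePlace K), Finset.mem_univ _⟩
  refine ⟨c w₁, hc w₁, fun x y hy w => ?_⟩
  have h2 : tt x y w = x ^ 2 * tt 1 y w := by
    rw [tt_eq, tt_eq]
    ring
  rw [h2]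
  exact mul_le_mul_of_nonneg_left ((hw₁ w (Finset.mem_univ _)).trans (hcy w y hy)) (sq_nonneg x)

theorem lintegral_β_ne_top (hβ : IsBeta β) : ∫⁻ y, ENNReal.ofReal (β y) ≠ ∞ := by
  obtain ⟨R, hR⟩ := hβ.bdd
  have h1 : ∀ y, ENNReal.ofReal (β y) ≤ (Metric.closedBall (0 : logSpace K) R).indicator 1 y := by
    intro y
    by_cases hy : β y = 0
    · rw [hy, ENNReal.ofReal_zero]
      exact zero_le
    · rw [Set.indicator_of_mem (mem_closedBall_zero_iff.mpr (hR y hy)), Pi.one_apply]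
      exact ENNReal.ofReal_le_one.mpr (hβ.le_one y)
  refine ((lintegral_mono h1).trans_lt ?_).ne
  rw [lintegral_indicator_one Metric.isClosed_closedBall.measurableSet]
  exact (isCompact_closedBall (0 : logSpace K) R).measure_lt_top

theorem integrable_β (hβ : IsBeta β) : Integrable β := by
  refine ⟨hβ.meas.aestronglyMeasurable, ?_⟩
  rw [HasFiniteIntegral]
  refine lt_of_le_of_lt (le_of_eq (lintegral_congr fun y => ?_)) (lintegral_β_ne_top hβ).lt_top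
  rw [Real.enorm_eq_ofReal (hβ.nonneg y)]

theorem integrable_Θβ (hs : SumE K) (hβ : IsBeta β) (𝔟 : FractionalIdeal (𝓞 K)⁰ K)
    {x : ℝ} (hx : 0 < x) : Integrable fun y => Θ 𝔟 (tt x y) * β y := by
  obtain ⟨R, hR⟩ := hβ.bdd
  obtain ⟨c, hc, hcy⟩ := exists_tt_ge K R
  have hxc : 0 < x ^ 2 * c := by positivity
  refine Integrable.mono' ((integrable_β hβ).const_mul (Θ 𝔟 fun _ => x ^ 2 * c))
    ((measurable_Θ hs 𝔟 hx).mul hβ.meas).aestronglyMeasurable (Filter.Eventually.of_forall fun y => ?_)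
  have h0 : 0 ≤ Θ 𝔟 (tt x y) := zero_le_one.trans (one_le_Θ hs 𝔟 (tt_pos hx y))
  rw [Real.norm_of_nonneg (mul_nonneg h0 (hβ.nonneg y))]
  by_cases hy : β y = 0
  · rw [hy, mul_zero, mul_zero]
  · exact mul_le_mul_of_nonneg_right (Θ_anti hs 𝔟 (fun _ => hxc) (hcy x y (hR y hy))) (hβ.nonneg y)

theorem F_sub_B (hs : SumE K) (hβ : IsBeta β) (𝔟 : FractionalIdeal (𝓞 K)⁰ K)
    {x : ℝ} (hx : 0 < x) : F β 𝔟 x - B β = ∫ y, (Θ 𝔟 (tt x y) - 1) * β y := by
  unfold F B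
  rw [← integral_sub (integrable_Θβ hs hβ 𝔟 hx) (integrable_β hβ)]
  refine integral_congr_ae (Filter.Eventually.of_forall fun y => ?_)
  simp only
  ring

theorem B_le_F (hs : SumE K) (hβ : IsBeta β) (𝔟 : FractionalIdeal (𝓞 K)⁰ K)
    {x : ℝ} (hx : 0 < x) : B β ≤ F β 𝔟 x := by
  rw [← sub_nonneg, F_sub_B hs hβ 𝔟 hx]
  exact integral_nonneg fun y =>
    mul_nonneg (sub_nonneg.mpr (one_le_Θ hs 𝔟 (tt_pos hx y))) (hβ.nonneg y)

/-- **Unfolding, letter (d), pointwise in `x`.** -/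
theorem unfold_pt (hs : SumE K) (hβ : IsBeta β) (hg : IsGen 𝔟 g) {x : ℝ} (hx : 0 < x) :
    ENNReal.ofReal (F β 𝔟 x - B β) = ∑' i, ∫⁻ y, ENNReal.ofReal (E (tt x y) (g i)) := by
  have hcount := hg.countable
  have hint : Integrable fun y => (Θ 𝔟 (tt x y) - 1) * β y := by
    have h := (integrable_Θβ hs hβ 𝔟 hx).sub (integrable_β hβ)
    refine h.congr (Filter.Eventually.of_forall fun y => ?_)
    simp only [Pi.sub_apply]
    ring
  have hf : ∀ i, Measurable fun y : logSpace K => ENNReal.ofReal (E (tt x y) (g i)) := fun i =>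
    (continuous_E x _).measurable.ennreal_ofReal
  rw [F_sub_B hs hβ 𝔟 hx, ofReal_integral_eq_lintegral_ofReal hint
    (Filter.Eventually.of_forall fun y =>
      mul_nonneg (sub_nonneg.mpr (one_le_Θ hs 𝔟 (tt_pos hx y))) (hβ.nonneg y))]
  have h1 : ∀ y, ENNReal.ofReal ((Θ 𝔟 (tt x y) - 1) * β y) =
      ∑' i, (∑' v : (𝓞 K)ˣ, ENNReal.ofReal (E (tt x (y + tr v)) (g i))) * ENNReal.ofReal (β y) := by
    intro y
    rw [ENNReal.ofReal_mul (sub_nonneg.mpr (one_le_Θ hs 𝔟 (tt_pos hx y))),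
      ofReal_Θ_sub hs 𝔟 (tt_pos hx y), hg.tsum_eq x y, ENNReal.tsum_mul_right]
  simp only [h1]
  rw [lintegral_tsum]
  · exact tsum_congr fun i => lintegral_unfold hβ (hf i)
  · intro i
    refine (Measurable.mul ?_ hβ.meas.ennreal_ofReal).aemeasurable
    exact Measurable.tsum fun v => (hf i).comp (measurable_add_const _)

end

end Fermat.Agent.Classic.Zeta

end
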