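import Fermat.Agent.Classic.Zeta.Mellin
import Fermat.Agent.Classic.Zeta.Theta
import Fermat.Agent.Classic.Zeta.Unfold

/-!
# `MellinStmt K` from the other pieces
-/

set_option autoImplicit false

noncomputable section

namespace Fermat.Agent.Classic.Zeta

open NumberField NumberField.InfinitePlace NumberField.Units MeasureTheory Set Real
open NumberField.Units.dirichletUnitTheorem
open scoped nonZeroDivisors Classical

universe u

theorem sumE (K : Type u) [Field K] [NumberField K] : SumE K := (thetaStmt K).1

theorem unfoldStmt (K : Type u) [Field K] [NumberField K] : UnfoldStmt K :=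
  fun _ hβ 𝔟 _ _ _ hg _ hx => ⟨B_le_F (sumE K) hβ 𝔟 hx, unfold_pt (sumE K) hβ hg hx⟩

/-- The Mellin transform of the theta functions, from (b), (c) and (e). -/
theorem mellinStmt_of' {K : Type u} [Field K] [NumberField K] (hT : TorusStmt K)
    (hD : DecayStmt K) (hG : GammaStmt K) : MellinStmt K :=
  mellinStmt_of (unfoldStmt K) hT hD hG

end Fermat.Agent.Classic.Zeta
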