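import Fermat.Agent.LT.Torus.Average
import Fermat.Agent.Classic.Zeta.Unfold

/-!
# Letter (b): existence of a weight, functional equation of the theta integral
-/

set_option autoImplicit false

noncomputable section

namespace Fermat.Agent.Classic.Zeta

open NumberField NumberField.InfinitePlace NumberField.Units MeasureTheory Set Real
open NumberField.Units.dirichletUnitTheorem
open scoped nonZeroDivisors Classical ENNReal

universe u

variable {K : Type u} [Field K] [NumberField K] {β β' : logSpace K → ℝ}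

/-! ### Existence of a weight -/

variable (K) in
theorem lattice_eq :
    LT.Torus.lattice (logEmbedding K) (⊤ : Subgroup (𝓞 K)ˣ) = unitLattice K := by
  ext y
  rw [LT.Torus.mem_lattice]
  constructor
  · rintro ⟨v, -, rfl⟩
    exact ⟨Additive.ofMul v, trivial, rfl⟩
  · rintro ⟨v, -, rfl⟩
    exact ⟨v.toMul, Subgroup.mem_top _, rfl⟩

variable (K) in
theorem isFull : LT.Torus.IsFull (logEmbedding K) (⊤ : Subgroup (𝓞 K)ˣ) where
  discrete := by
    rw [lattice_eq]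
    infer_instance
  span := by
    rw [lattice_eq]
    exact unitLattice_span_eq_top K
  ker := by
    have h0 : Finite (torsion K) := inferInstance
    have h : Set.Finite {v : (𝓞 K)ˣ | v ∈ torsion K} := Set.finite_coe_iff.mp h0
    refine Set.Finite.of_finite_image (f := fun v : (⊤ : Subgroup (𝓞 K)ˣ) => (v : (𝓞 K)ˣ))
      (h.subset ?_) Subtype.coe_injective.injOn
    rintro _ ⟨v, hv, rfl⟩
    exact logEmbedding_eq_zero_iff.mp hv

variable (K) in
theorem exists_isBeta : ∃ β : logSpace K → ℝ, IsBeta β := by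
  obtain ⟨w, hw, R, hR⟩ := (isFull K).exists_isWeight
  refine ⟨fun y => (w (LT.Torus.Tor.mk _ y)).toReal, ?_, fun _ => ENNReal.toReal_nonneg, ?_, ?_, ?_⟩
  · exact (hw.meas.comp LT.Torus.Tor.measurable_mk).ennreal_toReal
  · intro y
    exact ENNReal.toReal_le_of_le_ofReal zero_le_one (by rw [ENNReal.ofReal_one]; exact hw.le_one _)
  · refine ⟨R, fun y hy => hR (LT.Torus.Tor.mk _ y) fun h0 => hy ?_⟩
    rw [h0, ENNReal.toReal_zero]
  · intro y
    have h1 := hw.sum_eq (LT.Torus.Tor.mk _ y)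
    have h2 : ∑' v : (𝓞 K)ˣ,
        w (LT.Torus.Tor.mk _ (y + logEmbedding K (Additive.ofMul v))) = 1 := by
      rw [← h1, ← (Equiv.inv (𝓞 K)ˣ).tsum_eq,
        ← (Subgroup.topEquiv (G := (𝓞 K)ˣ)).toEquiv.tsum_eq]
      refine tsum_congr fun v => ?_
      congr 1
      refine LT.Torus.Tor.ext ?_
      rw [LT.Torus.Tor.val_mk]
      change y + logEmbedding K (Additive.ofMul ((v : (𝓞 K)ˣ)⁻¹)) =
        y - logEmbedding K (Additive.ofMul (v : (𝓞 K)ˣ))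
      rw [ofMul_inv, map_neg, sub_eq_add_neg]
    have h3 := (ENNReal.hasSum_toReal (f := fun v : (𝓞 K)ˣ =>
      w (LT.Torus.Tor.mk _ (y + logEmbedding K (Additive.ofMul v)))) (by rw [h2]; exact ENNReal.one_ne_top))
    rw [← ENNReal.tsum_toReal_eq fun v => hw.ne_top _, h2, ENNReal.toReal_one] at h3
    exact h3

/-! ### Total mass -/

theorem B_pos (hβ : IsBeta β) : 0 < B β := by
  have h1 : ∫⁻ y, ENNReal.ofReal (β y) ≠ 0 := by
    intro h0
    have h2 := lintegral_unfold hβ (f := fun _ => 1) measurable_const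
    rw [lintegral_const_mul _ hβ.meas.ennreal_ofReal, h0, mul_zero, lintegral_one] at h2
    exact (isOpen_univ.measure_pos volume (Set.univ_nonempty (α := logSpace K))).ne h2
  have h3 : ENNReal.ofReal (B β) = ∫⁻ y, ENNReal.ofReal (β y) :=
    ofReal_integral_eq_lintegral_ofReal (integrable_β hβ) (Filter.Eventually.of_forall hβ.nonneg)
  rw [← h3] at h1
  exact ENNReal.ofReal_pos.mp (pos_iff_ne_zero.mpr h1)

/-! ### Functional equation -/

/-- multiplication by a unit on a fractional ideal -/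
def mulU (𝔟 : FractionalIdeal (𝓞 K)⁰ K) (v : (𝓞 K)ˣ) : {x : K // x ∈ 𝔟} ≃ {x : K // x ∈ 𝔟} where
  toFun x := ⟨((v : 𝓞 K) : K) * x, by
    have h := 𝔟.1.smul_mem (v : 𝓞 K) x.2
    rwa [Algebra.smul_def] at h⟩
  invFun x := ⟨((v⁻¹ : (𝓞 K)ˣ) : 𝓞 K) * x, by
    have h := 𝔟.1.smul_mem ((v⁻¹ : (𝓞 K)ˣ) : 𝓞 K) x.2
    rwa [Algebra.smul_def] at h⟩
  left_inv x := Subtype.ext (by
    have h : (((v⁻¹ : (𝓞 K)ˣ) : 𝓞 K) : K) * ((v : 𝓞 K) : K) = 1 := by
      rw [← map_mul, Units.inv_mul, map_one]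
    change (((v⁻¹ : (𝓞 K)ˣ) : 𝓞 K) : K) * (((v : 𝓞 K) : K) * (x : K)) = x
    rw [← mul_assoc, h, one_mul])
  right_inv x := Subtype.ext (by
    have h : ((v : 𝓞 K) : K) * (((v⁻¹ : (𝓞 K)ˣ) : 𝓞 K) : K) = 1 := by
      rw [← map_mul, Units.mul_inv, map_one]
    change ((v : 𝓞 K) : K) * ((((v⁻¹ : (𝓞 K)ˣ) : 𝓞 K) : K) * (x : K)) = x
    rw [← mul_assoc, h, one_mul])

theorem Θ_tr (𝔟 : FractionalIdeal (𝓞 K)⁰ K) (x : ℝ) (y : logSpace K) (v : (𝓞 K)ˣ) :
    Θ 𝔟 (tt x (y + tr v)) = Θ 𝔟 (tt x y) := by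
  unfold Θ
  rw [← (mulU 𝔟 v).tsum_eq fun a : {x : K // x ∈ 𝔟} => E (tt x y) (a : K)]
  exact tsum_congr fun a => (E_mul x y v a).symm

theorem F_indep (hs : SumE K) (hβ : IsBeta β) (hβ' : IsBeta β') (𝔟 : FractionalIdeal (𝓞 K)⁰ K)
    {x : ℝ} (hx : 0 < x) : F β 𝔟 x = F β' 𝔟 x := by
  have h0 : ∀ y, 0 ≤ Θ 𝔟 (tt x y) := fun y =>
    zero_le_one.trans (one_le_Θ hs 𝔟 (tt_pos hx y))
  have key : ∀ γ : logSpace K → ℝ, IsBeta γ →
      F γ 𝔟 x = (∫⁻ y, ENNReal.ofReal (Θ 𝔟 (tt x y)) * ENNReal.ofReal (γ y)).toReal := by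
    intro γ hγ
    unfold F
    rw [integral_eq_lintegral_of_nonneg_ae
      (Filter.Eventually.of_forall fun y => mul_nonneg (h0 y) (hγ.nonneg y))
      (integrable_Θβ hs hγ 𝔟 hx).aestronglyMeasurable]
    congr 1
    exact lintegral_congr fun y => ENNReal.ofReal_mul (h0 y)
  rw [key β hβ, key β' hβ', lintegral_indep hβ hβ' (measurable_Θ hs 𝔟 hx).ennreal_ofReal
    fun v y => by rw [Θ_tr]]

theorem F_inv (hT : ThetaStmt K) (hβ : IsBeta β) {𝔟 : FractionalIdeal (𝓞 K)⁰ K} (h𝔟 : 𝔟 ≠ 0)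
    {x : ℝ} (hx : 0 < x) :
    F β 𝔟 x⁻¹ = (√|(discr K : ℝ)| * nF 𝔟)⁻¹ * x ^ (Module.finrank ℚ K) * F β (dualF 𝔟) x := by
  rw [F_indep hT.1 hβ hβ.neg (dualF 𝔟) hx]
  unfold F
  rw [← integral_const_mul, ← integral_neg_eq_self]
  refine integral_congr_ae (Filter.Eventually.of_forall fun y => ?_)
  simp only
  have hx' : 0 < x⁻¹ := inv_pos.mpr hx
  rw [hT.2 𝔟 h𝔟 (tt x⁻¹ (-y)) (tt_pos hx' (-y)), tt_inv, inv_inv, neg_neg, prod_tt hx']
  rw [inv_pow, mul_inv (√|(discr K : ℝ)| * nF 𝔟), inv_inv]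
  ring

/-- **Letter (b).** -/
theorem torusStmt (hT : ThetaStmt K) : TorusStmt K :=
  ⟨exists_isBeta K, fun _ hβ => ⟨B_pos hβ, fun _ h𝔟 _ hx => F_inv hT hβ h𝔟 hx⟩⟩

end Fermat.Agent.Classic.Zeta

end
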