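import Fermat.Agent.Classic.Zeta.Main
import Fermat.Agent.Classic.Zeta.Theta
import Fermat.Agent.Classic.Zeta.Torus
import Fermat.Agent.Classic.Zeta.Decay
import Fermat.Agent.Classic.Zeta.Gamma
import Fermat.Agent.Classic.Zeta.MellinFin
import Fermat.Agent.Classic.Zeta.Classes

/-!
# The functional equation of the Dedekind zeta function

`zetaFE`: for every number field `K`, `|d|^{s/2} Γ_ℝ(s)^{r₁} Γ_ℂ(s)^{r₂} ζ_K(s)`, multiplied by
`s (1 - s)`, is an entire function invariant under `s ↦ 1 - s`.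
-/

set_option autoImplicit false

noncomputable section

namespace Fermat.Agent.Classic.Zeta

open NumberField NumberField.InfinitePlace

universe u

/-- **The functional equation of the Dedekind zeta function**, entire form. -/
theorem zetaFE (K : Type u) [Field K] [NumberField K] :
    FE (fun n => (Nat.card {I : Ideal (𝓞 K) // Ideal.absNorm I = n} : ℂ))
      (fun n => (Nat.card {I : Ideal (𝓞 K) // Ideal.absNorm I = n} : ℂ))
      (discr K).natAbs (nrRealPlaces K) (nrComplexPlaces K) :=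
  zetaFE_of (torusStmt (thetaStmt K)) (decayStmt K)
    (mellinStmt_of' (torusStmt (thetaStmt K)) (decayStmt K) (gammaStmt K)) (classStmt K)

/-- **The functional equation of the Dedekind zeta function**: there is a function `Λ`,
holomorphic outside `0` and `1`, with `Λ(1 - s) = Λ(s)`, which is
`|d|^{s/2} Γ_ℝ(s)^{r₁} Γ_ℂ(s)^{r₂} ζ_K(s)` for `Re s > 1`. -/
theorem exists_xi (K : Type u) [Field K] [NumberField K] : ∃ Λ : ℂ → ℂ,
    (∀ s, s ≠ 0 → s ≠ 1 → DifferentiableAt ℂ Λ s) ∧ (∀ s, Λ (1 - s) = Λ s) ∧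
    ∀ s, 1 < s.re → Λ s = ((|(discr K : ℝ)| : ℝ) : ℂ) ^ (s / 2) *
      (Complex.Gammaℝ s ^ nrRealPlaces K * Complex.Gammaℂ s ^ nrComplexPlaces K) *
        dedekindZeta K s :=
  xiStmt_of (torusStmt (thetaStmt K)) (decayStmt K)
    (mellinStmt_of' (torusStmt (thetaStmt K)) (decayStmt K) (gammaStmt K)) (classStmt K)

end Fermat.Agent.Classic.Zeta
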