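import Fermat.Agent.Classic.Zeta.FE

/-!
# Comparison of two functional equations of the same Dirichlet series (plan Z, Z4b)

If `a` satisfies two functional equations with the same gamma factor, conductors `D₁`, `D₂` and
duals `a₁'`, `a₂'`, then `D₂^{-s} L(a₁', s) = κ D₁^{-s} L(a₂', s)`, coefficient by coefficient.
-/

set_option autoImplicit false

noncomputable section

open Complex

namespace Fermat.Agent.Classic.Zeta

/-- the coefficients of `D^{-s} L(a, s)` -/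
def shiftD (D : ℕ) (a : ℕ → ℂ) : ℕ → ℂ := fun n => if D ∣ n then a (n / D) else 0

theorem term_shiftD {D : ℕ} (hD : D ≠ 0) (a : ℕ → ℂ) (s : ℂ) (m : ℕ) :
    LSeries.term (shiftD D a) s (D * m) = (D : ℂ) ^ (-s) * LSeries.term a s m := by
  rcases eq_or_ne m 0 with rfl | hm
  · simp
  · rw [LSeries.term_of_ne_zero (mul_ne_zero hD hm), LSeries.term_of_ne_zero hm, shiftD,
      if_pos (dvd_mul_right D m), Nat.mul_div_cancel_left m (Nat.pos_of_ne_zero hD), Nat.cast_mul,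
      natCast_mul_natCast_cpow, cpow_neg, div_eq_mul_inv, mul_inv, div_eq_mul_inv]
    ring

theorem hasSum_shiftD {D : ℕ} (hD : D ≠ 0) {a : ℕ → ℂ} {s : ℂ} (ha : LSeriesSummable a s) :
    LSeriesHasSum (shiftD D a) s ((D : ℂ) ^ (-s) * LSeries a s) := by
  have h1 : HasSum (fun m => LSeries.term (shiftD D a) s (D * m))
      ((D : ℂ) ^ (-s) * LSeries a s) := by
    simp_rw [term_shiftD hD]
    exact ha.hasSum.mul_left _
  have hinj : Function.Injective fun m : ℕ => D * m := mul_right_injective₀ hD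
  refine (hinj.hasSum_iff ?_).1 h1
  intro n hn
  have hDn : ¬ D ∣ n := by
    rintro ⟨m, rfl⟩
    exact hn ⟨m, rfl⟩
  rcases eq_or_ne n 0 with rfl | h0
  · simp
  · rw [LSeries.term_of_ne_zero h0, shiftD, if_neg hDn, zero_div]

theorem abscissa_shiftD_lt_top {D : ℕ} (hD : D ≠ 0) {a : ℕ → ℂ} {s : ℂ}
    (ha : LSeriesSummable a s) : LSeries.abscissaOfAbsConv (shiftD D a) < ⊤ := by
  have h1 : LSeriesSummable (shiftD D a) s := (hasSum_shiftD hD ha).LSeriesSummable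
  exact h1.abscissaOfAbsConv_le.trans_lt (EReal.coe_lt_top _)

/-- the identity theorem for entire functions which agree for `Re s` large -/
theorem eq_of_eq_re_large {f g : ℂ → ℂ} {σ : ℝ} (hf : Differentiable ℂ f)
    (hg : Differentiable ℂ g) (h : ∀ s : ℂ, σ < s.re → f s = g s) (s : ℂ) : f s = g s := by
  let z : ℂ := ((σ + 1 : ℝ) : ℂ)
  have hev : f =ᶠ[nhds z] g := by
    have h4 : {s : ℂ | σ < s.re} ∈ nhds z := by
      refine (isOpen_lt continuous_const Complex.continuous_re).mem_nhds ?_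
      change σ < z.re
      have hz : z.re = σ + 1 := Complex.ofReal_re _
      rw [hz]
      linarith
    filter_upwards [h4] with s hs using h s hs
  have h5 := (Complex.analyticOnNhd_univ_iff_differentiable.2 hf).eq_of_eventuallyEq
    (Complex.analyticOnNhd_univ_iff_differentiable.2 hg) hev
  rw [h5]

theorem gammaC_ne_zero {s : ℂ} (hs : 0 < s.re) : Gammaℂ s ≠ 0 := by
  rw [Gammaℂ_def]
  refine mul_ne_zero (mul_ne_zero two_ne_zero ?_) (Gamma_ne_zero_of_re_pos hs)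
  have h : (2 * (Real.pi : ℂ)) ≠ 0 := mul_ne_zero two_ne_zero (ofReal_ne_zero.2 Real.pi_ne_zero)
  rw [Ne, cpow_eq_zero_iff]
  exact fun h' => h h'.1

theorem cpow_half_mul {D : ℕ} (hD : D ≠ 0) (s : ℂ) :
    (D : ℂ) ^ ((1 - s) / 2) * (D : ℂ) ^ (-(s / 2)) = (D : ℂ) ^ (1 / 2 : ℂ) * (D : ℂ) ^ (-s) := by
  have h : (D : ℂ) ≠ 0 := Nat.cast_ne_zero.2 hD
  rw [← cpow_add _ _ h, ← cpow_add _ _ h]
  congr 1
  ring

theorem cpow_half_cancel {D : ℕ} (hD : D ≠ 0) (s : ℂ) :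
    (D : ℂ) ^ (s / 2) * (D : ℂ) ^ (-(s / 2)) = 1 := by
  have h : (D : ℂ) ≠ 0 := Nat.cast_ne_zero.2 hD
  rw [← cpow_add _ _ h, add_neg_cancel, cpow_zero]

/-- **Two functional equations of the same Dirichlet series.** -/
theorem FE.compare {a a₁' a₂' : ℕ → ℂ} {D₁ D₂ r₁ r₂ : ℕ} (hD₁ : D₁ ≠ 0) (hD₂ : D₂ ≠ 0)
    (h₁ : FE a a₁' D₁ r₁ r₂) (h₂ : FE a a₂' D₂ r₁ r₂) :
    ∃ κ : ℂ, κ ≠ 0 ∧ ∀ n : ℕ, n ≠ 0 →
      (if D₂ ∣ n then a₁' (n / D₂) else 0) = κ * (if D₁ ∣ n then a₂' (n / D₁) else 0) := by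
  obtain ⟨k₁, κ₁, Ξ₁, σ₁, hκ₁, hd₁, hσ₁, H₁⟩ := h₁
  obtain ⟨k₂, κ₂, Ξ₂, σ₂, hκ₂, hd₂, hσ₂, H₂⟩ := h₂
  have hD₁' : (D₁ : ℂ) ≠ 0 := Nat.cast_ne_zero.2 hD₁
  have hD₂' : (D₂ : ℂ) ≠ 0 := Nat.cast_ne_zero.2 hD₂
  have hdiff : ∀ {D : ℕ}, D ≠ 0 → ∀ (k : ℕ) {Ξ : ℂ → ℂ}, Differentiable ℂ Ξ →
      Differentiable ℂ fun s : ℂ => (s * (1 - s)) ^ k * (D : ℂ) ^ (s / 2) * Ξ s := by
    intro D hD k Ξ hΞ
    refine Differentiable.mul (Differentiable.mul ?_ ?_) hΞ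
    · exact (differentiable_id.mul ((differentiable_const _).sub differentiable_id)).pow k
    · intro s
      exact (differentiableAt_id.div_const 2).const_cpow (Or.inl (Nat.cast_ne_zero.2 hD))
  -- the two completions agree everywhere
  have key : ∀ s : ℂ, (s * (1 - s)) ^ k₂ * (D₂ : ℂ) ^ (s / 2) * Ξ₁ s =
      (s * (1 - s)) ^ k₁ * (D₁ : ℂ) ^ (s / 2) * Ξ₂ s := by
    refine eq_of_eq_re_large (σ := max σ₁ σ₂) (hdiff hD₂ k₂ hd₁) (hdiff hD₁ k₁ hd₂) fun s hs => ?_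
    obtain ⟨-, -, e₁, -⟩ := H₁ s (lt_of_le_of_lt (le_max_left _ _) hs)
    obtain ⟨-, -, e₂, -⟩ := H₂ s (lt_of_le_of_lt (le_max_right _ _) hs)
    rw [e₁, e₂]
    ring
  set κ : ℂ := κ₂ * (D₁ : ℂ) ^ (1 / 2 : ℂ) / (κ₁ * (D₂ : ℂ) ^ (1 / 2 : ℂ)) with hκ
  have hp₁ : (D₁ : ℂ) ^ (1 / 2 : ℂ) ≠ 0 := by simp [cpow_eq_zero_iff, hD₁]
  have hp₂ : (D₂ : ℂ) ^ (1 / 2 : ℂ) ≠ 0 := by simp [cpow_eq_zero_iff, hD₂]
  have hκ0 : κ ≠ 0 := div_ne_zero (mul_ne_zero hκ₂ hp₁) (mul_ne_zero hκ₁ hp₂)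
  refine ⟨κ, hκ0, ?_⟩
  have key2 : ∀ s : ℂ, max σ₁ σ₂ < s.re →
      (D₂ : ℂ) ^ (-s) * LSeries a₁' s = κ * ((D₁ : ℂ) ^ (-s) * LSeries a₂' s) := by
    intro s hs
    have hs1 : 1 < s.re := lt_of_le_of_lt (hσ₁.trans (le_max_left _ _)) hs
    obtain ⟨-, -, -, e₁⟩ := H₁ s (lt_of_le_of_lt (le_max_left _ _) hs)
    obtain ⟨-, -, -, e₂⟩ := H₂ s (lt_of_le_of_lt (le_max_right _ _) hs)
    have hk := key (1 - s)
    rw [e₁, e₂, show (1 - s) * (1 - (1 - s)) = s * (1 - s) by ring] at hk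
    have hs0 : s * (1 - s) ≠ 0 := by
      refine mul_ne_zero ?_ ?_
      · intro h
        rw [h] at hs1
        simp at hs1
        linarith
      · intro h
        have h' : s = 1 := by linear_combination -h
        rw [h'] at hs1
        simp at hs1
    have hΓ : Gammaℝ s ^ r₁ * Gammaℂ s ^ r₂ ≠ 0 := by
      have h0 : 0 < s.re := by linarith
      exact mul_ne_zero (pow_ne_zero _ (Gammaℝ_ne_zero_of_re_pos h0))
        (pow_ne_zero _ (gammaC_ne_zero h0))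
    have hc : (s * (1 - s)) ^ (k₁ + k₂) * (Gammaℝ s ^ r₁ * Gammaℂ s ^ r₂) ≠ 0 :=
      mul_ne_zero (pow_ne_zero _ hs0) hΓ
    have hk2 : κ₁ * ((D₂ : ℂ) ^ ((1 - s) / 2) * (D₁ : ℂ) ^ (s / 2)) * LSeries a₁' s =
        κ₂ * ((D₁ : ℂ) ^ ((1 - s) / 2) * (D₂ : ℂ) ^ (s / 2)) * LSeries a₂' s := by
      refine mul_left_cancel₀ hc ?_
      rw [pow_add]
      linear_combination hk
    have c₁ := cpow_half_cancel hD₁ s
    have c₂ := cpow_half_cancel hD₂ s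
    have m₁ := cpow_half_mul hD₁ s
    have m₂ := cpow_half_mul hD₂ s
    have hk3 : κ₁ * (D₂ : ℂ) ^ (1 / 2 : ℂ) * ((D₂ : ℂ) ^ (-s) * LSeries a₁' s) =
        κ₂ * (D₁ : ℂ) ^ (1 / 2 : ℂ) * ((D₁ : ℂ) ^ (-s) * LSeries a₂' s) := by
      calc κ₁ * (D₂ : ℂ) ^ (1 / 2 : ℂ) * ((D₂ : ℂ) ^ (-s) * LSeries a₁' s)
          = κ₁ * ((D₂ : ℂ) ^ ((1 - s) / 2) * (D₂ : ℂ) ^ (-(s / 2))) *
              ((D₁ : ℂ) ^ (s / 2) * (D₁ : ℂ) ^ (-(s / 2))) * LSeries a₁' s := by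
            rw [m₂, c₁]
            ring
        _ = (κ₁ * ((D₂ : ℂ) ^ ((1 - s) / 2) * (D₁ : ℂ) ^ (s / 2)) * LSeries a₁' s) *
              ((D₂ : ℂ) ^ (-(s / 2)) * (D₁ : ℂ) ^ (-(s / 2))) := by ring
        _ = (κ₂ * ((D₁ : ℂ) ^ ((1 - s) / 2) * (D₂ : ℂ) ^ (s / 2)) * LSeries a₂' s) *
              ((D₂ : ℂ) ^ (-(s / 2)) * (D₁ : ℂ) ^ (-(s / 2))) := by rw [hk2]
        _ = κ₂ * ((D₁ : ℂ) ^ ((1 - s) / 2) * (D₁ : ℂ) ^ (-(s / 2))) *
              ((D₂ : ℂ) ^ (s / 2) * (D₂ : ℂ) ^ (-(s / 2))) * LSeries a₂' s := by ring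
        _ = κ₂ * (D₁ : ℂ) ^ (1 / 2 : ℂ) * ((D₁ : ℂ) ^ (-s) * LSeries a₂' s) := by
            rw [m₁, c₂]
            ring
    have hne : κ₁ * (D₂ : ℂ) ^ (1 / 2 : ℂ) ≠ 0 := mul_ne_zero hκ₁ hp₂
    refine mul_left_cancel₀ hne ?_
    rw [hk3, hκ]
    field_simp
  -- uniqueness of the Dirichlet coefficients
  have hz : (max σ₁ σ₂) < ((((max σ₁ σ₂) + 1 : ℝ) : ℂ)).re := by
    rw [Complex.ofReal_re]
    linarith
  obtain ⟨-, s₁, -, -⟩ := H₁ _ (lt_of_le_of_lt (le_max_left _ _) hz)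
  obtain ⟨-, s₂, -, -⟩ := H₂ _ (lt_of_le_of_lt (le_max_right _ _) hz)
  have hs2' : LSeriesSummable (κ • a₂') (((max σ₁ σ₂) + 1 : ℝ) : ℂ) := s₂.smul κ
  intro n hn
  have hE : (fun x : ℝ => LSeries (shiftD D₂ a₁') x) =ᶠ[Filter.atTop]
      fun x : ℝ => LSeries (shiftD D₁ (κ • a₂')) x := by
    filter_upwards [Filter.eventually_gt_atTop (max σ₁ σ₂)] with x hx
    have hx' : (max σ₁ σ₂) < (x : ℂ).re := by rwa [Complex.ofReal_re]
    obtain ⟨-, t₁, -, -⟩ := H₁ x (lt_of_le_of_lt (le_max_left _ _) hx')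
    obtain ⟨-, t₂, -, -⟩ := H₂ x (lt_of_le_of_lt (le_max_right _ _) hx')
    rw [(hasSum_shiftD hD₂ t₁).LSeries_eq, (hasSum_shiftD hD₁ (t₂.smul κ)).LSeries_eq,
      key2 x hx', LSeries_smul]
    ring
  have h := LSeries.eq_of_LSeries_eventually_eq (abscissa_shiftD_lt_top hD₂ s₁)
    (abscissa_shiftD_lt_top hD₁ hs2') hE hn
  change shiftD D₂ a₁' n = κ * shiftD D₁ a₂' n
  rw [h]
  simp only [shiftD, Pi.smul_apply, smul_eq_mul]
  split_ifs <;> simp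

end Fermat.Agent.Classic.Zeta

end
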