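import Fermat.Agent.Classic.Zeta.FE

/-!
# The order of a Dirichlet series at a prime (plan Z, block Z4c)

`QMin q a j` (exact power of `q` dividing the support of `a`) is additive for the Dirichlet
convolution, shifts by `v_q(D)` under multiplication by `D^(-s)`, and is `0` for Euler factors.
-/

set_option autoImplicit false

noncomputable section

open Complex
open scoped ComplexConjugate

namespace Fermat.Agent.Classic.Zeta

theorem qmin_iff {q : ℕ} (hq : q.Prime) {a : ℕ → ℂ} {j : ℕ} :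
    QMin q a j ↔ (∀ n, n ≠ 0 → a n ≠ 0 → j ≤ n.factorization q) ∧
      ∃ n, n ≠ 0 ∧ a n ≠ 0 ∧ n.factorization q = j := by
  constructor
  · rintro ⟨h1, n, hn, ha, h2⟩
    have key : ∀ n, n ≠ 0 → a n ≠ 0 → j ≤ n.factorization q := fun n hn ha =>
      (hq.pow_dvd_iff_le_factorization hn).mp (h1 n hn ha)
    refine ⟨key, n, hn, ha, ?_⟩
    rw [hq.pow_dvd_iff_le_factorization hn] at h2
    have := key n hn ha
    omega
  · rintro ⟨h1, n, hn, ha, h2⟩
    refine ⟨fun n hn ha => (hq.pow_dvd_iff_le_factorization hn).mpr (h1 n hn ha), n, hn, ha, ?_⟩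
    rw [hq.pow_dvd_iff_le_factorization hn]
    omega

theorem QMin.unique {q : ℕ} (hq : q.Prime) {a : ℕ → ℂ} {i j : ℕ} (h : QMin q a i)
    (h' : QMin q a j) : i = j := by
  rw [qmin_iff hq] at h h'
  obtain ⟨n, hn, ha, rfl⟩ := h.2
  obtain ⟨m, hm, hb, rfl⟩ := h'.2
  exact le_antisymm (h.1 m hm hb) (h'.1 n hn ha)

theorem exists_qmin {q : ℕ} (hq : q.Prime) {a : ℕ → ℂ} (ha : ∃ n, n ≠ 0 ∧ a n ≠ 0) :
    ∃ j, QMin q a j := by
  classical
  have h : ∃ k n, n ≠ 0 ∧ a n ≠ 0 ∧ n.factorization q = k := by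
    obtain ⟨n, hn, hn'⟩ := ha
    exact ⟨_, n, hn, hn', rfl⟩
  exact ⟨Nat.find h, (qmin_iff hq).mpr
    ⟨fun n hn hn' => Nat.find_min' h ⟨n, hn, hn', rfl⟩, Nat.find_spec h⟩⟩

theorem QMin.congr {q : ℕ} {a b : ℕ → ℂ} {j : ℕ} (h : QMin q a j)
    (hab : ∀ n, n ≠ 0 → (b n = 0 ↔ a n = 0)) : QMin q b j := by
  refine ⟨fun n hn hb => h.1 n hn fun ha => hb ((hab n hn).mpr ha), ?_⟩
  obtain ⟨n, hn, ha, h2⟩ := h.2
  exact ⟨n, hn, fun hb => ha ((hab n hn).mp hb), h2⟩

theorem QMin.smul {q : ℕ} {a : ℕ → ℂ} {j : ℕ} (h : QMin q a j) {κ : ℂ} (hκ : κ ≠ 0) :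
    QMin q (fun n => κ * a n) j :=
  h.congr fun n _ => by simp [hκ]

theorem QMin.conj {q : ℕ} {a : ℕ → ℂ} {j : ℕ} (h : QMin q a j) :
    QMin q (fun n => conj (a n)) j :=
  h.congr fun n _ => by simp

theorem QMin.of_one {q : ℕ} (hq : q.Prime) {a : ℕ → ℂ} (h : a 1 ≠ 0) : QMin q a 0 := by
  refine ⟨fun n _ _ => by simp, 1, one_ne_zero, h, ?_⟩
  rw [zero_add, pow_one]
  exact hq.one_lt.ne' ∘ Nat.dvd_one.mp

theorem ef_one (ν : ℕ) : ef ν 1 = 1 := by simp [ef]

theorem ef'_one (ν : ℕ) : ef' ν 1 = 1 := by simp [ef']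

theorem qmin_ef {q : ℕ} (hq : q.Prime) (ν : ℕ) : QMin q (ef ν) 0 :=
  QMin.of_one hq (by rw [ef_one]; exact one_ne_zero)

theorem qmin_ef' {q : ℕ} (hq : q.Prime) (ν : ℕ) : QMin q (ef' ν) 0 :=
  QMin.of_one hq (by rw [ef'_one]; exact one_ne_zero)

theorem QMin.mul {q : ℕ} (hq : q.Prime) {a b : ℕ → ℂ} {i j : ℕ} (hf : QMin q a i)
    (hg : QMin q b j) : QMin q (LSeries.convolution a b) (i + j) := by
  classical
  rw [qmin_iff hq] at hf hg ⊢
  rw [LSeries.convolution_def]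
  constructor
  · intro n _ hn
    obtain ⟨⟨x, y⟩, hxy, h1⟩ := Finset.exists_ne_zero_of_sum_ne_zero hn
    rw [Nat.mem_divisorsAntidiagonal] at hxy
    have hx := left_ne_zero_of_mul h1
    have hy := right_ne_zero_of_mul h1
    have h2 := hxy.1
    simp only at h2
    have h0 : x ≠ 0 ∧ y ≠ 0 := by
      refine mul_ne_zero_iff.mp ?_
      rw [h2]
      exact hxy.2
    rw [← h2, Nat.factorization_mul h0.1 h0.2, Finsupp.add_apply]
    exact add_le_add (hf.1 x h0.1 hx) (hg.1 y h0.2 hy)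
  · have ha : ∃ x, x ≠ 0 ∧ a x ≠ 0 ∧ x.factorization q = i := hf.2
    have hb : ∃ y, y ≠ 0 ∧ b y ≠ 0 ∧ y.factorization q = j := hg.2
    set a₀ := Nat.find ha with ha₀
    set b₀ := Nat.find hb with hb₀
    obtain ⟨ha0, ha1, ha2⟩ := Nat.find_spec ha
    obtain ⟨hb0, hb1, hb2⟩ := Nat.find_spec hb
    change a₀ ≠ 0 at ha0
    change b₀ ≠ 0 at hb0
    refine ⟨a₀ * b₀, mul_ne_zero ha0 hb0, ?_, ?_⟩
    · beta_reduce
      rw [Finset.sum_eq_single (a₀, b₀)]
      · exact mul_ne_zero ha1 hb1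
      · rintro ⟨x, y⟩ hxy hne'
        rw [Nat.mem_divisorsAntidiagonal] at hxy
        by_contra h0
        have hx := left_ne_zero_of_mul h0
        have hy := right_ne_zero_of_mul h0
        have h7 : x * y = a₀ * b₀ := hxy.1
        have hz : x ≠ 0 ∧ y ≠ 0 := by
          refine mul_ne_zero_iff.mp ?_
          rw [h7]
          exact hxy.2
        have h1 := hf.1 x hz.1 hx
        have h2 := hg.1 y hz.2 hy
        have h3 : x.factorization q + y.factorization q = i + j := by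
          have h4 : (x * y).factorization q = (a₀ * b₀).factorization q := by rw [h7]
          rw [Nat.factorization_mul hz.1 hz.2, Nat.factorization_mul ha0 hb0,
            Finsupp.add_apply, Finsupp.add_apply] at h4
          rw [h4, ha2, hb2]
        have h5 : a₀ ≤ x := Nat.find_min' ha ⟨hz.1, hx, by omega⟩
        have h6 : b₀ ≤ y := Nat.find_min' hb ⟨hz.2, hy, by omega⟩
        have h8 : x = a₀ := by
          refine le_antisymm ?_ h5
          by_contra hlt
          push Not at hlt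
          have : a₀ * b₀ < x * y :=
            Nat.mul_lt_mul_of_lt_of_le hlt h6 (Nat.pos_of_ne_zero hz.2)
          omega
        have h9 : y = b₀ := by
          rw [h8] at h7
          exact Nat.eq_of_mul_eq_mul_left (Nat.pos_of_ne_zero ha0) h7
        exact hne' (by rw [h8, h9])
      · intro h
        refine absurd ?_ h
        rw [Nat.mem_divisorsAntidiagonal]
        exact ⟨rfl, mul_ne_zero ha0 hb0⟩
    · rw [Nat.factorization_mul ha0 hb0, Finsupp.add_apply, ha2, hb2]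

/-- multiplication by `D^(-s)` -/
theorem QMin.shift {q : ℕ} (hq : q.Prime) {a : ℕ → ℂ} {j D : ℕ} (hD : D ≠ 0)
    (h : QMin q a j) :
    QMin q (fun n => if D ∣ n then a (n / D) else 0) (j + D.factorization q) := by
  rw [qmin_iff hq] at h ⊢
  constructor
  · intro n hn h1
    by_cases h2 : D ∣ n
    · obtain ⟨m, rfl⟩ := h2
      simp only [dvd_mul_right, if_true, Nat.mul_div_cancel_left m (Nat.pos_of_ne_zero hD)] at h1
      have hm : m ≠ 0 := right_ne_zero_of_mul hn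
      rw [Nat.factorization_mul hD hm, Finsupp.add_apply, add_comm]
      exact Nat.add_le_add_left (h.1 m hm h1) _
    · simp only [if_neg h2] at h1
      exact absurd rfl h1
  · obtain ⟨m, hm, h1, h2⟩ := h.2
    refine ⟨D * m, mul_ne_zero hD hm, ?_, ?_⟩
    · simp only [dvd_mul_right, if_true, Nat.mul_div_cancel_left m (Nat.pos_of_ne_zero hD)]
      exact h1
    · rw [Nat.factorization_mul hD hm, Finsupp.add_apply, h2, add_comm]

/-- The conclusion of `FE.compare` determines the order at `q`. -/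
theorem QMin.compare {q : ℕ} (hq : q.Prime) {a₁ a₂ : ℕ → ℂ} {D₁ D₂ i j : ℕ} (hD₁ : D₁ ≠ 0)
    (hD₂ : D₂ ≠ 0) {κ : ℂ} (hκ : κ ≠ 0)
    (h : ∀ n : ℕ, n ≠ 0 → (if D₂ ∣ n then a₁ (n / D₂) else 0) =
      κ * (if D₁ ∣ n then a₂ (n / D₁) else 0))
    (h₁ : QMin q a₁ i) (h₂ : QMin q a₂ j) :
    i + D₂.factorization q = j + D₁.factorization q :=
  (h₁.shift hq hD₂).unique hq
    (((h₂.shift hq hD₁).smul hκ).congr fun n hn => by rw [h n hn])

end Fermat.Agent.Classic.Zeta

end
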