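import Fermat.Agent.Classic.Zeta.FEmul
import Fermat.Agent.Classic.Zeta.QMin
import Fermat.Agent.Classic.Zeta.Compare

/-!
# The order at `q` of the dual of a form of weight one (plan Z, block Z4)

Input: the functional equations of the zeta functions of four number fields and of the pair
`b ↔ c`, and the identity of Dirichlet series between them, up to Euler factors.
Output: the exact power of `q` dividing the support of `c`.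
-/

set_option autoImplicit false

noncomputable section

open Complex
open scoped LSeries.notation ComplexConjugate

namespace Fermat.Agent.Classic.Zeta

theorem fe_mul_efl {z z' : ℕ → ℂ} {d r t : ℕ} {l : List ℕ} (h : FE z z' d r t)
    (hl : ∀ ν ∈ l, 2 ≤ ν) : FE (z ⍟ efl l) (z' ⍟ efl' l) (d * l.prod) r t := by
  have h1 := FE.mul h (fe_efl hl)
  rwa [add_zero, add_zero] at h1

theorem fe_four {z₁ z₂ : ℕ → ℂ} {z₁' z₂' : ℕ → ℂ} {d₁ d₂ r₁ r₂ t₁ t₂ : ℕ} {l₁ l₂ : List ℕ}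
    (h₁ : FE z₁ z₁' d₁ r₁ t₁) (h₂ : FE z₂ z₂' d₂ r₂ t₂) (hl₁ : ∀ ν ∈ l₁, 2 ≤ ν)
    (hl₂ : ∀ ν ∈ l₂, 2 ≤ ν) :
    FE ((z₁ ⍟ efl l₁) ⍟ ((z₂ ⍟ efl l₂) ⍟ (z₂ ⍟ efl l₂)))
      ((z₁' ⍟ efl' l₁) ⍟ ((z₂' ⍟ efl' l₂) ⍟ (z₂' ⍟ efl' l₂)))
      (d₁ * l₁.prod * (d₂ * l₂.prod * (d₂ * l₂.prod))) (r₁ + (r₂ + r₂)) (t₁ + (t₂ + t₂)) := by
  have h3 := fe_mul_efl h₁ hl₁
  have h4 := fe_mul_efl h₂ hl₂
  exact FE.mul h3 (FE.mul h4 h4)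

theorem fe_self_conj {b c : ℕ → ℂ} {N : ℕ} (h : FE b c N 0 1) :
    FE (b ⍟ fun n => conj (b n)) (c ⍟ fun n => conj (c n)) (N * N) (0 + 0) (1 + 1) :=
  FE.mul h (FE.conj h)

theorem dual_four_one {z₁ z₂ : ℕ → ℂ} {l₁ l₂ : List ℕ} (h₁ : z₁ 1 = 1) (h₂ : z₂ 1 = 1) :
    ((z₁ ⍟ efl' l₁) ⍟ ((z₂ ⍟ efl' l₂) ⍟ (z₂ ⍟ efl' l₂))) 1 = 1 := by
  simp only [convolution_one, h₁, h₂, efl'_one, mul_one]

theorem prod_ne_zero_of_two_le {l : List ℕ} (hl : ∀ ν ∈ l, 2 ≤ ν) : l.prod ≠ 0 := by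
  refine List.prod_ne_zero fun h => ?_
  have := hl 0 h
  omega

theorem factorization_four {d₁ d₂ : ℕ} {l₁ l₂ : List ℕ} (hd₁ : d₁ ≠ 0) (hd₂ : d₂ ≠ 0)
    (hl₁ : ∀ ν ∈ l₁, 2 ≤ ν) (hl₂ : ∀ ν ∈ l₂, 2 ≤ ν) (q : ℕ) :
    (d₁ * l₁.prod * (d₂ * l₂.prod * (d₂ * l₂.prod))).factorization q =
      (d₁ * l₁.prod).factorization q + 2 * (d₂ * l₂.prod).factorization q := by
  have h1 : d₁ * l₁.prod ≠ 0 := mul_ne_zero hd₁ (prod_ne_zero_of_two_le hl₁)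
  have h2 : d₂ * l₂.prod ≠ 0 := mul_ne_zero hd₂ (prod_ne_zero_of_two_le hl₂)
  rw [Nat.factorization_mul h1 (mul_ne_zero h2 h2), Nat.factorization_mul h2 h2,
    Finsupp.add_apply, Finsupp.add_apply, two_mul]

/-- The comparison of the two functional equations of the product. -/
theorem two_mul_ord {q : ℕ} (hq : q.Prime) {N : ℕ} (hN : N ≠ 0) {b c : ℕ → ℂ}
    (hbc : FE b c N 0 1)
    {z24 z12 z8 z4 : ℕ → ℂ} {d24 d12 d8 d4 r24 r12 r8 r4 t24 t12 t8 t4 : ℕ}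
    {l24 l12 l8 l4 : List ℕ}
    (h24 : FE z24 z24 d24 r24 t24) (h12 : FE z12 z12 d12 r12 t12)
    (h8 : FE z8 z8 d8 r8 t8) (h4 : FE z4 z4 d4 r4 t4)
    (o24 : z24 1 = 1) (o12 : z12 1 = 1) (o8 : z8 1 = 1) (o4 : z4 1 = 1)
    (n24 : d24 ≠ 0) (n12 : d12 ≠ 0) (n8 : d8 ≠ 0) (n4 : d4 ≠ 0)
    (hl24 : ∀ ν ∈ l24, 2 ≤ ν) (hl12 : ∀ ν ∈ l12, 2 ≤ ν) (hl8 : ∀ ν ∈ l8, 2 ≤ ν)
    (hl4 : ∀ ν ∈ l4, 2 ≤ ν)
    (hid : ∀ n, n ≠ 0 → ((z24 ⍟ efl l24) ⍟ ((z4 ⍟ efl l4) ⍟ (z4 ⍟ efl l4))) n =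
      (((z12 ⍟ efl l12) ⍟ ((z8 ⍟ efl l8) ⍟ (z8 ⍟ efl l8))) ⍟ (b ⍟ fun n => conj (b n))) n)
    (hr : r24 + 2 * r4 = r12 + 2 * r8) (ht : t24 + 2 * t4 = t12 + 2 * t8 + 2)
    {j : ℕ} (hj : QMin q c j) :
    (d12 * l12.prod).factorization q + 2 * (d8 * l8.prod).factorization q +
        2 * N.factorization q =
      (d24 * l24.prod).factorization q + 2 * (d4 * l4.prod).factorization q + 2 * j := by
  have hL := fe_four h24 h4 hl24 hl4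
  have hR := FE.mul (fe_four h12 h8 hl12 hl8) (fe_self_conj hbc)
  have hR' := FE.congr hR (fun n hn => (hid n hn).symm) (fun n _ => rfl)
  have er : r12 + (r8 + r8) + (0 + 0) = r24 + (r4 + r4) := by omega
  have et : t12 + (t8 + t8) + (1 + 1) = t24 + (t4 + t4) := by omega
  rw [er, et] at hR'
  have hD₁ : d24 * l24.prod * (d4 * l4.prod * (d4 * l4.prod)) ≠ 0 :=
    mul_ne_zero (mul_ne_zero n24 (prod_ne_zero_of_two_le hl24))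
      (mul_ne_zero (mul_ne_zero n4 (prod_ne_zero_of_two_le hl4))
        (mul_ne_zero n4 (prod_ne_zero_of_two_le hl4)))
  have hD₀ : d12 * l12.prod * (d8 * l8.prod * (d8 * l8.prod)) ≠ 0 :=
    mul_ne_zero (mul_ne_zero n12 (prod_ne_zero_of_two_le hl12))
      (mul_ne_zero (mul_ne_zero n8 (prod_ne_zero_of_two_le hl8))
        (mul_ne_zero n8 (prod_ne_zero_of_two_le hl8)))
  have hD₂ : d12 * l12.prod * (d8 * l8.prod * (d8 * l8.prod)) * (N * N) ≠ 0 :=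
    mul_ne_zero hD₀ (mul_ne_zero hN hN)
  obtain ⟨κ, hκ, hc⟩ := FE.compare hD₁ hD₂ hL hR'
  have q1 : QMin q ((z24 ⍟ efl' l24) ⍟ ((z4 ⍟ efl' l4) ⍟ (z4 ⍟ efl' l4))) 0 :=
    QMin.of_one hq (by rw [dual_four_one o24 o4]; exact one_ne_zero)
  have q2 : QMin q ((z12 ⍟ efl' l12) ⍟ ((z8 ⍟ efl' l8) ⍟ (z8 ⍟ efl' l8))) 0 :=
    QMin.of_one hq (by rw [dual_four_one o12 o8]; exact one_ne_zero)
  have q3 := QMin.mul hq q2 (QMin.mul hq hj hj.conj)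
  have key := QMin.compare hq hD₁ hD₂ hκ hc q1 q3
  rw [Nat.factorization_mul hD₀ (mul_ne_zero hN hN), Nat.factorization_mul hN hN,
    Finsupp.add_apply, Finsupp.add_apply, factorization_four n12 n8 hl12 hl8,
    factorization_four n24 n4 hl24 hl4] at key
  omega

/-- **The order of the dual at `q`**: if the conductors of the four zeta functions, Euler factors
at the bad primes removed, have order `24, 12, 8, 4` at `q`, then the support of `c` lies in the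
multiples of `q ^ (v_q(N) - 2)`. -/
theorem pow_dvd_of_ne_zero {q : ℕ} (hq : q.Prime) {N : ℕ} (hN : N ≠ 0) {b c : ℕ → ℂ}
    (hbc : FE b c N 0 1)
    {z24 z12 z8 z4 : ℕ → ℂ} {d24 d12 d8 d4 r24 r12 r8 r4 t24 t12 t8 t4 : ℕ}
    {l24 l12 l8 l4 : List ℕ}
    (h24 : FE z24 z24 d24 r24 t24) (h12 : FE z12 z12 d12 r12 t12)
    (h8 : FE z8 z8 d8 r8 t8) (h4 : FE z4 z4 d4 r4 t4)
    (o24 : z24 1 = 1) (o12 : z12 1 = 1) (o8 : z8 1 = 1) (o4 : z4 1 = 1)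
    (n24 : d24 ≠ 0) (n12 : d12 ≠ 0) (n8 : d8 ≠ 0) (n4 : d4 ≠ 0)
    (hl24 : ∀ ν ∈ l24, 2 ≤ ν) (hl12 : ∀ ν ∈ l12, 2 ≤ ν) (hl8 : ∀ ν ∈ l8, 2 ≤ ν)
    (hl4 : ∀ ν ∈ l4, 2 ≤ ν)
    (hid : ∀ n, n ≠ 0 → ((z24 ⍟ efl l24) ⍟ ((z4 ⍟ efl l4) ⍟ (z4 ⍟ efl l4))) n =
      (((z12 ⍟ efl l12) ⍟ ((z8 ⍟ efl l8) ⍟ (z8 ⍟ efl l8))) ⍟ (b ⍟ fun n => conj (b n))) n)
    (hr : r24 + 2 * r4 = r12 + 2 * r8) (ht : t24 + 2 * t4 = t12 + 2 * t8 + 2)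
    (v24 : (d24 * l24.prod).factorization q = 24) (v12 : (d12 * l12.prod).factorization q = 12)
    (v8 : (d8 * l8.prod).factorization q = 8) (v4 : (d4 * l4.prod).factorization q = 4)
    {n : ℕ} (hn : n ≠ 0) (hcn : c n ≠ 0) : q ^ (N.factorization q - 2) ∣ n := by
  obtain ⟨j, hj⟩ := exists_qmin hq ⟨n, hn, hcn⟩
  have h := two_mul_ord hq hN hbc h24 h12 h8 h4 o24 o12 o8 o4 n24 n12 n8 n4 hl24 hl12 hl8 hl4
    hid hr ht hj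
  rw [v24, v12, v8, v4] at h
  have e : N.factorization q - 2 = j := by omega
  rw [e]
  exact hj.1 n hn hcn

end Fermat.Agent.Classic.Zeta

end
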