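/-
# Separation of one prime (plan Z, block Z4d)

If the coefficients of `b` live on integers prime to `q` and the coefficients of the dual `c` on
integers with one and the same `q`-exponent, then the Euler factors at `q` cancel: the numbers
`n_q` of the four fields satisfy `n_q(24) + 2 n_q(4) = n_q(12) + 2 n_q(8)`.
-/
import Fermat.Agent.Classic.Zeta.Order
import Fermat.Agent.Classic.Level.ArithOrd

set_option autoImplicit false

noncomputable section

open Complex
open scoped LSeries.notation ComplexConjugate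

namespace Fermat.Agent.Classic.Zeta

open Lvl

theorem toAr_eq (a : ℕ → ℂ) : toAr a = toArithmeticFunction a := rfl

theorem toAr_coe (F : ArithmeticFunction ℂ) : toAr F = F := by
  rw [toAr_eq, ArithmeticFunction.toArithmeticFunction_eq_self]

theorem toAr_conv (a b : ℕ → ℂ) : toAr (a ⍟ b) = toAr a * toAr b := by
  rw [LSeries.convolution, toAr_coe]
  rfl

theorem toAr_congr {a b : ℕ → ℂ} (h : ∀ n, n ≠ 0 → a n = b n) : toAr a = toAr b := by
  ext n
  rcases eq_or_ne n 0 with rfl | hn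
  · simp
  · rw [toAr_apply a hn, toAr_apply b hn, h n hn]

theorem toAr_ef {ν : ℕ} (hν : 2 ≤ ν) : toAr (ef ν) = lin ν 1 := by
  ext n
  rcases eq_or_ne n 0 with rfl | hn
  · simp
  · rw [toAr_apply _ hn, lin_apply (by omega), ef]
    by_cases h1 : n = 1
    · subst h1
      simp [show (1 : ℕ) ≠ ν by omega]
    · by_cases h2 : n = ν
      · subst h2
        simp [h1]
      · simp [h1, h2]

theorem toAr_ef' {ν : ℕ} (hν : 2 ≤ ν) : toAr (ef' ν) = lin ν ν := by
  ext n
  rcases eq_or_ne n 0 with rfl | hn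
  · simp
  · rw [toAr_apply _ hn, lin_apply (by omega), ef']
    by_cases h1 : n = 1
    · subst h1
      simp [show (1 : ℕ) ≠ ν by omega]
    · by_cases h2 : n = ν
      · subst h2
        simp [h1]
      · simp [h1, h2]

theorem toAr_delta : toAr (fun n => if n = 1 then 1 else 0) = 1 := by
  ext n
  rcases eq_or_ne n 0 with rfl | hn
  · simp
  · rw [toAr_apply _ hn, ArithmeticFunction.one_apply]

theorem toAr_efl {l : List ℕ} (hl : ∀ ν ∈ l, 2 ≤ ν) : toAr (efl l) = linProd l fun _ => 1 := by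
  induction l with
  | nil => exact toAr_delta
  | cons ν l ih =>
    rw [efl_cons, toAr_conv, toAr_ef (hl ν (by simp)), ih fun μ hμ => hl μ (by simp [hμ]),
      linProd_cons]

theorem toAr_efl' {l : List ℕ} (hl : ∀ ν ∈ l, 2 ≤ ν) : toAr (efl' l) = linProd l fun n => n := by
  induction l with
  | nil => exact toAr_delta
  | cons ν l ih =>
    rw [efl'_cons, toAr_conv, toAr_ef' (hl ν (by simp)), ih fun μ hμ => hl μ (by simp [hμ]),
      linProd_cons]

theorem linProd_append (U V : List ℕ) (z : ℕ → ℂ) :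
    linProd (U ++ V) z = linProd U z * linProd V z := by
  rw [linProd, List.map_append, List.prod_append]
  rfl

/-- the arithmetic function of `κ D^{-s} L(a, s)` -/
theorem sing_mul_toAr {D : ℕ} (hD : D ≠ 0) (κ : ℂ) (a : ℕ → ℂ) {n : ℕ} (hn : n ≠ 0) :
    (sing D κ * toAr a) n = κ * (if D ∣ n then a (n / D) else 0) := by
  by_cases h : D ∣ n
  · obtain ⟨m, rfl⟩ := h
    have hm : m ≠ 0 := right_ne_zero_of_mul hn
    rw [sing_mul_apply hD, toAr_apply a hm, if_pos (dvd_mul_right D m),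
      Nat.mul_div_cancel_left m (Nat.pos_of_ne_zero hD)]
  · rw [if_neg h, mul_zero]
    by_contra hne
    obtain ⟨d, e, _, _, hd, _, hde⟩ := exists_of_mul_ne_zero hne
    rw [sing_apply hD] at hd
    split_ifs at hd with hdD
    · exact h ⟨e, by rw [← hde, hdD]⟩
    · exact hd rfl

theorem factorization_filter_prod (q : ℕ) {l : List ℕ} (hl : ∀ ν ∈ l, 2 ≤ ν) :
    (l.filter fun n => q ∣ n).prod.factorization q = l.prod.factorization q := by
  induction l with
  | nil => simp
  | cons ν l ih =>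
    have hν : ν ≠ 0 := by
      have := hl ν (by simp)
      omega
    have hl' : ∀ μ ∈ l, 2 ≤ μ := fun μ hμ => hl μ (by simp [hμ])
    have h0 : l.prod ≠ 0 := prod_ne_zero_of_two_le hl'
    have h1 : (l.filter fun n => q ∣ n).prod ≠ 0 :=
      prod_ne_zero_of_two_le fun μ hμ => hl' μ (List.mem_of_mem_filter hμ)
    rw [List.prod_cons, Nat.factorization_mul hν h0, Finsupp.add_apply]
    by_cases hq : q ∣ ν
    · rw [List.filter_cons_of_pos (by simpa using hq), List.prod_cons,
        Nat.factorization_mul hν h1, Finsupp.add_apply, ih hl']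
    · rw [List.filter_cons_of_neg (by simpa using hq), ih hl',
        Nat.factorization_eq_zero_of_not_dvd hq, zero_add]

/-- **The Euler factors at `q` cancel** if the dual `c` has one single `q`-exponent. -/
theorem fsum_eq {q : ℕ} (hq : q.Prime) {N : ℕ} (hN : N ≠ 0) {b c : ℕ → ℂ}
    (hbc : FE b c N 0 1)
    {z24 z12 z8 z4 : ℕ → ℂ} {d24 d12 d8 d4 r24 r12 r8 r4 t24 t12 t8 t4 : ℕ}
    {l24 l12 l8 l4 : List ℕ}
    (h24 : FE z24 z24 d24 r24 t24) (h12 : FE z12 z12 d12 r12 t12)
    (h8 : FE z8 z8 d8 r8 t8) (h4 : FE z4 z4 d4 r4 t4)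
    (o24 : z24 1 = 1) (o12 : z12 1 = 1) (o8 : z8 1 = 1) (o4 : z4 1 = 1)
    (n24 : d24 ≠ 0) (n12 : d12 ≠ 0) (n8 : d8 ≠ 0) (n4 : d4 ≠ 0)
    (hl24 : ∀ ν ∈ l24, 2 ≤ ν) (hl12 : ∀ ν ∈ l12, 2 ≤ ν) (hl8 : ∀ ν ∈ l8, 2 ≤ ν)
    (hl4 : ∀ ν ∈ l4, 2 ≤ ν)
    (hid : ∀ n, n ≠ 0 → ((z24 ⍟ efl l24) ⍟ ((z4 ⍟ efl l4) ⍟ (z4 ⍟ efl l4))) n =
      (((z12 ⍟ efl l12) ⍟ ((z8 ⍟ efl l8) ⍟ (z8 ⍟ efl l8))) ⍟ (b ⍟ fun n => conj (b n))) n)
    (hr : r24 + 2 * r4 = r12 + 2 * r8) (ht : t24 + 2 * t4 = t12 + 2 * t8 + 2)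
    (hbq : ∀ n, n ≠ 0 → b n ≠ 0 → n.factorization q = 0) {μ : ℕ}
    (hcq : ∀ n, n ≠ 0 → c n ≠ 0 → n.factorization q = μ) :
    l24.prod.factorization q + 2 * l4.prod.factorization q =
      l12.prod.factorization q + 2 * l8.prod.factorization q := by
  have hL := fe_four h24 h4 hl24 hl4
  have hR := FE.mul (fe_four h12 h8 hl12 hl8) (fe_self_conj hbc)
  have hR' := FE.congr hR (fun n hn => (hid n hn).symm) (fun n _ => rfl)
  have er : r12 + (r8 + r8) + (0 + 0) = r24 + (r4 + r4) := by omega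
  have et : t12 + (t8 + t8) + (1 + 1) = t24 + (t4 + t4) := by omega
  rw [er, et] at hR'
  have hD₁ : d24 * l24.prod * (d4 * l4.prod * (d4 * l4.prod)) ≠ 0 :=
    mul_ne_zero (mul_ne_zero n24 (prod_ne_zero_of_two_le hl24))
      (mul_ne_zero (mul_ne_zero n4 (prod_ne_zero_of_two_le hl4))
        (mul_ne_zero n4 (prod_ne_zero_of_two_le hl4)))
  have hD₀ : d12 * l12.prod * (d8 * l8.prod * (d8 * l8.prod)) ≠ 0 :=
    mul_ne_zero (mul_ne_zero n12 (prod_ne_zero_of_two_le hl12))
      (mul_ne_zero (mul_ne_zero n8 (prod_ne_zero_of_two_le hl8))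
        (mul_ne_zero n8 (prod_ne_zero_of_two_le hl8)))
  have hD₂ : d12 * l12.prod * (d8 * l8.prod * (d8 * l8.prod)) * (N * N) ≠ 0 :=
    mul_ne_zero hD₀ (mul_ne_zero hN hN)
  obtain ⟨κ, hκ, hc⟩ := FE.compare hD₁ hD₂ hL hR'
  generalize d24 * l24.prod * (d4 * l4.prod * (d4 * l4.prod)) = D₁ at hD₁ hc
  generalize d12 * l12.prod * (d8 * l8.prod * (d8 * l8.prod)) * (N * N) = D₂ at hD₂ hc
  -- the two identities of arithmetic functions
  have I1 : sing D₂ 1 *
      (toAr z24 * linProd l24 (fun n => n) *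
        (toAr z4 * linProd l4 (fun n => n) * (toAr z4 * linProd l4 (fun n => n)))) =
      sing D₁ κ * (toAr z12 * linProd l12 (fun n => n) *
        (toAr z8 * linProd l8 (fun n => n) * (toAr z8 * linProd l8 (fun n => n))) *
          (toAr c * toAr fun n => conj (c n))) := by
    simp only [← toAr_efl' hl24, ← toAr_efl' hl4, ← toAr_efl' hl12, ← toAr_efl' hl8,
      ← toAr_conv]
    ext n
    rcases eq_or_ne n 0 with rfl | hn
    · simp
    · rw [sing_mul_toAr hD₂ 1 _ hn, sing_mul_toAr hD₁ κ _ hn, one_mul]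
      exact hc n hn
  have I2 : toAr z24 * linProd l24 (fun _ => 1) *
        (toAr z4 * linProd l4 (fun _ => 1) * (toAr z4 * linProd l4 (fun _ => 1))) =
      toAr z12 * linProd l12 (fun _ => 1) *
        (toAr z8 * linProd l8 (fun _ => 1) * (toAr z8 * linProd l8 (fun _ => 1))) *
          (toAr b * toAr fun n => conj (b n)) := by
    simp only [← toAr_efl hl24, ← toAr_efl hl4, ← toAr_efl hl12, ← toAr_efl hl8, ← toAr_conv]
    exact toAr_congr hid
  have hone : ∀ {z : ℕ → ℂ}, z 1 = 1 → toAr z ≠ 0 := fun {z} hz h0 => by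
    have := congrArg (fun F : ArithmeticFunction ℂ => F 1) h0
    simp only [toAr_apply z one_ne_zero, hz, ArithmeticFunction.zero_apply] at this
    exact one_ne_zero this
  have hmul : ∀ {F G : ArithmeticFunction ℂ}, F ≠ 0 → G ≠ 0 → F * G ≠ 0 := by
    intro F G hF hG
    obtain ⟨i, hi⟩ := isOrd_of_ne_zero q hF
    obtain ⟨j, hj⟩ := isOrd_of_ne_zero q hG
    exact isOrd_ne_zero (hi.mul hj)
  have hlin : ∀ {l : List ℕ}, (∀ ν ∈ l, 2 ≤ ν) → ∀ z : ℕ → ℂ, linProd l z ≠ 0 := fun hl z =>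
    isOrd_ne_zero (isOrd_linProd q hl z)
  have hK : toAr z12 * linProd l12 (fun _ => 1) *
      (toAr z8 * linProd l8 (fun _ => 1) * (toAr z8 * linProd l8 (fun _ => 1))) ≠ 0 :=
    hmul (hmul (hone o12) (hlin hl12 _))
      (hmul (hmul (hone o8) (hlin hl8 _)) (hmul (hone o8) (hlin hl8 _)))
  have hB : toAr b * (toAr fun n => conj (b n)) ≠ 0 := by
    intro h0
    rw [h0, mul_zero] at I2
    exact hmul (hmul (hone o24) (hlin hl24 _))
      (hmul (hmul (hone o4) (hlin hl4 _)) (hmul (hone o4) (hlin hl4 _))) I2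
  have hE : sing D₂ 1 * (toAr b * toAr fun n => conj (b n)) *
        linProd (l12 ++ (l8 ++ l8)) (fun _ => 1) * linProd (l24 ++ (l4 ++ l4)) (fun n => n) =
      sing D₁ κ * (toAr c * toAr fun n => conj (c n)) *
        linProd (l24 ++ (l4 ++ l4)) (fun _ => 1) * linProd (l12 ++ (l8 ++ l8)) (fun n => n) := by
    simp only [linProd_append]
    refine cancel_left hK ?_
    linear_combination
      (linProd l24 (fun _ => 1) * (linProd l4 (fun _ => 1) * linProd l4 (fun _ => 1)) *
        (linProd l12 (fun _ => 1) * (linProd l8 (fun _ => 1) * linProd l8 (fun _ => 1)))) * I1 -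
      (sing D₂ 1 * (linProd l12 (fun _ => 1) * (linProd l8 (fun _ => 1) * linProd l8 (fun _ => 1))) *
        (linProd l24 (fun n => n) * (linProd l4 (fun n => n) * linProd l4 (fun n => n)))) * I2
  have hX : OneExp q (D₂.factorization q + (0 + 0))
      (sing D₂ 1 * (toAr b * toAr fun n => conj (b n))) :=
    (oneExp_sing q hD₂ 1).mul ((oneExp_toAr hbq).mul
      (oneExp_toAr fun n hn h => hbq n hn fun h0 => h (by rw [h0, map_zero])))
  have hY : OneExp q (D₁.factorization q + (μ + μ))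
      (sing D₁ κ * (toAr c * toAr fun n => conj (c n))) :=
    (oneExp_sing q hD₁ κ).mul ((oneExp_toAr hcq).mul
      (oneExp_toAr fun n hn h => hcq n hn fun h0 => h (by rw [h0, map_zero])))
  have hU2 : ∀ n ∈ l12 ++ (l8 ++ l8), 2 ≤ n := by
    intro n hn
    simp only [List.mem_append, or_self] at hn
    exact hn.elim (hl12 n) (hl8 n)
  have hV2 : ∀ n ∈ l24 ++ (l4 ++ l4), 2 ≤ n := by
    intro n hn
    simp only [List.mem_append, or_self] at hn
    exact hn.elim (hl24 n) (hl4 n)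
  have key := prod_eq_of_identity hq hU2 hV2 hX hY
    (hmul (isOrd_ne_zero (isOrd_sing q hD₂ one_ne_zero)) hB) hE
  have k2 := congrArg (fun n : ℕ => n.factorization q) key
  simp only [factorization_filter_prod q hU2, factorization_filter_prod q hV2,
    List.prod_append] at k2
  have p24 := prod_ne_zero_of_two_le hl24
  have p12 := prod_ne_zero_of_two_le hl12
  have p8 := prod_ne_zero_of_two_le hl8
  have p4 := prod_ne_zero_of_two_le hl4
  rw [Nat.factorization_mul p12 (mul_ne_zero p8 p8), Nat.factorization_mul p8 p8,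
    Nat.factorization_mul p24 (mul_ne_zero p4 p4), Nat.factorization_mul p4 p4] at k2
  simp only [Finsupp.add_apply] at k2
  omega

end Fermat.Agent.Classic.Zeta

end
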