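import Fermat.Agent.Classic.Zeta.Defs

/-!
# The coordinates `tt x y` and the action of the units
-/

set_option autoImplicit false

noncomputable section

namespace Fermat.Agent.Classic.Zeta

open NumberField NumberField.InfinitePlace NumberField.Units MeasureTheory Set Real
open NumberField.Units.dirichletUnitTheorem
open scoped nonZeroDivisors Classical ENNReal

universe u

variable {K : Type u} [Field K] [NumberField K]

/-- the logarithmic coordinates: `tt x y w = (x * exp (lg y w)) ^ 2` -/
def lg (y : logSpace K) (w : InfinitePlace K) : ℝ :=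
  if h : w = w₀ then -(∑ w', y w') / (mult w : ℝ) else y ⟨w, h⟩ / (mult w : ℝ)

theorem tt_eq (x : ℝ) (y : logSpace K) (w : InfinitePlace K) :
    tt x y w = (x * Real.exp (lg y w)) ^ 2 := by
  unfold tt lg
  split_ifs <;> rfl

theorem lg_add (y z : logSpace K) (w : InfinitePlace K) : lg (y + z) w = lg y w + lg z w := by
  unfold lg
  split_ifs
  · simp only [Pi.add_apply, Finset.sum_add_distrib]
    ring
  · simp only [Pi.add_apply]
    ring

theorem lg_neg (y : logSpace K) (w : InfinitePlace K) : lg (-y) w = -lg y w := by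
  unfold lg
  split_ifs
  · simp only [Pi.neg_apply, Finset.sum_neg_distrib]
    ring
  · simp only [Pi.neg_apply]
    ring

theorem lg_logEmbedding (v : (𝓞 K)ˣ) (w : InfinitePlace K) :
    lg (logEmbedding K (Additive.ofMul v)) w = Real.log (w v) := by
  have hm : (mult w : ℝ) ≠ 0 := by exact_mod_cast mult_coe_ne_zero
  unfold lg
  split_ifs with h
  · rw [sum_logEmbedding_component, h]
    field_simp
  · rw [logEmbedding_component]
    field_simp

theorem exp_lg_logEmbedding (v : (𝓞 K)ˣ) (w : InfinitePlace K) :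
    Real.exp (lg (logEmbedding K (Additive.ofMul v)) w) = w v := by
  rw [lg_logEmbedding, Real.exp_log (pos_at_place v w)]

theorem sum_mult_mul_lg (y : logSpace K) : ∑ w : InfinitePlace K, (mult w : ℝ) * lg y w = 0 := by
  rw [Fintype.sum_eq_add_sum_subtype_ne _ (w₀ : InfinitePlace K)]
  have h0 : ((mult (w₀ : InfinitePlace K) : ℕ) : ℝ) ≠ 0 := by exact_mod_cast mult_coe_ne_zero
  have h1 : (mult (w₀ : InfinitePlace K) : ℝ) * lg y w₀ = -∑ w', y w' := by
    unfold lg
    rw [dif_pos rfl]
    field_simp
  have h2 : ∀ w : {w : InfinitePlace K // w ≠ w₀}, (mult w.1 : ℝ) * lg y w.1 = y w := by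
    intro w
    have hm : ((mult w.1 : ℕ) : ℝ) ≠ 0 := by exact_mod_cast mult_coe_ne_zero
    unfold lg
    rw [dif_neg w.2]
    field_simp
  rw [h1, Finset.sum_congr rfl fun w _ => h2 w, neg_add_cancel]

theorem tt_pos {x : ℝ} (hx : 0 < x) (y : logSpace K) (w : InfinitePlace K) : 0 < tt x y w := by
  rw [tt_eq]
  positivity

theorem tt_inv (x : ℝ) (y : logSpace K) :
    (fun w => (tt x y w)⁻¹) = tt x⁻¹ (-y) := by
  funext w
  rw [tt_eq, tt_eq, lg_neg, Real.exp_neg, ← inv_pow, mul_inv]

/-- the action of the units -/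
theorem tt_add (x : ℝ) (y : logSpace K) (v : (𝓞 K)ˣ) (w : InfinitePlace K) :
    tt x (y + logEmbedding K (Additive.ofMul v)) w = tt x y w * w (v : K) ^ 2 := by
  rw [tt_eq, tt_eq, lg_add, Real.exp_add, exp_lg_logEmbedding]
  ring

theorem E_mul (x : ℝ) (y : logSpace K) (v : (𝓞 K)ˣ) (a : K) :
    E (tt x y) (((v : 𝓞 K) : K) * a) =
      E (tt x (y + logEmbedding K (Additive.ofMul v))) a := by
  unfold E
  congr 2
  refine Finset.sum_congr rfl fun w _ => ?_
  rw [tt_add, map_mul]
  ring

theorem E_pos (t : InfinitePlace K → ℝ) (a : K) : 0 < E t a := Real.exp_pos _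

theorem E_zero (t : InfinitePlace K → ℝ) : E t 0 = 1 := by
  unfold E
  simp

theorem prod_tt {x : ℝ} (hx : 0 < x) (y : logSpace K) :
    ∏ w : InfinitePlace K, tt x y w ^ ((w.mult : ℝ) / 2) = x ^ (Module.finrank ℚ K) := by
  have h1 : ∀ w : InfinitePlace K, tt x y w ^ ((w.mult : ℝ) / 2) =
      x ^ w.mult * Real.exp ((mult w : ℝ) * lg y w) := by
    intro w
    rw [tt_eq, ← Real.rpow_natCast (x * Real.exp (lg y w)) 2, ← Real.rpow_mul (by positivity),
      Nat.cast_ofNat, mul_div_cancel₀ _ (two_ne_zero), Real.rpow_natCast, mul_pow,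
      ← Real.exp_nat_mul]
  rw [Finset.prod_congr rfl fun w _ => h1 w, Finset.prod_mul_distrib, ← Real.exp_sum,
    sum_mult_mul_lg, Real.exp_zero, mul_one, Finset.prod_pow_eq_pow_sum, sum_mult_eq]

@[fun_prop]
theorem continuous_lg (w : InfinitePlace K) : Continuous fun y : logSpace K => lg y w := by
  unfold lg
  split_ifs <;> fun_prop

@[fun_prop]
theorem continuous_tt_right (x : ℝ) (w : InfinitePlace K) :
    Continuous fun y : logSpace K => tt x y w := by
  simp only [tt_eq]
  fun_prop

theorem continuous_tt2 (w : InfinitePlace K) :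
    Continuous fun p : ℝ × logSpace K => tt p.1 p.2 w := by
  have h := (continuous_lg (K := K) w).comp (continuous_snd (X := ℝ))
  simp only [tt_eq]
  exact (continuous_fst.mul (Real.continuous_exp.comp h)).pow 2

theorem continuous_E (x : ℝ) (a : K) : Continuous fun y : logSpace K => E (tt x y) a := by
  unfold E
  fun_prop

theorem continuous_E2 (a : K) : Continuous fun p : ℝ × logSpace K => E (tt p.1 p.2) a := by
  unfold E
  refine Real.continuous_exp.comp (continuous_const.mul ?_)
  exact continuous_finsetSum _ fun w _ => continuous_const.mul ((continuous_tt2 w).mul continuous_const)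

end Fermat.Agent.Classic.Zeta

end
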