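import Mathlib

/-!
# Assembly of the functional equation of a sum of Mellin transforms

* `eq_of_halfPlane`: two functions which are differentiable at every `s ≠ 0, 1` and agree on a half
  plane agree at every `s ≠ 0, 1`.
* `exists_xi_of_pairs`: the functional equation of the sum over the ideal classes, from the weak
  FE pairs of the classes.
-/

set_option autoImplicit false

open Complex Filter Topology Set

noncomputable section

namespace Fermat.Agent.Classic.Zeta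

/-- The identity theorem on `ℂ ∖ {0, 1}`. -/
theorem eq_of_halfPlane {f g : ℂ → ℂ}
    (hf : ∀ s : ℂ, s ≠ 0 → s ≠ 1 → DifferentiableAt ℂ f s)
    (hg : ∀ s : ℂ, s ≠ 0 → s ≠ 1 → DifferentiableAt ℂ g s) (c : ℝ)
    (h : ∀ s : ℂ, c < s.re → f s = g s) : ∀ s : ℂ, s ≠ 0 → s ≠ 1 → f s = g s := by
  have hfin : ({0, 1} : Set ℂ).Finite := (Set.finite_singleton (1 : ℂ)).insert 0
  have hopen : IsOpen (({0, 1} : Set ℂ)ᶜ) := hfin.isClosed.isOpen_compl
  have hmem : ∀ s : ℂ, s ∈ (({0, 1} : Set ℂ)ᶜ) ↔ s ≠ 0 ∧ s ≠ 1 := fun s => by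
    simp [not_or]
  have hconn : IsPreconnected (({0, 1} : Set ℂ)ᶜ) := by
    refine (hfin.countable.isConnected_compl_of_one_lt_rank ?_).isPreconnected
    rw [Complex.rank_real_complex]
    exact_mod_cast Nat.one_lt_two
  have hfa : AnalyticOnNhd ℂ f (({0, 1} : Set ℂ)ᶜ) :=
    DifferentiableOn.analyticOnNhd
      (fun s hs => (hf s ((hmem s).1 hs).1 ((hmem s).1 hs).2).differentiableWithinAt) hopen
  have hga : AnalyticOnNhd ℂ g (({0, 1} : Set ℂ)ᶜ) :=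
    DifferentiableOn.analyticOnNhd
      (fun s hs => (hg s ((hmem s).1 hs).1 ((hmem s).1 hs).2).differentiableWithinAt) hopen
  have hz : (((max c 1 + 1 : ℝ) : ℂ)) ∈ (({0, 1} : Set ℂ)ᶜ) := by
    rw [hmem]
    have h1 : (1 : ℝ) ≤ max c 1 := le_max_right _ _
    constructor
    · intro h0
      have := congrArg Complex.re h0
      rw [ofReal_re, zero_re] at this
      linarith
    · intro h0
      have := congrArg Complex.re h0
      rw [ofReal_re, one_re] at this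
      linarith
  have hev : f =ᶠ[𝓝 (((max c 1 + 1 : ℝ) : ℂ))] g := by
    have hU : {s : ℂ | c < s.re} ∈ 𝓝 (((max c 1 + 1 : ℝ) : ℂ)) := by
      refine (isOpen_lt continuous_const Complex.continuous_re).mem_nhds ?_
      show c < (((max c 1 + 1 : ℝ) : ℂ)).re
      rw [ofReal_re]
      have := le_max_left c 1
      linarith
    filter_upwards [hU] with s hs
    exact h s hs
  intro s h0 h1
  exact hfa.eqOn_of_preconnected_of_eventuallyEq hga hconn hz hev ((hmem s).2 ⟨h0, h1⟩)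

/-- The identity theorem on `ℂ ∖ {0, 1}`, from the half plane `1 < re s`. -/
theorem eqOn_compl {f g : ℂ → ℂ}
    (hf : ∀ s : ℂ, s ≠ 0 → s ≠ 1 → DifferentiableAt ℂ f s)
    (hg : ∀ s : ℂ, s ≠ 0 → s ≠ 1 → DifferentiableAt ℂ g s)
    (h : ∀ s : ℂ, 1 < s.re → f s = g s) : ∀ s : ℂ, s ≠ 0 → s ≠ 1 → f s = g s :=
  eq_of_halfPlane hf hg 1 h

theorem ofReal_cpow_eq_exp {x : ℝ} (hx : 0 < x) (s : ℂ) :
    (x : ℂ) ^ s = Complex.exp ((Real.log x : ℂ) * s) := by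
  rw [Complex.cpow_def_of_ne_zero (ofReal_ne_zero.mpr hx.ne'), Complex.ofReal_log hx.le]

theorem differentiable_ofReal_cpow {x : ℝ} (hx : 0 < x) :
    Differentiable ℂ fun s : ℂ => (x : ℂ) ^ s := by
  simp_rw [ofReal_cpow_eq_exp hx]
  fun_prop

/-- `s (1 - s) Λ(n s)` as an entire function, for a weak FE pair of weight `n`. -/
def xiOf (Q : WeakFEPair ℂ) (n : ℝ) (s : ℂ) : ℂ :=
  s * (1 - s) * Q.Λ₀ (n * s) - (1 - s) * (Q.f₀ / n) - s * (Q.ε * Q.g₀ / n)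

theorem differentiable_xiOf (Q : WeakFEPair ℂ) (n : ℝ) : Differentiable ℂ (xiOf Q n) := by
  have h : Differentiable ℂ fun s : ℂ => Q.Λ₀ (n * s) :=
    Q.differentiable_Λ₀.comp (by fun_prop)
  unfold xiOf
  fun_prop

theorem xiOf_eq (Q : WeakFEPair ℂ) {n : ℝ} (hn : 0 < n) (hk : Q.k = n) {s : ℂ} (h0 : s ≠ 0)
    (h1 : s ≠ 1) : xiOf Q n s = s * (1 - s) * Q.Λ (n * s) := by
  have hn0 : (n : ℂ) ≠ 0 := ofReal_ne_zero.mpr hn.ne'
  have h1' : 1 - s ≠ 0 := sub_ne_zero.mpr (Ne.symm h1)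
  rw [xiOf, Q.Λ₀_eq, hk, smul_eq_mul, smul_eq_mul]
  have h2 : (n : ℂ) - n * s = n * (1 - s) := by ring
  rw [h2]
  field_simp
  ring

variable {ι : Type*} [Fintype ι]

/-- **The functional equation, from the weak FE pairs of the classes**: the entire version. -/
theorem exists_Xi_of_pairs (P : ι → WeakFEPair ℂ) {n D : ℝ} {c : ℂ} {a : ι → ℝ} (hn : 0 < n)
    (hD : 0 < D) (ha : ∀ i, 0 < a i) (hc : c ≠ 0) (hk : ∀ i, (P i).k = n)
    (hε : ∀ i, (P i).ε = (((√D * a i)⁻¹ : ℝ) : ℂ)) (σ : ι ≃ ι) {G : ℂ → ℂ} {Z : ι → ℂ → ℂ}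
    (hf : ∀ i, ∀ s : ℂ, 1 < s.re →
      (P i).Λ (n * s) = c * G s * ((a i : ℂ) ^ (-s) * Z i s))
    (hg : ∀ i, ∀ s : ℂ, 1 < s.re →
      (P i).symm.Λ (n * s) = c * G s * ((((a i * D)⁻¹ : ℝ) : ℂ) ^ (-s) * Z (σ i) s)) :
    ∃ Ξ : ℂ → ℂ, Differentiable ℂ Ξ ∧ ∀ s : ℂ, 1 < s.re →
      Ξ s = s * (1 - s) * ((D : ℂ) ^ (s / 2) * G s * ∑ i, Z i s) ∧
      Ξ (1 - s) = s * (1 - s) * ((D : ℂ) ^ (s / 2) * G s * ∑ i, Z i s) := by
  have hb : ∀ i, 0 < (a i * D)⁻¹ := fun i => inv_pos.mpr (mul_pos (ha i) hD)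
  have hn0 : (n : ℂ) ≠ 0 := ofReal_ne_zero.mpr hn.ne'
  have hDs : Differentiable ℂ fun s : ℂ => (D : ℂ) ^ (s / 2) :=
    (differentiable_ofReal_cpow hD).comp (by fun_prop)
  refine ⟨fun s => c⁻¹ * ∑ i, (D : ℂ) ^ (s / 2) * (a i : ℂ) ^ s * xiOf (P i) n s, ?_,
    fun s hs => ?_⟩
  · refine (Differentiable.fun_sum fun i _ => ?_).const_mul _
    exact (hDs.mul (differentiable_ofReal_cpow (ha i))).mul (differentiable_xiOf (P i) n)
  have h0 : s ≠ 0 := by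
    rintro rfl
    rw [zero_re] at hs
    linarith
  have h1 : s ≠ 1 := by
    rintro rfl
    rw [one_re] at hs
    linarith
  have h0' : 1 - s ≠ 0 := sub_ne_zero.mpr (Ne.symm h1)
  have h1' : 1 - s ≠ 1 := fun h => h0 (by linear_combination -h)
  beta_reduce
  constructor
  · rw [Finset.mul_sum, Finset.mul_sum, Finset.mul_sum]
    refine Finset.sum_congr rfl fun i _ => ?_
    rw [xiOf_eq (P i) hn (hk i) h0 h1, hf i s hs]
    have h1 : (a i : ℂ) ^ s * (a i : ℂ) ^ (-s) = 1 := by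
      rw [ofReal_cpow_eq_exp (ha i), ofReal_cpow_eq_exp (ha i), ← Complex.exp_add]
      rw [mul_neg, add_neg_cancel, Complex.exp_zero]
    calc c⁻¹ * ((D : ℂ) ^ (s / 2) * (a i : ℂ) ^ s *
          (s * (1 - s) * (c * G s * ((a i : ℂ) ^ (-s) * Z i s))))
        = (c⁻¹ * c) * ((a i : ℂ) ^ s * (a i : ℂ) ^ (-s)) *
            (s * (1 - s) * ((D : ℂ) ^ (s / 2) * G s * Z i s)) := by
          ring
      _ = _ := by rw [h1, inv_mul_cancel₀ hc, one_mul, one_mul]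
  · rw [← Equiv.sum_comp σ (fun i => Z i s), Finset.mul_sum, Finset.mul_sum, Finset.mul_sum]
    refine Finset.sum_congr rfl fun i _ => ?_
    have h2 : (n : ℂ) * (1 - s) = (P i).k - n * s := by
      rw [hk i]
      ring
    rw [xiOf_eq (P i) hn (hk i) h0' h1', h2, (P i).functional_equation, hg i s hs, hε i,
      smul_eq_mul]
    have hsq : ((√D : ℝ) : ℂ) = Complex.exp ((Real.log D : ℂ) * (1 / 2)) := by
      rw [← ofReal_cpow_eq_exp hD, Real.sqrt_eq_rpow, Complex.ofReal_cpow hD.le]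
      norm_num
    have hae : ((a i : ℝ) : ℂ) = Complex.exp ((Real.log (a i) : ℂ)) := by
      rw [← Complex.ofReal_exp, Real.exp_log (ha i)]
    have hlog : Real.log ((a i * D)⁻¹) = -(Real.log (a i) + Real.log D) := by
      rw [Real.log_inv, Real.log_mul (ha i).ne' hD.ne']
    have h3 : (D : ℂ) ^ ((1 - s) / 2) * (a i : ℂ) ^ (1 - s) * (((√D * a i)⁻¹ : ℝ) : ℂ) *
        (((a i * D)⁻¹ : ℝ) : ℂ) ^ (-s) = (D : ℂ) ^ (s / 2) := by
      rw [ofReal_inv, ofReal_mul]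
      rw [ofReal_cpow_eq_exp hD, ofReal_cpow_eq_exp hD, ofReal_cpow_eq_exp (ha i),
        ofReal_cpow_eq_exp (hb i), hlog, hsq]
      rw [hae]
      simp only [← Complex.exp_add, ← Complex.exp_neg]
      congr 1
      push_cast
      ring
    calc c⁻¹ * ((D : ℂ) ^ ((1 - s) / 2) * (a i : ℂ) ^ (1 - s) * ((1 - s) * (1 - (1 - s)) *
          ((((√D * a i)⁻¹ : ℝ) : ℂ) * (c * G s * ((((a i * D)⁻¹ : ℝ) : ℂ) ^ (-s) * Z (σ i) s)))))
        = (c⁻¹ * c) * ((D : ℂ) ^ ((1 - s) / 2) * (a i : ℂ) ^ (1 - s) *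
            (((√D * a i)⁻¹ : ℝ) : ℂ) * (((a i * D)⁻¹ : ℝ) : ℂ) ^ (-s)) *
            (s * (1 - s) * (G s * Z (σ i) s)) := by
          ring
      _ = _ := by
          rw [h3, inv_mul_cancel₀ hc]
          ring

/-- **The functional equation, from the weak FE pairs of the classes.** -/
theorem exists_xi_of_pairs (P : ι → WeakFEPair ℂ) {n D : ℝ} {c : ℂ} {a : ι → ℝ} (hn : 0 < n)
    (hD : 0 < D) (ha : ∀ i, 0 < a i) (hc : c ≠ 0) (hk : ∀ i, (P i).k = n)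
    (hε : ∀ i, (P i).ε = (((√D * a i)⁻¹ : ℝ) : ℂ)) (σ : ι ≃ ι) {G : ℂ → ℂ} {Z : ι → ℂ → ℂ}
    (hf : ∀ i, ∀ s : ℂ, 1 < s.re →
      (P i).Λ (n * s) = c * G s * ((a i : ℂ) ^ (-s) * Z i s))
    (hg : ∀ i, ∀ s : ℂ, 1 < s.re →
      (P i).symm.Λ (n * s) = c * G s * ((((a i * D)⁻¹ : ℝ) : ℂ) ^ (-s) * Z (σ i) s)) :
    ∃ Λ : ℂ → ℂ, (∀ s, s ≠ 0 → s ≠ 1 → DifferentiableAt ℂ Λ s) ∧ (∀ s, Λ (1 - s) = Λ s) ∧
      ∀ s : ℂ, 1 < s.re → Λ s = (D : ℂ) ^ (s / 2) * G s * ∑ i, Z i s := by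
  have hb : ∀ i, 0 < (a i * D)⁻¹ := fun i => inv_pos.mpr (mul_pos (ha i) hD)
  have hn0 : (n : ℂ) ≠ 0 := ofReal_ne_zero.mpr hn.ne'
  set L1 : ℂ → ℂ := fun s => c⁻¹ * ∑ i, (D : ℂ) ^ (s / 2) * (a i : ℂ) ^ s * (P i).Λ (n * s) with hL1
  set L2 : ℂ → ℂ := fun s =>
    c⁻¹ * ∑ i, (D : ℂ) ^ (s / 2) * (((a i * D)⁻¹ : ℝ) : ℂ) ^ s * (P i).symm.Λ (n * s) with hL2
  have hDs : Differentiable ℂ fun s : ℂ => (D : ℂ) ^ (s / 2) := by
    have := differentiable_ofReal_cpow hD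
    exact this.comp (by fun_prop)
  have hΛd : ∀ (Q : WeakFEPair ℂ), Q.k = n → ∀ s : ℂ, s ≠ 0 → s ≠ 1 →
      DifferentiableAt ℂ (fun s : ℂ => Q.Λ (n * s)) s := by
    intro Q hQ s h0 h1
    have h2 : DifferentiableAt ℂ Q.Λ (n * s) := by
      refine Q.differentiableAt_Λ (Or.inl (mul_ne_zero hn0 h0)) (Or.inl ?_)
      rw [hQ]
      intro h
      exact h1 (mul_left_cancel₀ hn0 (by rw [h, mul_one]))
    exact h2.comp s (by fun_prop)
  have hd1 : ∀ s : ℂ, s ≠ 0 → s ≠ 1 → DifferentiableAt ℂ L1 s := by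
    intro s h0 h1
    refine (DifferentiableAt.fun_sum fun i _ => ?_).const_mul _
    exact ((hDs s).mul (differentiable_ofReal_cpow (ha i) s)).mul (hΛd (P i) (hk i) s h0 h1)
  have hd2 : ∀ s : ℂ, s ≠ 0 → s ≠ 1 → DifferentiableAt ℂ L2 s := by
    intro s h0 h1
    refine (DifferentiableAt.fun_sum fun i _ => ?_).const_mul _
    exact ((hDs s).mul (differentiable_ofReal_cpow (hb i) s)).mul
      (hΛd (P i).symm (hk i) s h0 h1)
  have hv1 : ∀ s : ℂ, 1 < s.re → L1 s = (D : ℂ) ^ (s / 2) * G s * ∑ i, Z i s := by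
    intro s hs
    simp only [hL1]
    rw [Finset.mul_sum, Finset.mul_sum]
    refine Finset.sum_congr rfl fun i _ => ?_
    rw [hf i s hs]
    have h1 : (a i : ℂ) ^ s * (a i : ℂ) ^ (-s) = 1 := by
      rw [ofReal_cpow_eq_exp (ha i), ofReal_cpow_eq_exp (ha i), ← Complex.exp_add]
      rw [mul_neg, add_neg_cancel, Complex.exp_zero]
    calc c⁻¹ * ((D : ℂ) ^ (s / 2) * (a i : ℂ) ^ s * (c * G s * ((a i : ℂ) ^ (-s) * Z i s)))
        = (c⁻¹ * c) * ((a i : ℂ) ^ s * (a i : ℂ) ^ (-s)) * ((D : ℂ) ^ (s / 2) * G s * Z i s) := by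
          ring
      _ = _ := by rw [h1, inv_mul_cancel₀ hc, one_mul, one_mul]
  have hv2 : ∀ s : ℂ, 1 < s.re → L2 s = (D : ℂ) ^ (s / 2) * G s * ∑ i, Z i s := by
    intro s hs
    simp only [hL2]
    rw [← Equiv.sum_comp σ (fun i => Z i s), Finset.mul_sum, Finset.mul_sum]
    refine Finset.sum_congr rfl fun i _ => ?_
    rw [hg i s hs]
    have h1 : (((a i * D)⁻¹ : ℝ) : ℂ) ^ s * (((a i * D)⁻¹ : ℝ) : ℂ) ^ (-s) = 1 := by
      rw [ofReal_cpow_eq_exp (hb i), ofReal_cpow_eq_exp (hb i), ← Complex.exp_add]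
      rw [mul_neg, add_neg_cancel, Complex.exp_zero]
    calc c⁻¹ * ((D : ℂ) ^ (s / 2) * (((a i * D)⁻¹ : ℝ) : ℂ) ^ s *
          (c * G s * ((((a i * D)⁻¹ : ℝ) : ℂ) ^ (-s) * Z (σ i) s)))
        = (c⁻¹ * c) * ((((a i * D)⁻¹ : ℝ) : ℂ) ^ s * (((a i * D)⁻¹ : ℝ) : ℂ) ^ (-s)) *
            ((D : ℂ) ^ (s / 2) * G s * Z (σ i) s) := by
          ring
      _ = _ := by rw [h1, inv_mul_cancel₀ hc, one_mul, one_mul]
  have hflip : ∀ s : ℂ, L1 (1 - s) = L2 s := by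
    intro s
    simp only [hL1, hL2]
    congr 1
    refine Finset.sum_congr rfl fun i _ => ?_
    have h1 : (n : ℂ) * (1 - s) = (P i).k - n * s := by
      rw [hk i]
      ring
    rw [h1, (P i).functional_equation, hε i, smul_eq_mul, ← mul_assoc]
    congr 1
    have hsq : ((√D : ℝ) : ℂ) = Complex.exp ((Real.log D : ℂ) * (1 / 2)) := by
      rw [← ofReal_cpow_eq_exp hD, Real.sqrt_eq_rpow, Complex.ofReal_cpow hD.le]
      norm_num
    have hae : ((a i : ℝ) : ℂ) = Complex.exp ((Real.log (a i) : ℂ)) := by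
      rw [← Complex.ofReal_exp, Real.exp_log (ha i)]
    have hlog : Real.log ((a i * D)⁻¹) = -(Real.log (a i) + Real.log D) := by
      rw [Real.log_inv, Real.log_mul (ha i).ne' hD.ne']
    rw [ofReal_inv, ofReal_mul]
    rw [ofReal_cpow_eq_exp hD, ofReal_cpow_eq_exp hD, ofReal_cpow_eq_exp (ha i),
      ofReal_cpow_eq_exp (hb i), hlog, hsq]
    rw [hae]
    simp only [← Complex.exp_add, ← Complex.exp_neg]
    congr 1
    push_cast
    ring
  have h12 : ∀ s : ℂ, s ≠ 0 → s ≠ 1 → L1 s = L2 s :=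
    eq_of_halfPlane hd1 hd2 1 fun s hs => by rw [hv1 s hs, hv2 s hs]
  classical
  refine ⟨fun s => if s = 0 ∨ s = 1 then 0 else L1 s, fun s h0 h1 => ?_, fun s => ?_,
    fun s hs => ?_⟩
  · have hopen : ({0, 1} : Set ℂ)ᶜ ∈ 𝓝 s :=
      (((Set.finite_singleton (1 : ℂ)).insert 0).isClosed.isOpen_compl).mem_nhds
        (by simp [h0, h1])
    refine (hd1 s h0 h1).congr_of_eventuallyEq ?_
    filter_upwards [hopen] with t ht
    have ht' : ¬ (t = 0 ∨ t = 1) := by simpa using ht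
    rw [if_neg ht']
  · beta_reduce
    by_cases h : s = 0 ∨ s = 1
    · have h' : 1 - s = 0 ∨ 1 - s = 1 := by
        rcases h with rfl | rfl
        · right
          ring
        · left
          ring
      rw [if_pos h, if_pos h']
    · have h' : ¬ (1 - s = 0 ∨ 1 - s = 1) := by
        intro h''
        apply h
        rcases h'' with h'' | h''
        · right
          linear_combination -h''
        · left
          linear_combination -h''
      rw [if_neg h, if_neg h', hflip]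
      rw [not_or] at h
      exact (h12 s h.1 h.2).symm
  · have h : ¬ (s = 0 ∨ s = 1) := by
      rintro (rfl | rfl)
      · rw [zero_re] at hs
        linarith
      · rw [one_re] at hs
        linarith
    beta_reduce
    rw [if_neg h, hv1 s hs]

end Fermat.Agent.Classic.Zeta

end
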