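import Fermat.Agent.Classic.Zeta.Defs
import Fermat.Agent.ClassL.IdealSum

/-!
# The Dedekind zeta function as a sum over the ideal classes (plan Z, letter (f2))

* `zcl C s` : the sum of `N(I)^{-s}` over the non-zero integral ideals `I` of class `C`;
* `sum_zcl` : the sum over all classes is `LSeries (zc K) s`, `zc K n` the number of ideals of
  norm `n`;
* `cls 𝔟` : the class of a fractional ideal; `cls_dual`, `bijective_cls_dual`, `absNorm_dual`.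
-/

set_option autoImplicit false

noncomputable section

open NumberField nonZeroDivisors Complex

namespace Fermat.Agent.Classic.Zeta

variable {K : Type*} [Field K] [NumberField K]

/-! ### Sums over ideals -/

/-- `∑ N(I)^{-s}` over the non-zero integral ideals of class `C` -/
def zcl (C : ClassGroup (𝓞 K)) (s : ℂ) : ℂ :=
  ∑' I : {I : (Ideal (𝓞 K))⁰ // ClassGroup.mk0 I = C},
    (Ideal.absNorm (I.1 : Ideal (𝓞 K)) : ℂ) ^ (-s)

theorem norm_absNorm_cpow (s : ℂ) (I : (Ideal (𝓞 K))⁰) :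
    ‖(Ideal.absNorm (I : Ideal (𝓞 K)) : ℂ) ^ (-s)‖ = ClassL.nrm s.re I := by
  rw [Complex.norm_natCast_cpow_of_pos (Ideal.absNorm_pos_of_nonZeroDivisors I), neg_re,
    ClassL.nrm]

/-- The sum over all non-zero ideals converges absolutely for `Re s > 1`. -/
theorem summable_norm_ideals {s : ℂ} (hs : 1 < s.re) :
    Summable fun I : (Ideal (𝓞 K))⁰ => ‖(Ideal.absNorm (I : Ideal (𝓞 K)) : ℂ) ^ (-s)‖ := by
  simp only [norm_absNorm_cpow]
  exact ClassL.summable_nrm hs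

theorem summable_ideals {s : ℂ} (hs : 1 < s.re) :
    Summable fun I : (Ideal (𝓞 K))⁰ => (Ideal.absNorm (I : Ideal (𝓞 K)) : ℂ) ^ (-s) :=
  (summable_norm_ideals hs).of_norm

theorem summable_zcl {s : ℂ} (hs : 1 < s.re) (C : ClassGroup (𝓞 K)) :
    Summable fun I : {I : (Ideal (𝓞 K))⁰ // ClassGroup.mk0 I = C} =>
      (Ideal.absNorm (I.1 : Ideal (𝓞 K)) : ℂ) ^ (-s) :=
  (summable_ideals hs).comp_injective Subtype.val_injective

/-- The sum over all ideals, class by class. -/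
theorem sum_zcl_eq_tsum {s : ℂ} (hs : 1 < s.re) :
    ∑ C : ClassGroup (𝓞 K), zcl C s =
      ∑' I : (Ideal (𝓞 K))⁰, (Ideal.absNorm (I : Ideal (𝓞 K)) : ℂ) ^ (-s) := by
  let e : (Σ C : ClassGroup (𝓞 K), {I : (Ideal (𝓞 K))⁰ // ClassGroup.mk0 I = C}) ≃
      (Ideal (𝓞 K))⁰ := Equiv.sigmaFiberEquiv (fun I : (Ideal (𝓞 K))⁰ => ClassGroup.mk0 I)
  have hsum : Summable fun c => (Ideal.absNorm ((e c : (Ideal (𝓞 K))⁰) : Ideal (𝓞 K)) : ℂ) ^ (-s) :=
    e.summable_iff.mpr (summable_ideals hs)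
  rw [← e.tsum_eq, hsum.tsum_sigma, tsum_fintype]
  rfl

/-- Reindexing by any bijection of the classes. -/
theorem sum_zcl_comp {f : ClassGroup (𝓞 K) → ClassGroup (𝓞 K)} (hf : Function.Bijective f)
    (s : ℂ) : ∑ C : ClassGroup (𝓞 K), zcl (f C) s = ∑ C : ClassGroup (𝓞 K), zcl C s :=
  hf.sum_comp fun C => zcl C s

theorem sum_zcl_inv (s : ℂ) :
    ∑ C : ClassGroup (𝓞 K), zcl C⁻¹ s = ∑ C : ClassGroup (𝓞 K), zcl C s :=
  sum_zcl_comp (Equiv.inv _).bijective s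

/-- the non-zero ideals of norm `n` are the ideals of norm `n`, `n ≠ 0` -/
def equivNorm {n : ℕ} (hn : n ≠ 0) :
    {I : (Ideal (𝓞 K))⁰ // Ideal.absNorm (I : Ideal (𝓞 K)) = n} ≃
      {I : Ideal (𝓞 K) // Ideal.absNorm I = n} where
  toFun I := ⟨I.1, I.2⟩
  invFun I := ⟨⟨I.1, mem_nonZeroDivisors_of_ne_zero fun h => hn (by
    rw [← I.2, h, Ideal.zero_eq_bot, Ideal.absNorm_bot])⟩, I.2⟩
  left_inv _ := rfl
  right_inv _ := rfl

theorem finite_absNorm_eq (n : ℕ) : Finite {I : Ideal (𝓞 K) // Ideal.absNorm I = n} :=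
  Ideal.finite_setOfPred_absNorm_eq (S := 𝓞 K) n

/-- The ideals of norm `n`. -/
theorem hasSum_fiber (s : ℂ) (n : ℕ) :
    HasSum (fun I : {I : (Ideal (𝓞 K))⁰ // Ideal.absNorm (I : Ideal (𝓞 K)) = n} =>
      (Ideal.absNorm (I.1 : Ideal (𝓞 K)) : ℂ) ^ (-s))
      (LSeries.term (fun n => (Nat.card {I : Ideal (𝓞 K) // Ideal.absNorm I = n} : ℂ)) s n) := by
  by_cases hn : n = 0
  · subst hn
    have hE : IsEmpty {I : (Ideal (𝓞 K))⁰ // Ideal.absNorm (I : Ideal (𝓞 K)) = 0} :=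
      ⟨fun I => (Ideal.absNorm_pos_of_nonZeroDivisors I.1).ne' I.2⟩
    rw [LSeries.term_zero]
    exact hasSum_empty
  · have hf : Finite {I : Ideal (𝓞 K) // Ideal.absNorm I = n} := finite_absNorm_eq n
    have hf' : Finite {I : (Ideal (𝓞 K))⁰ // Ideal.absNorm (I : Ideal (𝓞 K)) = n} :=
      Finite.of_equiv _ (equivNorm hn).symm
    have := Fintype.ofFinite {I : (Ideal (𝓞 K))⁰ // Ideal.absNorm (I : Ideal (𝓞 K)) = n}
    have h1 : LSeries.term (fun n => (Nat.card {I : Ideal (𝓞 K) // Ideal.absNorm I = n} : ℂ)) s n =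
        ∑ I : {I : (Ideal (𝓞 K))⁰ // Ideal.absNorm (I : Ideal (𝓞 K)) = n},
          (Ideal.absNorm (I.1 : Ideal (𝓞 K)) : ℂ) ^ (-s) := by
      rw [LSeries.term_of_ne_zero hn, Finset.sum_congr rfl fun I _ => by rw [I.2],
        Finset.sum_const, Finset.card_univ, nsmul_eq_mul, ← Nat.card_eq_fintype_card,
        Nat.card_congr (equivNorm hn), cpow_neg, div_eq_mul_inv]
    rw [h1]
    exact hasSum_fintype _

/-- The Dirichlet series of the number of ideals. -/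
theorem hasSum_term {s : ℂ} (hs : 1 < s.re) :
    HasSum (LSeries.term (fun n => (Nat.card {I : Ideal (𝓞 K) // Ideal.absNorm I = n} : ℂ)) s)
      (∑' I : (Ideal (𝓞 K))⁰, (Ideal.absNorm (I : Ideal (𝓞 K)) : ℂ) ^ (-s)) := by
  let e : (Σ n : ℕ, {I : (Ideal (𝓞 K))⁰ // Ideal.absNorm (I : Ideal (𝓞 K)) = n}) ≃
      (Ideal (𝓞 K))⁰ :=
    Equiv.sigmaFiberEquiv (fun I : (Ideal (𝓞 K))⁰ => Ideal.absNorm (I : Ideal (𝓞 K)))
  have h1 : HasSum (fun c => (Ideal.absNorm ((e c : (Ideal (𝓞 K))⁰) : Ideal (𝓞 K)) : ℂ) ^ (-s))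
      (∑' I : (Ideal (𝓞 K))⁰, (Ideal.absNorm (I : Ideal (𝓞 K)) : ℂ) ^ (-s)) :=
    e.hasSum_iff.mpr (summable_ideals hs).hasSum
  exact h1.sigma fun n => hasSum_fiber s n

/-- The Dedekind zeta series converges absolutely for `Re s > 1`. -/
theorem lseriesSummable_card {s : ℂ} (hs : 1 < s.re) :
    LSeriesSummable (fun n => (Nat.card {I : Ideal (𝓞 K) // Ideal.absNorm I = n} : ℂ)) s :=
  (hasSum_term hs).summable

variable (K) in
/-- **The sum over all classes is the Dedekind zeta function.** -/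
theorem sum_zcl {s : ℂ} (hs : 1 < s.re) :
    ∑ C : ClassGroup (𝓞 K), zcl C s =
      LSeries (fun n => (Nat.card {I : Ideal (𝓞 K) // Ideal.absNorm I = n} : ℂ)) s := by
  rw [sum_zcl_eq_tsum hs]
  exact (hasSum_term hs).tsum_eq.symm

variable (K) in
theorem sum_zcl_eq_dedekindZeta {s : ℂ} (hs : 1 < s.re) :
    ∑ C : ClassGroup (𝓞 K), zcl C s = dedekindZeta K s := sum_zcl K hs

variable (K) in
/-- `sum_zcl` after any bijection of the classes -/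
theorem sum_zcl_bijective {s : ℂ} (hs : 1 < s.re)
    {f : ClassGroup (𝓞 K) → ClassGroup (𝓞 K)} (hf : Function.Bijective f) :
    ∑ C : ClassGroup (𝓞 K), zcl (f C) s =
      LSeries (fun n => (Nat.card {I : Ideal (𝓞 K) // Ideal.absNorm I = n} : ℂ)) s :=
  (sum_zcl_comp hf s).trans (sum_zcl K hs)

/-! ### Classes of fractional ideals -/

/-- the class of a non-zero fractional ideal -/
def cls (𝔟 : FractionalIdeal (𝓞 K)⁰ K) (h : 𝔟 ≠ 0) : ClassGroup (𝓞 K) :=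
  ClassGroup.mk K (Units.mk0 𝔟 h)

theorem cls_mul {𝔞 𝔟 : FractionalIdeal (𝓞 K)⁰ K} (ha : 𝔞 ≠ 0) (hb : 𝔟 ≠ 0) :
    cls (𝔞 * 𝔟) (mul_ne_zero ha hb) = cls 𝔞 ha * cls 𝔟 hb := by
  rw [cls, cls, cls, ← map_mul]
  congr 1
  exact Units.ext rfl

theorem cls_inv {𝔟 : FractionalIdeal (𝓞 K)⁰ K} (hb : 𝔟 ≠ 0) :
    cls 𝔟⁻¹ (inv_ne_zero hb) = (cls 𝔟 hb)⁻¹ := by
  rw [cls, cls, ← map_inv]
  congr 1
  exact Units.ext (by simp)

theorem cls_congr {𝔞 𝔟 : FractionalIdeal (𝓞 K)⁰ K} (ha : 𝔞 ≠ 0) (h : 𝔞 = 𝔟) :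
    cls 𝔞 ha = cls 𝔟 (h ▸ ha) := by
  subst h
  rfl

theorem cls_coeIdeal (I : (Ideal (𝓞 K))⁰) :
    cls ((I : Ideal (𝓞 K)) : FractionalIdeal (𝓞 K)⁰ K)
      (FractionalIdeal.coeIdeal_ne_zero.mpr (nonZeroDivisors.coe_ne_zero I)) =
      ClassGroup.mk0 I := by
  rw [cls, ← ClassGroup.mk_mk0 (K := K) I]
  congr 1

/-- an ideal in the class `C`, as a fractional ideal -/
def rep (C : ClassGroup (𝓞 K)) : FractionalIdeal (𝓞 K)⁰ K :=
  ((ClassGroup.mk0_surjective C).choose : Ideal (𝓞 K))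

theorem rep_ne_zero (C : ClassGroup (𝓞 K)) : rep C ≠ 0 :=
  FractionalIdeal.coeIdeal_ne_zero.mpr (nonZeroDivisors.coe_ne_zero _)

theorem cls_rep (C : ClassGroup (𝓞 K)) : cls (rep C) (rep_ne_zero C) = C :=
  (cls_coeIdeal _).trans (ClassGroup.mk0_surjective C).choose_spec

theorem dual_ne_zero' {𝔟 : FractionalIdeal (𝓞 K)⁰ K} (h : 𝔟 ≠ 0) :
    FractionalIdeal.dual ℤ ℚ 𝔟 ≠ 0 := FractionalIdeal.dual_ne_zero ℤ ℚ h

variable (K) in
/-- the class of the inverse different -/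
def clsD : ClassGroup (𝓞 K) :=
  cls (FractionalIdeal.dual ℤ ℚ (1 : FractionalIdeal (𝓞 K)⁰ K)) (dual_ne_zero' one_ne_zero)

/-- The class of the dual ideal. -/
theorem cls_dual {𝔟 : FractionalIdeal (𝓞 K)⁰ K} (h : 𝔟 ≠ 0) :
    cls (FractionalIdeal.dual ℤ ℚ 𝔟) (dual_ne_zero' h) = clsD K * (cls 𝔟 h)⁻¹ := by
  rw [← cls_inv h, clsD, ← cls_mul]
  exact cls_congr _ (FractionalIdeal.dual_eq_mul_inv ℤ ℚ 𝔟)

variable (K) in
/-- **Duality permutes the classes.** -/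
theorem bijective_cls_dual : Function.Bijective fun C : ClassGroup (𝓞 K) =>
    cls (FractionalIdeal.dual ℤ ℚ (rep C)) (dual_ne_zero' (rep_ne_zero C)) := by
  have h : (fun C : ClassGroup (𝓞 K) =>
      cls (FractionalIdeal.dual ℤ ℚ (rep C)) (dual_ne_zero' (rep_ne_zero C))) =
      fun C => clsD K * C⁻¹ := by
    funext C
    rw [cls_dual (rep_ne_zero C), cls_rep]
  rw [h]
  exact (Equiv.mulLeft (clsD K)).bijective.comp (Equiv.inv _).bijective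

variable (K) in
theorem bijective_cls_dual_inv : Function.Bijective fun C : ClassGroup (𝓞 K) =>
    (cls (FractionalIdeal.dual ℤ ℚ (rep C)) (dual_ne_zero' (rep_ne_zero C)))⁻¹ :=
  (Equiv.inv _).bijective.comp (bijective_cls_dual K)

theorem absNorm_dual_one :
    FractionalIdeal.absNorm (FractionalIdeal.dual ℤ ℚ (1 : FractionalIdeal (𝓞 K)⁰ K)) =
      ((|discr K| : ℤ) : ℚ)⁻¹ := by
  have h1 : ((differentIdeal ℤ (𝓞 K) : Ideal (𝓞 K)) : FractionalIdeal (𝓞 K)⁰ K) =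
      (FractionalIdeal.dual ℤ ℚ (1 : FractionalIdeal (𝓞 K)⁰ K))⁻¹ :=
    coeIdeal_differentIdeal ℤ ℚ K (𝓞 K)
  have h2 := congrArg FractionalIdeal.absNorm h1
  rw [FractionalIdeal.coeIdeal_absNorm, map_inv₀, absNorm_differentIdeal K (𝓞 K)] at h2
  rw [← inv_inv (FractionalIdeal.absNorm _), ← h2, Int.abs_eq_natAbs, Int.cast_natCast]

/-- **The norm of the dual ideal.** -/
theorem absNorm_dual (𝔟 : FractionalIdeal (𝓞 K)⁰ K) :
    FractionalIdeal.absNorm (FractionalIdeal.dual ℤ ℚ 𝔟) =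
      (((|discr K| : ℤ) : ℚ) * FractionalIdeal.absNorm 𝔟)⁻¹ := by
  rw [FractionalIdeal.dual_eq_mul_inv ℤ ℚ 𝔟, map_mul, map_inv₀, absNorm_dual_one, mul_inv]

theorem absNorm_dual_real (𝔟 : FractionalIdeal (𝓞 K)⁰ K) :
    (FractionalIdeal.absNorm (FractionalIdeal.dual ℤ ℚ 𝔟) : ℝ) =
      (|(discr K : ℝ)| * (FractionalIdeal.absNorm 𝔟 : ℝ))⁻¹ := by
  rw [absNorm_dual]
  push_cast
  rfl

theorem absNorm_pos {𝔟 : FractionalIdeal (𝓞 K)⁰ K} (h : 𝔟 ≠ 0) :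
    0 < FractionalIdeal.absNorm 𝔟 :=
  lt_of_le_of_ne (FractionalIdeal.absNorm_nonneg 𝔟)
    (fun h0 => h (FractionalIdeal.absNorm_eq_zero_iff.mp h0.symm))

theorem nF_pos {𝔟 : FractionalIdeal (𝓞 K)⁰ K} (h : 𝔟 ≠ 0) : 0 < nF 𝔟 :=
  Rat.cast_pos.mpr (absNorm_pos h)

/-! ### The statement of `Defs` -/

universe u

/-- (f2): the sum over the classes, and duality. -/
theorem zetaSumStmt₂ (K : Type u) [Field K] [NumberField K] : ZetaSumStmt K := by
  refine ⟨fun s hs => ?_, fun 𝔟 => ?_, fun 𝔟 _ => ?_, clsD K, fun 𝔟 => ?_⟩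
  · exact (sum_zcl_eq_dedekindZeta K hs).symm
  · exact FractionalIdeal.dual_dual ℤ ℚ 𝔟
  · rw [nF, dualF, absNorm_dual_real, mul_comm]
    rfl
  · have h := cls_dual (𝔟 := (𝔟 : FractionalIdeal (𝓞 K)⁰ K)) 𝔟.ne_zero
    rw [cls, cls, Units.mk0_val] at h
    exact h

end Fermat.Agent.Classic.Zeta

end
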