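import Fermat.Agent.Classic.Zeta.Defs
import Fermat.Agent.Classic.Zeta.Ident
import Fermat.Agent.Classic.Zeta.FE
import Fermat.Agent.Classic.Zeta.ZetaSum

/-!
# The functional equation of the Dedekind zeta function: assembly
-/

set_option autoImplicit false

noncomputable section

namespace Fermat.Agent.Classic.Zeta

open NumberField NumberField.InfinitePlace NumberField.Units MeasureTheory Set Real
open NumberField.Units.dirichletUnitTheorem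
open scoped nonZeroDivisors Classical

universe u

variable {K : Type u} [Field K] [NumberField K]

section nF

theorem dualF_ne_zero {𝔟 : FractionalIdeal (𝓞 K)⁰ K} (h : 𝔟 ≠ 0) : dualF 𝔟 ≠ 0 :=
  FractionalIdeal.dual_ne_zero ℤ ℚ h

variable (K) in
theorem disc_pos : 0 < |(discr K : ℝ)| :=
  abs_pos.mpr (Int.cast_ne_zero.mpr (discr_ne_zero K))

variable (K) in
theorem finrank_pos' : (0 : ℝ) < (Module.finrank ℚ K : ℝ) := by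
  exact_mod_cast Module.finrank_pos

end nF

section pair

variable {β : logSpace K → ℝ} (hβ : IsBeta β) (hT : TorusStmt K) (hD : DecayStmt K)

/-- the functional equation pair -/
def fe (𝔟 : (FractionalIdeal (𝓞 K)⁰ K)ˣ) : WeakFEPair ℂ where
  f x := ((F β (𝔟 : FractionalIdeal (𝓞 K)⁰ K) x : ℝ) : ℂ)
  g x := ((F β (dualF (𝔟 : FractionalIdeal (𝓞 K)⁰ K)) x : ℝ) : ℂ)
  k := Module.finrank ℚ K
  ε := (((√|(discr K : ℝ)| * nF (𝔟 : FractionalIdeal (𝓞 K)⁰ K))⁻¹ : ℝ) : ℂ)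
  f₀ := ((B β : ℝ) : ℂ)
  g₀ := ((B β : ℝ) : ℂ)
  hf_int := (Complex.continuous_ofReal.comp_continuousOn
    (hD β hβ _ 𝔟.ne_zero).1).locallyIntegrableOn measurableSet_Ioi
  hg_int := (Complex.continuous_ofReal.comp_continuousOn
    (hD β hβ _ (dualF_ne_zero 𝔟.ne_zero)).1).locallyIntegrableOn measurableSet_Ioi
  hk := finrank_pos' K
  hε := by
    rw [Complex.ofReal_ne_zero]
    exact inv_ne_zero (mul_ne_zero (Real.sqrt_ne_zero'.mpr (disc_pos K)) (nF_pos 𝔟.ne_zero).ne')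
  h_feq x hx := by
    have h := (hT.2 β hβ).2 _ 𝔟.ne_zero x hx
    rw [one_div, h, Real.rpow_natCast, smul_eq_mul]
    push_cast
    ring
  hf_top r := by
    have h := (hD β hβ _ 𝔟.ne_zero).2 r
    refine Asymptotics.IsBigO.of_norm_left (h.norm_left.congr_left fun x => ?_)
    rw [← Complex.ofReal_sub, Complex.norm_real]
  hg_top r := by
    have h := (hD β hβ _ (dualF_ne_zero 𝔟.ne_zero)).2 r
    refine Asymptotics.IsBigO.of_norm_left (h.norm_left.congr_left fun x => ?_)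
    rw [← Complex.ofReal_sub, Complex.norm_real]

theorem nF_dualF_mul (hZ : ZetaSumStmt K) {𝔟 : FractionalIdeal (𝓞 K)⁰ K} (h : 𝔟 ≠ 0) :
    (√|(discr K : ℝ)| * nF (dualF 𝔟))⁻¹ = √|(discr K : ℝ)| * nF 𝔟 := by
  rw [hZ.2.2.1 𝔟 h]
  have h1 := nF_pos h
  have h2 := disc_pos K
  have h3 : √|(discr K : ℝ)| ≠ 0 := Real.sqrt_ne_zero'.mpr h2
  have h4 : √|(discr K : ℝ)| * √|(discr K : ℝ)| = |(discr K : ℝ)| := Real.mul_self_sqrt h2.le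
  rw [show nF 𝔟 * |(discr K : ℝ)| = nF 𝔟 * (√|(discr K : ℝ)| * √|(discr K : ℝ)|) by rw [h4]]
  field_simp

theorem fe_ext {P Q : WeakFEPair ℂ} (hf : P.f = Q.f) (hg : P.g = Q.g) (hk : P.k = Q.k)
    (hε : P.ε = Q.ε) (h0 : P.f₀ = Q.f₀) (h1 : P.g₀ = Q.g₀) : P = Q := by
  cases P
  cases Q
  simp only at hf hg hk hε h0 h1
  subst hf hg hk hε h0 h1
  rfl

theorem fe_dual (hZ : ZetaSumStmt K) (𝔟 : (FractionalIdeal (𝓞 K)⁰ K)ˣ) :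
    fe hβ hT hD (dualU 𝔟) = (fe hβ hT hD 𝔟).symm := by
  have h1 := hZ.2.1 (𝔟 : FractionalIdeal (𝓞 K)⁰ K)
  have h2 := nF_dualF_mul hZ 𝔟.ne_zero
  refine fe_ext rfl ?_ rfl ?_ rfl rfl
  · ext x
    change ((F β (dualF (dualF (𝔟 : FractionalIdeal (𝓞 K)⁰ K))) x : ℝ) : ℂ) =
      ((F β (𝔟 : FractionalIdeal (𝓞 K)⁰ K) x : ℝ) : ℂ)
    rw [h1]
  · change (((√|(discr K : ℝ)| * nF (dualF (𝔟 : FractionalIdeal (𝓞 K)⁰ K)))⁻¹ : ℝ) : ℂ) =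
      (((√|(discr K : ℝ)| * nF (𝔟 : FractionalIdeal (𝓞 K)⁰ K))⁻¹ : ℝ) : ℂ)⁻¹
    rw [h2, Complex.ofReal_inv, inv_inv]

theorem tsum_Cls (C : ClassGroup (𝓞 K)) (𝔟 : (FractionalIdeal (𝓞 K)⁰ K)ˣ)
    (hC : ClassGroup.mk K 𝔟 = C) (s : ℂ) :
    ∑' 𝔞 : Cls 𝔟, ((Ideal.absNorm ((𝔞.1 : (Ideal (𝓞 K))⁰) : Ideal (𝓞 K)) : ℕ) : ℂ) ^ (-s) =
      zcK C⁻¹ s := by
  unfold zcK
  let e : Cls 𝔟 ≃ {𝔞 : (Ideal (𝓞 K))⁰ // ClassGroup.mk0 𝔞 = C⁻¹} :=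
    Equiv.subtypeEquivRight fun 𝔞 => by rw [hC, mul_eq_one_iff_eq_inv]
  exact e.tsum_eq (fun 𝔞 : {𝔞 : (Ideal (𝓞 K))⁰ // ClassGroup.mk0 𝔞 = C⁻¹} =>
    ((Ideal.absNorm ((𝔞 : (Ideal (𝓞 K))⁰) : Ideal (𝓞 K)) : ℕ) : ℂ) ^ (-s))

theorem fe_Λ {c : ℝ} (hM : ∀ β : logSpace K → ℝ, IsBeta β →
    ∀ (𝔟 : FractionalIdeal (𝓞 K)⁰ K), 𝔟 ≠ 0 → ∀ (ι : Type u) (g : ι → K), IsGen 𝔟 g →
      ∀ s : ℂ, 1 < s.re →
        Summable (fun i => (((|Algebra.norm ℚ (g i)| : ℚ) : ℂ)) ^ (-s)) ∧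
        mellin (fun x : ℝ => ((F β 𝔟 x - B β : ℝ) : ℂ)) ((Module.finrank ℚ K : ℂ) * s) =
          c * gam K s * ∑' i, (((|Algebra.norm ℚ (g i)| : ℚ) : ℂ)) ^ (-s))
    (hC : ClassStmt K) (𝔟 : (FractionalIdeal (𝓞 K)⁰ K)ˣ) (s : ℂ) (hs : 1 < s.re) :
    (fe hβ hT hD 𝔟).Λ (((Module.finrank ℚ K : ℝ) : ℂ) * s) = c * gam K s *
      (((nF (𝔟 : FractionalIdeal (𝓞 K)⁰ K) : ℝ) : ℂ) ^ (-s) *
        zcK (ClassGroup.mk K 𝔟)⁻¹ s) := by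
  obtain ⟨g, hg, hN⟩ := hC 𝔟
  have hn : (0 : ℝ) < (Module.finrank ℚ K : ℝ) := finrank_pos' K
  have hb := nF_pos 𝔟.ne_zero
  have hk : (fe hβ hT hD 𝔟).k < (((Module.finrank ℚ K : ℝ) : ℂ) * s).re := by
    change (Module.finrank ℚ K : ℝ) < _
    rw [Complex.re_ofReal_mul]
    nlinarith
  have h1 := ((fe hβ hT hD 𝔟).hasMellin hk).2
  have h2 := (hM β hβ _ 𝔟.ne_zero _ g hg s hs).2
  have h3 : (fun x : ℝ => (fe hβ hT hD 𝔟).f x - (fe hβ hT hD 𝔟).f₀) =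
      fun x : ℝ => ((F β (𝔟 : FractionalIdeal (𝓞 K)⁰ K) x - B β : ℝ) : ℂ) := by
    ext x
    rw [Complex.ofReal_sub]
    rfl
  rw [h3, Complex.ofReal_natCast] at h1
  rw [Complex.ofReal_natCast, ← h1, h2, ← tsum_Cls _ 𝔟 rfl s]
  set b : ℝ := nF (𝔟 : FractionalIdeal (𝓞 K)⁰ K) with hbdef
  have h4 : ∀ 𝔞 : Cls 𝔟, (((|Algebra.norm ℚ (g 𝔞)| : ℚ) : ℂ)) ^ (-s) =
      (b : ℂ) ^ (-s) *
        ((Ideal.absNorm ((𝔞.1 : (Ideal (𝓞 K))⁰) : Ideal (𝓞 K)) : ℕ) : ℂ) ^ (-s) := by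
    intro 𝔞
    have h5 : (((|Algebra.norm ℚ (g 𝔞)| : ℚ) : ℂ)) =
        ((Ideal.absNorm ((𝔞.1 : (Ideal (𝓞 K))⁰) : Ideal (𝓞 K)) : ℝ) : ℂ) * (b : ℂ) := by
      rw [← Complex.ofReal_mul, ← hN 𝔞, Complex.ofReal_ratCast]
    rw [h5, Complex.mul_cpow_ofReal_nonneg (Nat.cast_nonneg _) hb.le, Complex.ofReal_natCast,
      mul_comm]
  simp_rw [h4]
  rw [tsum_mul_left]

end pair

/-- a fractional ideal in every class -/
theorem exists_mk_eq (C : ClassGroup (𝓞 K)) :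
    ∃ 𝔟 : (FractionalIdeal (𝓞 K)⁰ K)ˣ, ClassGroup.mk K 𝔟 = C := by
  obtain ⟨I, hI⟩ := ClassGroup.mk0_surjective C
  exact ⟨FractionalIdeal.mk0 K I, by rw [ClassGroup.mk_mk0, hI]⟩

/-- the hypotheses of the abstract assembly -/
theorem exists_pairs (hT : TorusStmt K) (hD : DecayStmt K) (hM : MellinStmt K) (hC : ClassStmt K) :
    ∃ (P : ClassGroup (𝓞 K) → WeakFEPair ℂ) (c : ℂ) (a : ClassGroup (𝓞 K) → ℝ)
      (σ : ClassGroup (𝓞 K) ≃ ClassGroup (𝓞 K)), (∀ i, 0 < a i) ∧ c ≠ 0 ∧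
      (∀ i, (P i).k = (Module.finrank ℚ K : ℝ)) ∧
      (∀ i, (P i).ε = (((√|(discr K : ℝ)| * a i)⁻¹ : ℝ) : ℂ)) ∧
      (∀ i, ∀ s : ℂ, 1 < s.re → (P i).Λ (((Module.finrank ℚ K : ℝ) : ℂ) * s) =
        c * gam K s * ((a i : ℂ) ^ (-s) * zcK i⁻¹ s)) ∧
      (∀ i, ∀ s : ℂ, 1 < s.re → (P i).symm.Λ (((Module.finrank ℚ K : ℝ) : ℂ) * s) =
        c * gam K s * ((((a i * |(discr K : ℝ)|)⁻¹ : ℝ) : ℂ) ^ (-s) * zcK (σ i)⁻¹ s)) := by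
  have hZ := zetaSumStmt₂ K
  obtain ⟨β, hβ⟩ := hT.1
  obtain ⟨c, hc, hM⟩ := hM
  obtain ⟨C₀, hC₀⟩ := hZ.2.2.2
  choose r hr using exists_mk_eq (K := K)
  refine ⟨fun C => fe hβ hT hD (r C), c, fun C => nF (r C : FractionalIdeal (𝓞 K)⁰ K),
    Equiv.divLeft C₀, fun C => nF_pos (r C).ne_zero, by exact_mod_cast hc.ne', fun _ => rfl,
    fun _ => rfl, fun C s hs => ?_, fun C s hs => ?_⟩
  · rw [fe_Λ hβ hT hD hM hC _ s hs, hr]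
  · rw [← fe_dual hβ hT hD hZ, fe_Λ hβ hT hD hM hC _ s hs, hC₀, hr, coe_dualU,
      hZ.2.2.1 _ (r C).ne_zero, Equiv.divLeft_apply, div_eq_mul_inv]

/-- **The functional equation of the Dedekind zeta function**, in the form of helper5: entire
after multiplication by `s (1 - s)`. -/
theorem zetaFE_of (hT : TorusStmt K) (hD : DecayStmt K) (hM : MellinStmt K) (hC : ClassStmt K) :
    FE (fun n => (Nat.card {I : Ideal (𝓞 K) // Ideal.absNorm I = n} : ℂ))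
      (fun n => (Nat.card {I : Ideal (𝓞 K) // Ideal.absNorm I = n} : ℂ))
      (discr K).natAbs (nrRealPlaces K) (nrComplexPlaces K) := by
  obtain ⟨P, c, a, σ, ha, hc, hk, hε, hf, hg⟩ := exists_pairs hT hD hM hC
  obtain ⟨Ξ, hΞ, hΞ'⟩ := exists_Xi_of_pairs P (finrank_pos' K) (disc_pos K) ha hc hk hε σ hf hg
  have hd : ((|(discr K : ℝ)| : ℝ) : ℂ) = (((discr K).natAbs : ℕ) : ℂ) := by
    rw [← Complex.ofReal_natCast, Nat.cast_natAbs, Int.cast_abs]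
  have hsum : ∀ s : ℂ, 1 < s.re → ∑ C : ClassGroup (𝓞 K), zcK C⁻¹ s =
      LSeries (fun n => (Nat.card {I : Ideal (𝓞 K) // Ideal.absNorm I = n} : ℂ)) s := by
    intro s hs
    exact sum_zcl_bijective K hs (Equiv.inv (ClassGroup (𝓞 K))).bijective
  refine ⟨1, 1, Ξ, 1, one_ne_zero, hΞ, le_rfl, fun s hs =>
    ⟨lseriesSummable_card hs, lseriesSummable_card hs, ?_, ?_⟩⟩
  · rw [(hΞ' s hs).1, hsum s hs, pow_one, hd, gam]
    ring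
  · rw [(hΞ' s hs).2, hsum s hs, pow_one, hd, gam, one_mul]
    ring

/-- **The functional equation of the Dedekind zeta function.** -/
theorem xiStmt_of (hT : TorusStmt K) (hD : DecayStmt K) (hM : MellinStmt K) (hC : ClassStmt K) :
    XiStmt K := by
  obtain ⟨P, c, a, σ, ha, hc, hk, hε, hf, hg⟩ := exists_pairs hT hD hM hC
  obtain ⟨Λ, h1, h2, h3⟩ := exists_xi_of_pairs P (finrank_pos' K) (disc_pos K) ha hc hk hε σ hf hg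
  refine ⟨Λ, h1, h2, fun s hs => ?_⟩
  rw [h3 s hs]
  congr 1
  exact (sum_zcl_bijective K hs (Equiv.inv (ClassGroup (𝓞 K))).bijective).trans rfl

end Fermat.Agent.Classic.Zeta
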