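import Mathlib

/-!
# The Mellin transform of an unfolded sum

`f x = ∑ i, ∫ y, k i x y` with non-negative `k`; if the Mellin transform of `f` converges
absolutely at `s`, then it is the sum of the double integrals.
-/

set_option autoImplicit false

noncomputable section

open MeasureTheory Set Filter
open scoped ENNReal

namespace Fermat.Agent.Classic.Zeta

theorem norm_cpow_sub_one {x : ℝ} (hx : 0 < x) (s : ℂ) :
    ‖(x : ℂ) ^ (s - 1)‖ = x ^ (s.re - 1) := by
  rw [Complex.norm_cpow_eq_rpow_re_of_pos hx]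
  simp

/-- **The Mellin transform of an unfolded sum.** -/
theorem mellin_unfold {ι Y : Type*} [Countable ι] [MeasurableSpace Y] {ν : Measure Y} [SFinite ν]
    {f : ℝ → ℝ} {k : ι → ℝ → Y → ℝ} (hk : ∀ i, Measurable fun p : ℝ × Y => k i p.1 p.2)
    (hk0 : ∀ i x y, 0 ≤ k i x y) (hf0 : ∀ x, 0 < x → 0 ≤ f x)
    (hf : ∀ x, 0 < x → ENNReal.ofReal (f x) = ∑' i, ∫⁻ y, ENNReal.ofReal (k i x y) ∂ν)
    {s : ℂ} (hs : MellinConvergent (fun x => (f x : ℂ)) s) {A : ι → ℝ} (hA0 : ∀ i, 0 ≤ A i)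
    (hA : ∀ i, ∫⁻ x in Ioi (0 : ℝ), ∫⁻ y, ENNReal.ofReal (x ^ (s.re - 1) * k i x y) ∂ν =
      ENNReal.ofReal (A i)) :
    Summable A ∧ HasSum (fun i => ∫ x in Ioi (0 : ℝ), ∫ y, (x : ℂ) ^ (s - 1) * (k i x y : ℂ) ∂ν)
      (mellin (fun x => (f x : ℂ)) s) := by
  classical
  set σ := s.re with hσ
  let G : ι → ℝ → ℝ≥0∞ := fun i x => ∫⁻ y, ENNReal.ofReal (k i x y) ∂ν
  have hGm : ∀ i, Measurable (G i) := fun i =>
    Measurable.lintegral_prod_right' (ENNReal.measurable_ofReal.comp (hk i))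
  have hGsum : ∀ x, 0 < x → ∑' i, G i x = ENNReal.ofReal (f x) := fun x hx => (hf x hx).symm
  have hGfin : ∀ x, 0 < x → ∀ i, G i x ≠ ∞ := by
    intro x hx i
    have h0 : G i x ≤ ∑' j, G j x := ENNReal.le_tsum i
    rw [hGsum x hx] at h0
    exact ne_top_of_le_ne_top ENNReal.ofReal_ne_top h0
  let g : ι → ℝ → ℝ := fun i x => (G i x).toReal
  have hgm : ∀ i, Measurable (g i) := fun i => (hGm i).ennreal_toReal
  have hg0 : ∀ i x, 0 ≤ g i x := fun i x => ENNReal.toReal_nonneg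
  have hg : ∀ i x, ∫ y, k i x y ∂ν = g i x := by
    intro i x
    rw [integral_eq_lintegral_of_nonneg_ae (Eventually.of_forall fun y => hk0 i x y)]
    exact ((hk i).comp measurable_prodMk_left).aestronglyMeasurable
  have hgG : ∀ x, 0 < x → ∀ i, ENNReal.ofReal (g i x) = G i x := fun x hx i =>
    ENNReal.ofReal_toReal (hGfin x hx i)
  have hgsum : ∀ x, 0 < x → HasSum (fun i => g i x) (f x) := by
    intro x hx
    have h1 : ∑' i, G i x ≠ ∞ := by
      rw [hGsum x hx]
      exact ENNReal.ofReal_ne_top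
    have h2 := ENNReal.hasSum_toReal h1
    have h3 : ∀ j, G j x ≠ ∞ := hGfin x hx
    rwa [← ENNReal.tsum_toReal_eq h3, hGsum x hx, ENNReal.toReal_ofReal (hf0 x hx)] at h2
  -- the integral over `x`
  have hint : ∀ i, ∫⁻ x in Ioi (0 : ℝ), ENNReal.ofReal (x ^ (σ - 1)) * G i x =
      ENNReal.ofReal (A i) := by
    intro i
    rw [← hA i]
    refine setLIntegral_congr_fun measurableSet_Ioi fun x hx => ?_
    have hx' : (0 : ℝ) ≤ x ^ (σ - 1) := Real.rpow_nonneg (le_of_lt hx) _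
    have h3 : ∀ y, ENNReal.ofReal (x ^ (σ - 1) * k i x y) =
        ENNReal.ofReal (x ^ (σ - 1)) * ENNReal.ofReal (k i x y) := fun y =>
      ENNReal.ofReal_mul hx'
    simp only [h3]
    rw [lintegral_const_mul]
    exact ENNReal.measurable_ofReal.comp ((hk i).comp measurable_prodMk_left)
  have hpm : Measurable fun x : ℝ => x ^ (σ - 1) := measurable_id.pow_const _
  have htot : ∑' i, ENNReal.ofReal (A i) =
      ∫⁻ x in Ioi (0 : ℝ), ENNReal.ofReal (x ^ (σ - 1)) * ENNReal.ofReal (f x) := by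
    simp only [← hint]
    have hm : ∀ i, AEMeasurable (fun x : ℝ => ENNReal.ofReal (x ^ (σ - 1)) * G i x)
        (volume.restrict (Ioi (0 : ℝ))) := fun i =>
      ((ENNReal.measurable_ofReal.comp hpm).mul (hGm i)).aemeasurable
    rw [← lintegral_tsum hm]
    refine setLIntegral_congr_fun measurableSet_Ioi fun x hx => ?_
    rw [ENNReal.tsum_mul_left, hGsum x hx]
  have hfin : ∑' i, ENNReal.ofReal (A i) ≠ ∞ := by
    rw [htot]
    have h4 := hs.2
    rw [HasFiniteIntegral] at h4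
    refine ne_top_of_le_ne_top h4.ne ?_
    refine le_of_eq (setLIntegral_congr_fun measurableSet_Ioi fun x hx => ?_)
    simp only
    rw [smul_eq_mul, enorm_mul, ← ofReal_norm, ← ofReal_norm,
      norm_cpow_sub_one hx, Complex.norm_real, Real.norm_of_nonneg (hf0 x hx)]
  have hsumA : Summable A := by
    have h5 := ENNReal.summable_toReal hfin
    refine h5.congr fun i => ENNReal.toReal_ofReal (hA0 i)
  refine ⟨hsumA, ?_⟩
  -- the complex version
  let Fc : ι → ℝ → ℂ := fun i x => (x : ℂ) ^ (s - 1) * (g i x : ℂ)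
  have hFm : ∀ i, AEStronglyMeasurable (Fc i) (volume.restrict (Ioi (0 : ℝ))) := by
    intro i
    refine AEStronglyMeasurable.mul ?_ ?_
    · refine ContinuousOn.aestronglyMeasurable ?_ measurableSet_Ioi
      intro x hx
      refine ContinuousAt.continuousWithinAt ?_
      exact (Complex.continuousAt_ofReal_cpow_const _ _ (Or.inr (ne_of_gt hx)))
    · exact (Complex.measurable_ofReal.comp (hgm i)).aestronglyMeasurable
  have hFn : ∀ i, ∀ x ∈ Ioi (0 : ℝ), ‖Fc i x‖ₑ = ENNReal.ofReal (x ^ (σ - 1)) * G i x := by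
    intro i x hx
    rw [enorm_mul, ← ofReal_norm, ← ofReal_norm, norm_cpow_sub_one hx,
      Complex.norm_real, Real.norm_of_nonneg (hg0 i x), hgG x hx]
  have hFl : ∀ i, ∫⁻ x in Ioi (0 : ℝ), ‖Fc i x‖ₑ = ENNReal.ofReal (A i) := by
    intro i
    rw [← hint i]
    exact setLIntegral_congr_fun measurableSet_Ioi (hFn i)
  have hFi : ∀ i, Integrable (Fc i) (volume.restrict (Ioi (0 : ℝ))) := fun i =>
    ⟨hFm i, by rw [HasFiniteIntegral, hFl i]; exact ENNReal.ofReal_lt_top⟩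
  have hFnorm : ∀ i, ∫ x in Ioi (0 : ℝ), ‖Fc i x‖ = A i := by
    intro i
    rw [integral_norm_eq_lintegral_enorm (hFm i), hFl i, ENNReal.toReal_ofReal (hA0 i)]
  have key := hasSum_integral_of_summable_integral_norm hFi (by simpa only [hFnorm] using hsumA)
  have h6 : ∀ i, ∫ x in Ioi (0 : ℝ), Fc i x =
      ∫ x in Ioi (0 : ℝ), ∫ y, (x : ℂ) ^ (s - 1) * (k i x y : ℂ) ∂ν := by
    intro i
    refine setIntegral_congr_fun measurableSet_Ioi fun x _ => ?_
    simp only [Fc]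
    rw [integral_const_mul, integral_complex_ofReal, hg]
  have h7 : ∫ x in Ioi (0 : ℝ), ∑' i, Fc i x = mellin (fun x => (f x : ℂ)) s := by
    rw [mellin]
    refine setIntegral_congr_fun measurableSet_Ioi fun x hx => ?_
    simp only [Fc, smul_eq_mul]
    rw [tsum_mul_left]
    congr 1
    rw [← Complex.ofReal_tsum, (hgsum x hx).tsum_eq]
  rw [h7] at key
  simpa only [h6] using key

/-- The real form of an absolutely convergent double integral. -/
theorem exists_real_form {Y : Type*} [MeasurableSpace Y] {ν : Measure Y} [SFinite ν]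
    {k : ℝ → Y → ℝ} (hk : Measurable fun p : ℝ × Y => k p.1 p.2) (hk0 : ∀ x y, 0 ≤ k x y) {τ : ℝ}
    (hI : IntegrableOn (fun p : ℝ × Y => (p.1 : ℂ) ^ ((τ : ℂ) - 1) * (k p.1 p.2 : ℂ))
      (Ioi 0 ×ˢ univ) (volume.prod ν)) :
    ∃ A : ℝ, 0 ≤ A ∧
      ∫⁻ x in Ioi (0 : ℝ), ∫⁻ y, ENNReal.ofReal (x ^ (τ - 1) * k x y) ∂ν = ENNReal.ofReal A ∧
      (A : ℂ) = ∫ x in Ioi (0 : ℝ), ∫ y, (x : ℂ) ^ ((τ : ℂ) - 1) * (k x y : ℂ) ∂ν := by
  have hcast : ∀ x : ℝ, 0 < x → ∀ y, ((x ^ (τ - 1) * k x y : ℝ) : ℂ) =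
      (x : ℂ) ^ ((τ : ℂ) - 1) * (k x y : ℂ) := by
    intro x hx y
    rw [Complex.ofReal_mul, Complex.ofReal_cpow hx.le, Complex.ofReal_sub, Complex.ofReal_one]
  have hμ : (volume.prod ν).restrict (Ioi (0 : ℝ) ×ˢ (univ : Set Y)) =
      (volume.restrict (Ioi (0 : ℝ))).prod ν := by
    rw [← Measure.prod_restrict, Measure.restrict_univ]
  rw [IntegrableOn, hμ] at hI
  have hm : Measurable fun p : ℝ × Y => p.1 ^ (τ - 1) * k p.1 p.2 :=
    (measurable_fst.pow_const _).mul hk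
  have hae : ∀ᵐ p ∂(volume.restrict (Ioi (0 : ℝ))).prod ν, 0 < p.1 := by
    rw [← hμ]
    filter_upwards [ae_restrict_mem (measurableSet_Ioi.prod MeasurableSet.univ)] with p hp
    exact hp.1
  have hI2 : Integrable (fun p : ℝ × Y => p.1 ^ (τ - 1) * k p.1 p.2)
      ((volume.restrict (Ioi (0 : ℝ))).prod ν) := by
    refine hI.norm.congr ?_
    filter_upwards [hae] with p hp
    rw [← hcast p.1 hp, Complex.norm_real, Real.norm_of_nonneg]
    exact mul_nonneg (Real.rpow_nonneg hp.le _) (hk0 _ _)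
  refine ⟨∫ x in Ioi (0 : ℝ), ∫ y, x ^ (τ - 1) * k x y ∂ν, ?_, ?_, ?_⟩
  · refine setIntegral_nonneg measurableSet_Ioi fun x hx => ?_
    exact integral_nonneg fun y => mul_nonneg (Real.rpow_nonneg (le_of_lt hx) _) (hk0 _ _)
  · have h1 := ofReal_integral_eq_lintegral_ofReal hI2 (by
      filter_upwards [hae] with p hp
      exact mul_nonneg (Real.rpow_nonneg hp.le _) (hk0 _ _))
    rw [integral_prod _ hI2] at h1
    have h2 : AEMeasurable (fun p : ℝ × Y => ENNReal.ofReal (p.1 ^ (τ - 1) * k p.1 p.2))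
        ((volume.restrict (Ioi (0 : ℝ))).prod ν) :=
      (ENNReal.measurable_ofReal.comp hm).aemeasurable
    rw [h1, lintegral_prod _ h2]
  · rw [← integral_complex_ofReal]
    refine setIntegral_congr_fun measurableSet_Ioi fun x hx => ?_
    rw [← integral_complex_ofReal]
    exact integral_congr_ae (Eventually.of_forall fun y => hcast x hx y)

end Fermat.Agent.Classic.Zeta
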