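import Fermat.Agent.Classic.Zeta.Defs
import Fermat.Agent.Classic.Zeta.MellinAbs

/-!
# The Mellin transform of the theta function of an ideal

`mellinStmt_of`: for `1 < Re s` the Mellin transform of `F β 𝔟 - B β` at `n s` is
`c * gam K s * ∑ |N x|^{-s}`, the sum over the non-zero elements of `𝔟` modulo units.
-/

set_option autoImplicit false

noncomputable section

namespace Fermat.Agent.Classic.Zeta

open NumberField NumberField.InfinitePlace NumberField.Units MeasureTheory Set Real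
open NumberField.Units.dirichletUnitTheorem
open scoped nonZeroDivisors Classical

universe u

variable {K : Type u} [Field K] [NumberField K]

/-- (d) **helper28**, Unfold.lean: the unfolding, for fixed `x`. -/
def UnfoldStmt (K : Type u) [Field K] [NumberField K] : Prop :=
  ∀ β : logSpace K → ℝ, IsBeta β → ∀ (𝔟 : FractionalIdeal (𝓞 K)⁰ K), 𝔟 ≠ 0 →
    ∀ (ι : Type u) (g : ι → K), IsGen 𝔟 g → ∀ x : ℝ, 0 < x → B β ≤ F β 𝔟 x ∧
      ENNReal.ofReal (F β 𝔟 x - B β) = ∑' i, ∫⁻ y, ENNReal.ofReal (E (tt x y) (g i))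

theorem Mel.countable_nf (K : Type u) [Field K] [NumberField K] : Countable K :=
  (Module.finBasis ℚ K).equivFun.toEquiv.countable_iff.mpr inferInstance

omit [NumberField K] in
theorem Mel.gen_injective {𝔟 : FractionalIdeal (𝓞 K)⁰ K} {ι : Type u} {g : ι → K}
    (h : IsGen 𝔟 g) : Function.Injective g := fun i j hij =>
  (h.inj i j 1 1 (by rw [hij])).1

theorem Mel.gen_countable {𝔟 : FractionalIdeal (𝓞 K)⁰ K} {ι : Type u} {g : ι → K}
    (h : IsGen 𝔟 g) : Countable ι :=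
  haveI := Mel.countable_nf K
  (Mel.gen_injective h).countable

theorem Mel.measurable_tt (w : InfinitePlace K) :
    Measurable fun p : ℝ × logSpace K => tt p.1 p.2 w := by
  by_cases h : w = w₀
  · simp only [tt, h, dite_true]
    fun_prop
  · simp only [tt, h, dite_false]
    fun_prop

theorem Mel.measurable_E_tt (a : K) :
    Measurable fun p : ℝ × logSpace K => E (tt p.1 p.2) a := by
  unfold E
  refine Real.measurable_exp.comp (Measurable.const_mul ?_ _)
  refine Finset.measurable_sum _ fun w _ => Measurable.const_mul ?_ _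
  exact (Mel.measurable_tt w).mul_const _

theorem Mel.E_nonneg (t : InfinitePlace K → ℝ) (a : K) : 0 ≤ E t a := (Real.exp_pos _).le

/-- Absolute convergence of the Mellin transform of `F - B`. -/
theorem mellinConvergent_F (hT : TorusStmt K) (hD : DecayStmt K) {β : logSpace K → ℝ}
    (hβ : IsBeta β) {𝔟 : FractionalIdeal (𝓞 K)⁰ K} (h𝔟 : 𝔟 ≠ 0) {s : ℂ}
    (hs : (Module.finrank ℚ K : ℝ) < s.re) :
    MellinConvergent (fun x : ℝ => ((F β 𝔟 x - B β : ℝ) : ℂ)) s := by
  set n := Module.finrank ℚ K with hn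
  have h𝔟' : dualF 𝔟 ≠ 0 := FractionalIdeal.dual_ne_zero ℤ ℚ h𝔟
  obtain ⟨hc, hr⟩ := hD β hβ 𝔟 h𝔟
  obtain ⟨-, hr'⟩ := hD β hβ (dualF 𝔟) h𝔟'
  have hfe := (hT.2 β hβ).2 𝔟 h𝔟
  refine mellinConvergent_of_isBigO_rpow (a := s.re + 1) (b := n) ?_ ?_ (by linarith) ?_ hs
  · refine ContinuousOn.locallyIntegrableOn ?_ measurableSet_Ioi
    exact Complex.continuous_ofReal.comp_continuousOn (hc.sub continuousOn_const)
  · exact Asymptotics.IsBigO.of_norm_left (by
      simpa only [Complex.norm_real] using (hr (-(s.re + 1))).norm_left)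
  · refine Asymptotics.IsBigO.of_norm_left ?_
    simp only [Complex.norm_real]
    refine Asymptotics.IsBigO.norm_left ?_
    set C : ℝ := (√|(discr K : ℝ)| * nF 𝔟)⁻¹ with hC
    -- `x ^ (-n)` is at least one near zero
    have h1 : (fun _ : ℝ => (1 : ℝ)) =O[nhdsWithin 0 (Ioi 0)] fun x : ℝ => x ^ (-(n : ℝ)) := by
      refine Asymptotics.IsBigO.of_bound 1 ?_
      filter_upwards [Ioo_mem_nhdsGT (show (0 : ℝ) < 1 by norm_num)] with x hx
      rw [norm_one, one_mul, Real.norm_of_nonneg (Real.rpow_nonneg hx.1.le _)]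
      exact Real.one_le_rpow_of_pos_of_le_one_of_nonpos hx.1 hx.2.le (by simp)
    have h2 : (fun t : ℝ => F β (dualF 𝔟) t) =O[Filter.atTop] fun _ : ℝ => (1 : ℝ) := by
      have h3 := hr' 0
      simp only [Real.rpow_zero] at h3
      have h4 : (fun _ : ℝ => B β) =O[Filter.atTop] fun _ : ℝ => (1 : ℝ) :=
        Asymptotics.isBigO_const_const _ one_ne_zero _
      simpa using h3.add h4
    have h5 : (fun x : ℝ => F β (dualF 𝔟) x⁻¹) =O[nhdsWithin 0 (Ioi 0)] fun _ : ℝ => (1 : ℝ) :=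
      h2.comp_tendsto tendsto_inv_nhdsGT_zero
    have h6 : (fun x : ℝ => F β 𝔟 x) =O[nhdsWithin 0 (Ioi 0)] fun x : ℝ => x ^ (-(n : ℝ)) := by
      have h7 : (fun x : ℝ => F β 𝔟 x) =ᶠ[nhdsWithin 0 (Ioi 0)]
          fun x : ℝ => C * (x ^ (-(n : ℝ)) * F β (dualF 𝔟) x⁻¹) := by
        filter_upwards [self_mem_nhdsWithin] with x hx
        have h8 := hfe x⁻¹ (inv_pos.mpr hx)
        rw [inv_inv] at h8
        rw [h8, mul_assoc, Real.rpow_neg (le_of_lt hx), Real.rpow_natCast, inv_pow]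
      refine h7.trans_isBigO (Asymptotics.IsBigO.const_mul_left ?_ _)
      simpa using (Asymptotics.isBigO_refl (fun x : ℝ => x ^ (-(n : ℝ)))
        (nhdsWithin 0 (Ioi 0))).mul h5
    exact h6.sub ((Asymptotics.isBigO_const_const (B β) one_ne_zero _).trans h1)

theorem gam_ne_zero {s : ℂ} (hs : 0 < s.re) : gam K s ≠ 0 := by
  refine mul_ne_zero (pow_ne_zero _ (Complex.Gammaℝ_ne_zero_of_re_pos hs)) (pow_ne_zero _ ?_)
  rw [Complex.Gammaℂ_def]
  refine mul_ne_zero (mul_ne_zero two_ne_zero ?_) (Complex.Gamma_ne_zero_of_re_pos hs)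
  rw [Complex.cpow_ne_zero_iff]
  exact Or.inl (by norm_num [Real.pi_ne_zero])

/-- **The Mellin transform of the theta function of an ideal.** -/
theorem mellinStmt_of (hU : UnfoldStmt K) (hT : TorusStmt K) (hD : DecayStmt K)
    (hG : GammaStmt K) : MellinStmt K := by
  obtain ⟨c, hc, hG⟩ := hG
  refine ⟨c, hc, fun β hβ 𝔟 h𝔟 ι g hg s hs => ?_⟩
  have := Mel.gen_countable hg
  set n := Module.finrank ℚ K with hn
  have hn0 : (0 : ℝ) < n := by exact_mod_cast Module.finrank_pos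
  have hsr : ((n : ℂ) * s).re = n * s.re := by simp
  have hconv := mellinConvergent_F hT hD hβ h𝔟 (s := (n : ℂ) * s) (by
    rw [hsr]
    nlinarith)
  -- the real version
  have hreal : ∀ i, ∃ A : ℝ, 0 ≤ A ∧
      ∫⁻ x in Ioi (0 : ℝ), ∫⁻ y : logSpace K,
        ENNReal.ofReal (x ^ (((n : ℂ) * s).re - 1) * E (tt x y) (g i)) = ENNReal.ofReal A ∧
      (A : ℂ) = c * gam K (s.re : ℂ) * (((|Algebra.norm ℚ (g i)| : ℚ) : ℂ)) ^ (-(s.re : ℂ)) := by
    intro i
    obtain ⟨h1, h2⟩ := hG (g i) (hg.ne_zero i) (s.re : ℂ) (by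
      rw [Complex.ofReal_re]
      linarith)
    have h3 : (n : ℂ) * (s.re : ℂ) = (((n : ℂ) * s).re : ℂ) := by
      rw [hsr]
      push_cast
      ring
    rw [h3] at h1 h2
    rw [Measure.volume_eq_prod] at h1
    obtain ⟨A, hA0, hA1, hA2⟩ := exists_real_form (Mel.measurable_E_tt (g i))
      (fun x y => Mel.E_nonneg _ _) h1
    exact ⟨A, hA0, hA1, by rw [hA2, h2]⟩
  choose A hA0 hA1 hA2 using hreal
  obtain ⟨hsA, hsum⟩ := mellin_unfold (k := fun i x y => E (tt x y) (g i))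
    (fun i => Mel.measurable_E_tt (g i)) (fun i x y => Mel.E_nonneg _ _)
    (f := fun x => F β 𝔟 x - B β)
    (fun x hx => sub_nonneg.mpr (hU β hβ 𝔟 h𝔟 ι g hg x hx).1)
    (fun x hx => (hU β hβ 𝔟 h𝔟 ι g hg x hx).2) hconv hA0 hA1
  have hcg : ∀ z : ℂ, 0 < z.re → (c : ℂ) * gam K z ≠ 0 := fun z hz =>
    mul_ne_zero (by exact_mod_cast hc.ne') (gam_ne_zero hz)
  have hs0 : 0 < s.re := by linarith
  have hN : ∀ i, (0 : ℝ) < ((|Algebra.norm ℚ (g i)| : ℚ) : ℝ) := by
    intro i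
    exact_mod_cast abs_pos.mpr (Algebra.norm_ne_zero_iff.mpr (hg.ne_zero i))
  have hNc : ∀ i, (((|Algebra.norm ℚ (g i)| : ℚ) : ℝ) : ℂ) = ((|Algebra.norm ℚ (g i)| : ℚ) : ℂ) :=
    fun i => Complex.ofReal_ratCast _
  have hsumm : Summable fun i => (((|Algebra.norm ℚ (g i)| : ℚ) : ℂ)) ^ (-s) := by
    have h4 : Summable fun i => (A i : ℂ) := Complex.ofRealCLM.summable hsA
    have h5 : Summable fun i => (((|Algebra.norm ℚ (g i)| : ℚ) : ℂ)) ^ (-(s.re : ℂ)) := by
      refine (h4.mul_left ((c : ℂ) * gam K (s.re : ℂ))⁻¹).congr fun i => ?_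
      rw [hA2 i, inv_mul_cancel_left₀ (hcg _ (by simpa using hs0))]
    refine Summable.of_norm (h5.norm.congr fun i => ?_)
    rw [← hNc i, Complex.norm_cpow_eq_rpow_re_of_pos (hN i),
      Complex.norm_cpow_eq_rpow_re_of_pos (hN i)]
    simp
  refine ⟨hsumm, ?_⟩
  rw [← hsum.tsum_eq, ← tsum_mul_left]
  refine tsum_congr fun i => ?_
  exact (hG (g i) (hg.ne_zero i) s hs0).2

end Fermat.Agent.Classic.Zeta
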